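import Mathlib
import Fermat.Agent.S30.AdicTransfer

/-!
# S31 (R4, abstract half): transport of a Galois module along a commutative subalgebra of `End_R M`

`R` a commutative ring, `M` an `R`-module, `B ≤ End_R M` a subalgebra all of whose elements commute
(`hB`), `ρ : G →* End_R M` commuting with `B` (`hρB`), `χ : G →* Rˣ`, `I` an ideal of `R`.

* `Comm B hB` : the subalgebra as a type of its own, with `CommRing`, `Algebra R`, `Module _ M`
  (`b • v = b v`), `IsScalarTower R (Comm B hB) M`;
* `rhoB B hB ρ hρB : G →* Module.End (Comm B hB) M` (`rhoB_apply : rhoB … g v = ρ g v`);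
* `chiB B hB χ : G →* (Comm B hB)ˣ` (`= Units.map (algebraMap R (Comm B hB)) ∘ χ`);
* `JB B hB I : Ideal (Comm B hB) := I.map (algebraMap R (Comm B hB))`;
* `mem_JB_smul_top_iff` : `JB I • ⊤` (a `Comm B hB`-submodule of `M`) and `I • ⊤` (an `R`-submodule)
  have the same elements; `endCong_iff`, `smul_one_endCong_zero_iff`;
* `relInv_of`, `rhoB_eq_one`, `chiB_eq_one`, `chiB_val`, `level_of`, `level_of_two`:
  the hypotheses of the trace comparison (`S31/TraceCompare.trace_mul_eq`) for
  `O := Comm B hB` from statements over `R`.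
-/

set_option autoImplicit false

open Module

namespace Fermat.Agent.S31.SubalgRep

open Fermat.Agent.S30.AdicTransfer

section Basic

variable {R : Type*} [CommRing R] {M : Type*} [AddCommGroup M] [Module R M]

/-- the subalgebra `B ≤ End_R M`, all of whose elements commute, as a type of its own (a one-field
structure, so that it can carry a `CommRing` instance without any instance diamond). -/
structure Comm (B : Subalgebra R (Module.End R M))
    (_hB : ∀ a ∈ B, ∀ b ∈ B, a * b = b * a) where ofSub' ::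
  /-- the underlying element of the subalgebra. -/
  toSub : ↥B

variable (B : Subalgebra R (Module.End R M)) (hB : ∀ a ∈ B, ∀ b ∈ B, a * b = b * a)

/-- `Comm B hB ≃ ↥B`. -/
def equivSub : Comm B hB ≃ ↥B := ⟨Comm.toSub, Comm.ofSub', fun _ => rfl, fun _ => rfl⟩

instance instCommRing : CommRing (Comm B hB) :=
  { (equivSub B hB).ring with
    mul_comm := fun a b =>
      (equivSub B hB).injective (Subtype.ext (hB _ a.toSub.2 _ b.toSub.2)) }

/-- the identity, as a ring isomorphism from the subalgebra. -/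
def ofSub : ↥B ≃+* Comm B hB := (equivSub B hB).ringEquiv.symm

/-- the underlying endomorphism, as a ring homomorphism. -/
def toEndHom : Comm B hB →+* Module.End R M :=
  (B.val : ↥B →+* Module.End R M).comp ((equivSub B hB).ringEquiv : Comm B hB →+* ↥B)

theorem toEndHom_apply (x : Comm B hB) : toEndHom B hB x = (x.toSub : Module.End R M) := rfl

/-- the structure map. -/
def algMap : R →+* Comm B hB :=
  ((ofSub B hB : ↥B ≃+* Comm B hB) : ↥B →+* Comm B hB).comp (algebraMap R ↥B)

instance instAlgebra : Algebra R (Comm B hB) := (algMap B hB).toAlgebra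

instance instModule : Module (Comm B hB) M := Module.compHom M (toEndHom B hB)

theorem toEndHom_algebraMap (r : R) :
    toEndHom B hB (algebraMap R (Comm B hB) r) = algebraMap R (Module.End R M) r := rfl

/-- the underlying endomorphism. -/
def toEnd : Comm B hB →ₐ[R] Module.End R M :=
  { toEndHom B hB with commutes' := fun r => toEndHom_algebraMap B hB r }

theorem toEnd_apply (x : Comm B hB) : toEnd B hB x = (x.toSub : Module.End R M) := rfl

/-- an element of the subalgebra, as an element of `Comm B hB`. -/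
def ofMem (b : Module.End R M) (hb : b ∈ B) : Comm B hB := ofSub B hB ⟨b, hb⟩

@[simp] theorem toEnd_ofMem (b : Module.End R M) (hb : b ∈ B) : toEnd B hB (ofMem B hB b hb) = b :=
  rfl

theorem toEnd_mem (x : Comm B hB) : toEnd B hB x ∈ B := x.toSub.2

theorem toEnd_injective : Function.Injective (toEnd B hB) := fun _ _ h =>
  (equivSub B hB).injective (Subtype.ext h)

@[simp] theorem toEnd_ofSub (b : ↥B) : toEnd B hB (ofSub B hB b) = b.1 := rfl

theorem ofSub_surjective : Function.Surjective (ofSub B hB) := (ofSub B hB).surjective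

theorem smul_def (b : Comm B hB) (v : M) : b • v = toEnd B hB b v := rfl

theorem toEnd_algebraMap (r : R) :
    toEnd B hB (algebraMap R (Comm B hB) r) = algebraMap R (Module.End R M) r := rfl

theorem algebraMap_smul_eq (r : R) (v : M) : (algebraMap R (Comm B hB) r) • v = r • v := by
  rw [smul_def, toEnd_algebraMap, Module.algebraMap_end_apply]

instance instIsScalarTower : IsScalarTower R (Comm B hB) M :=
  ⟨fun r b v => by
    rw [Algebra.smul_def, mul_smul, algebraMap_smul_eq]⟩

/-! ### the ideal -/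

/-- the extension of an ideal of `R`. -/
def JB (I : Ideal R) : Ideal (Comm B hB) := I.map (algebraMap R (Comm B hB))

theorem JB_pow (I : Ideal R) (m : ℕ) : JB B hB I ^ m = JB B hB (I ^ m) :=
  (Ideal.map_pow _ _ _).symm

theorem JB_span_singleton (a : R) :
    JB B hB (Ideal.span {a}) = Ideal.span {algebraMap R (Comm B hB) a} := by
  rw [JB, Ideal.map_span, Set.image_singleton]

theorem algebraMap_mem_JB {I : Ideal R} {r : R} (hr : r ∈ I) :
    algebraMap R (Comm B hB) r ∈ JB B hB I := Ideal.mem_map_of_mem _ hr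

/-- `JB I • ⊤` and `I • ⊤` have the same elements. -/
theorem mem_JB_smul_top_iff (I : Ideal R) (x : M) :
    x ∈ (JB B hB I • ⊤ : Submodule (Comm B hB) M) ↔ x ∈ (I • ⊤ : Submodule R M) := by
  constructor
  · intro hx
    refine Submodule.smul_induction_on hx ?_ ?_
    · intro b hb v _
      -- `b ∈ span (alg '' I)`
      have key : ∀ b ∈ JB B hB I, ∀ v : M, b • v ∈ (I • ⊤ : Submodule R M) := by
        intro b hb
        rw [JB, Ideal.map] at hb
        refine Submodule.span_induction (p := fun b _ => ∀ v : M, b • v ∈ (I • ⊤ : Submodule R M))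
          ?_ ?_ ?_ ?_ hb
        · rintro _ ⟨r, hr, rfl⟩ v
          rw [algebraMap_smul_eq]
          exact Submodule.smul_mem_smul hr Submodule.mem_top
        · intro v; rw [zero_smul]; exact Submodule.zero_mem _
        · intro a b _ _ ha hb v
          rw [add_smul]; exact Submodule.add_mem _ (ha v) (hb v)
        · intro c b _ hb v
          rw [smul_eq_mul, mul_comm, mul_smul]
          exact hb (c • v)
      exact key b hb v
    · intro a b ha hb
      exact Submodule.add_mem _ ha hb
  · intro hx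
    refine Submodule.smul_induction_on hx ?_ ?_
    · intro r hr v _
      rw [← algebraMap_smul_eq B hB r v]
      exact Submodule.smul_mem_smul (algebraMap_mem_JB B hB hr) Submodule.mem_top
    · intro a b ha hb
      exact Submodule.add_mem _ ha hb

theorem mem_JB_pow_smul_top_iff (I : Ideal R) (m : ℕ) (x : M) :
    x ∈ (JB B hB I ^ m • ⊤ : Submodule (Comm B hB) M) ↔ x ∈ (I ^ m • ⊤ : Submodule R M) := by
  rw [JB_pow, mem_JB_smul_top_iff]

/-- congruence modulo `JB I ^ m` of `Comm B hB`-linear endomorphisms is congruence modulo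
`I ^ m M`. -/
theorem endCong_iff (I : Ideal R) (m : ℕ) (f f' : Module.End (Comm B hB) M) :
    EndCong (JB B hB I ^ m) f f' ↔ ∀ v, f v - f' v ∈ (I ^ m • ⊤ : Submodule R M) := by
  unfold EndCong
  exact forall_congr' fun v => mem_JB_pow_smul_top_iff B hB I m _

/-- the bridge between the continuity hypothesis of the trace comparison and the Artin–Rees
statement: a scalar `x • 1` is `≡ 0` modulo `JB I ^ m` iff the endomorphism `x` has image in
`I ^ m M`. -/
theorem smul_one_endCong_zero_iff (I : Ideal R) (m : ℕ) (x : Comm B hB) :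
    EndCong (JB B hB I ^ m) (x • (1 : Module.End (Comm B hB) M)) 0 ↔
      ∀ v, toEnd B hB x v ∈ (I ^ m • ⊤ : Submodule R M) := by
  rw [endCong_iff]
  refine forall_congr' fun v => ?_
  rw [LinearMap.smul_apply, Module.End.one_apply, LinearMap.zero_apply, sub_zero, smul_def]

/-! ### the representation -/

variable {G : Type*} [Group G] (ρ : G →* Module.End R M)
  (hρB : ∀ g, ∀ b ∈ B, ρ g * b = b * ρ g)

/-- `ρ g`, as a `Comm B hB`-linear endomorphism. -/
def rhoB : G →* Module.End (Comm B hB) M where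
  toFun g :=
    { toFun := fun v => ρ g v
      map_add' := fun v w => map_add _ v w
      map_smul' := fun b v => by
        rw [RingHom.id_apply, smul_def, smul_def]
        exact LinearMap.congr_fun (hρB g _ (toEnd_mem B hB b)) v }
  map_one' := by
    ext v
    simp
  map_mul' g h := by
    ext v
    simp

@[simp] theorem rhoB_apply (g : G) (v : M) : rhoB B hB ρ hρB g v = ρ g v := rfl

theorem rhoB_eq_one {g : G} (h : ρ g = 1) : rhoB B hB ρ hρB g = 1 := by
  ext v
  rw [rhoB_apply, h, Module.End.one_apply, Module.End.one_apply]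

/-- the character. -/
def chiB (χ : G →* Rˣ) : G →* (Comm B hB)ˣ :=
  (Units.map ((algebraMap R (Comm B hB) : R →+* Comm B hB) : R →* Comm B hB)).comp χ

theorem chiB_val (χ : G →* Rˣ) (g : G) :
    ((chiB B hB χ g : (Comm B hB)ˣ) : Comm B hB) = algebraMap R (Comm B hB) ((χ g : Rˣ) : R) := rfl

theorem chiB_eq_one {χ : G →* Rˣ} {g : G} (h : χ g = 1) : chiB B hB χ g = 1 := by
  rw [chiB, MonoidHom.comp_apply, h, map_one]

theorem chiB_val_eq_natCast {χ : G →* Rˣ} {g : G} {n : ℕ} (h : ((χ g : Rˣ) : R) = (n : R)) :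
    ((chiB B hB χ g : (Comm B hB)ˣ) : Comm B hB) = (n : Comm B hB) := by
  rw [chiB_val, h, map_natCast]

theorem chiB_sub_one_mem {χ : G →* Rˣ} {g : G} {I : Ideal R} {m : ℕ}
    (h : ((χ g : Rˣ) : R) - 1 ∈ I ^ m) :
    ((chiB B hB χ g : (Comm B hB)ˣ) : Comm B hB) - 1 ∈ JB B hB I ^ m := by
  rw [JB_pow, chiB_val, ← map_one (algebraMap R (Comm B hB)), ← map_sub]
  exact algebraMap_mem_JB B hB h

/-- the Eichler–Shimura relation over `Comm B hB` from the relation over `R`, elementwise. -/
theorem relInv_of (χ : G →* Rˣ) (σ : G) (t : Comm B hB)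
    (h : ∀ v, ρ σ v + ((χ σ : Rˣ) : R) • ρ σ⁻¹ v = toEnd B hB t v) :
    RelInv (rhoB B hB ρ hρB) (chiB B hB χ) σ t := by
  unfold RelInv
  ext v
  rw [LinearMap.add_apply, LinearMap.smul_apply, LinearMap.smul_apply, Module.End.one_apply,
    rhoB_apply, rhoB_apply, chiB_val, algebraMap_smul_eq, smul_def]
  exact h v

/-- the same from an identity of endomorphisms. -/
theorem relInv_of_end (χ : G →* Rˣ) (σ : G) (t : Comm B hB)
    (h : ρ σ + ((χ σ : Rˣ) : R) • ρ σ⁻¹ = toEnd B hB t) :
    RelInv (rhoB B hB ρ hρB) (chiB B hB χ) σ t :=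
  relInv_of B hB ρ hρB χ σ t fun v => by
    rw [← h, LinearMap.add_apply, LinearMap.smul_apply]

end Basic

/-! ### the Galois form: finite levels -/

section Galois

local notation "Kb" => AlgebraicClosure ℚ
local notation "GQ" => (AlgebraicClosure ℚ ≃ₐ[ℚ] AlgebraicClosure ℚ)

variable {R : Type*} [CommRing R] {M : Type*} [AddCommGroup M] [Module R M]
  (B : Subalgebra R (Module.End R M)) (hB : ∀ a ∈ B, ∀ b ∈ B, a * b = b * a)
  (ρ : GQ →* Module.End R M) (hρB : ∀ g, ∀ b ∈ B, ρ g * b = b * ρ g) (χ : GQ →* Rˣ) (I : Ideal R)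

/-- the level hypothesis of the trace comparison from a common level over `R`. -/
theorem level_of
    (h : ∀ m : ℕ, ∃ L : IntermediateField ℚ Kb, FiniteDimensional ℚ L ∧
      ∀ σ : GQ, (∀ x ∈ L, σ x = x) →
        (∀ v : M, ρ σ v - v ∈ (I ^ m • ⊤ : Submodule R M)) ∧ ((χ σ : Rˣ) : R) - 1 ∈ I ^ m) :
    ∀ m : ℕ, ∃ L : IntermediateField ℚ Kb, FiniteDimensional ℚ L ∧
      ∀ σ : GQ, (∀ x ∈ L, σ x = x) →
        EndCong (JB B hB I ^ m) (rhoB B hB ρ hρB σ) 1 ∧
          ((chiB B hB χ σ : (Comm B hB)ˣ) : Comm B hB) - 1 ∈ JB B hB I ^ m := by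
  intro m
  obtain ⟨L, hL, hfix⟩ := h m
  refine ⟨L, hL, fun σ hσ => ⟨?_, chiB_sub_one_mem B hB (hfix σ hσ).2⟩⟩
  rw [endCong_iff]
  intro v
  rw [rhoB_apply, Module.End.one_apply]
  exact (hfix σ hσ).1 v

/-- the same from two separate levels (one for `ρ`, one for `χ`). -/
theorem level_of_two
    (hρ : ∀ m : ℕ, ∃ L : IntermediateField ℚ Kb, FiniteDimensional ℚ L ∧
      ∀ σ : GQ, (∀ x ∈ L, σ x = x) → ∀ v : M, ρ σ v - v ∈ (I ^ m • ⊤ : Submodule R M))
    (hχ : ∀ m : ℕ, ∃ L : IntermediateField ℚ Kb, FiniteDimensional ℚ L ∧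
      ∀ σ : GQ, (∀ x ∈ L, σ x = x) → ((χ σ : Rˣ) : R) - 1 ∈ I ^ m) :
    ∀ m : ℕ, ∃ L : IntermediateField ℚ Kb, FiniteDimensional ℚ L ∧
      ∀ σ : GQ, (∀ x ∈ L, σ x = x) →
        EndCong (JB B hB I ^ m) (rhoB B hB ρ hρB σ) 1 ∧
          ((chiB B hB χ σ : (Comm B hB)ˣ) : Comm B hB) - 1 ∈ JB B hB I ^ m := by
  refine level_of B hB ρ hρB χ I fun m => ?_
  obtain ⟨L₁, hL₁, h₁⟩ := hρ m
  obtain ⟨L₂, hL₂, h₂⟩ := hχ m
  have : FiniteDimensional ℚ L₁ := hL₁
  have : FiniteDimensional ℚ L₂ := hL₂
  refine ⟨L₁ ⊔ L₂, IntermediateField.finiteDimensional_sup L₁ L₂, fun σ hσ => ⟨?_, ?_⟩⟩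
  · exact h₁ σ fun x hx => hσ x ((le_sup_left : L₁ ≤ L₁ ⊔ L₂) hx)
  · exact h₂ σ fun x hx => hσ x ((le_sup_right : L₂ ≤ L₁ ⊔ L₂) hx)

end Galois

end Fermat.Agent.S31.SubalgRep
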