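import Mathlib
import Fermat.Agent.S30.TateJ
import Fermat.Agent.S30.AdicCyclo
import Fermat.Agent.S30.AdicTransfer
import Fermat.Agent.S31.SubalgRep
import Fermat.Agent.Lib.Frobenius

/-!
# S31 (R4, concrete half): the `J`-side package on `T_p J₀(N)`

`O := Comm (BJ N p S) _`, where `BJ N p S ≤ End_{ℤ_p}(T_p J₀(N))` is the (commutative) subalgebra
generated by the Hecke operators `T_ℓ` (`ℓ ∤ N`, `ℓ ∉ S`), acting on `M := T_p J₀(N)`, with the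
Galois action `rhoM`, the cyclotomic character `chiM`, the ideal `JJ = (p)`, `tau ℓ = T_ℓ`; and the
hypotheses `hρM`, `hES`, `hin` of `S31/TopOf.result_of_package`, verbatim.
-/

set_option autoImplicit false
set_option linter.unusedSectionVars false

noncomputable section

open Module

namespace Fermat.Agent.S31.PackageJ

open Fermat.Agent.S30.TateJ Fermat.Agent.S30.AdicCyclo Fermat.Agent.S30.AdicTransfer
open Fermat.Agent.S31.SubalgRep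

local notation "Kb" => AlgebraicClosure ℚ
local notation "GQ" => (AlgebraicClosure ℚ ≃ₐ[ℚ] AlgebraicClosure ℚ)

variable (N : ℕ) [NeZero N] (p : ℕ) [hp : Fact p.Prime] (S : Finset ℕ)

/-! ### `T_ℓ = Φ + ℓ Φ⁻¹` -/

/-- Eichler–Shimura in the form `Φ + ℓ Φ⁻¹ = T_ℓ` on `T_p J₀(N)`. -/
theorem rhoT_add_eq_heckeT (ℓ : ℕ) (hℓ : ℓ.Prime) (hndvd : ¬ ℓ ∣ N * p)
    (A : ValuationSubring Kb) (hA : A.LiesOverPrime ℓ) (Φ : GQ) (hΦ : A.IsFrobeniusAt Φ ℓ) :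
    rhoT N p Φ + (ℓ : ℤ_[p]) • rhoT N p Φ⁻¹ = heckeT N p ⟨ℓ, hℓ⟩ := by
  have h := es_T N p ℓ hℓ hndvd A hA Φ hΦ
  have hinv : rhoT N p Φ * rhoT N p Φ⁻¹ = 1 := by
    rw [← map_mul, mul_inv_cancel, map_one]
  have h' := congrArg (fun f => f * rhoT N p Φ⁻¹) h
  simp only [add_mul, sub_mul, mul_assoc, hinv, mul_one, zero_mul] at h'
  have h2 : (ℓ : Module.End ℤ_[p] (TpJ N p)) * rhoT N p Φ⁻¹ = (ℓ : ℤ_[p]) • rhoT N p Φ⁻¹ := by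
    rw [← nsmul_eq_mul, Nat.cast_smul_eq_nsmul]
  rw [h2] at h'
  have h3 : rhoT N p Φ + (ℓ : ℤ_[p]) • rhoT N p Φ⁻¹ - heckeT N p ⟨ℓ, hℓ⟩ = 0 := by
    rw [← h']; abel
  exact sub_eq_zero.mp h3

/-- the Hecke operators at the primes `ℓ, ℓ' ∤ N p` commute on `T_p J₀(N)`. -/
theorem heckeT_comm (ℓ : Nat.Primes) (hndvd : ¬ (ℓ : ℕ) ∣ N * p) (ℓ' : Nat.Primes) :
    heckeT N p ℓ * heckeT N p ℓ' = heckeT N p ℓ' * heckeT N p ℓ := by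
  obtain ⟨A, Φ, hA, hΦ⟩ := Fermat.Agent.Lib.exists_isFrobeniusAt (ℓ : ℕ) ℓ.2
  have h : rhoT N p Φ + ((ℓ : ℕ) : ℤ_[p]) • rhoT N p Φ⁻¹ = heckeT N p ℓ :=
    rhoT_add_eq_heckeT N p (ℓ : ℕ) ℓ.2 hndvd A hA Φ hΦ
  have c1 : Commute (rhoT N p Φ) (heckeT N p ℓ') := rhoT_mul_heckeT N p Φ ℓ'
  have c2 : Commute (rhoT N p Φ⁻¹) (heckeT N p ℓ') := rhoT_mul_heckeT N p Φ⁻¹ ℓ'
  have c3 : Commute (rhoT N p Φ + ((ℓ : ℕ) : ℤ_[p]) • rhoT N p Φ⁻¹) (heckeT N p ℓ') :=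
    c1.add_left (c2.smul_left _)
  rw [h] at c3
  exact c3

/-! ### the commutative subalgebra -/

/-- the index type: the primes `ℓ ∤ N`, `ℓ ∉ S`. -/
abbrev Idx : Type := {ℓ : Nat.Primes // ¬ (ℓ : ℕ) ∣ N ∧ (ℓ : ℕ) ∉ (↑S : Set ℕ)}

/-- the generators. -/
def tJ : Idx N S → Module.End ℤ_[p] (TpJ N p) := fun i => heckeT N p i.1

/-- the subalgebra of `End (T_p J₀(N))` generated by the `T_ℓ`, `ℓ ∤ N`, `ℓ ∉ S`. -/
def BJ : Subalgebra ℤ_[p] (Module.End ℤ_[p] (TpJ N p)) := (FreeAlgebra.lift ℤ_[p] (tJ N p S)).range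

theorem BJ_eq_adjoin : BJ N p S = Algebra.adjoin ℤ_[p] (Set.range (tJ N p S)) :=
  (Algebra.adjoin_range_eq_range_freeAlgebra_lift ℤ_[p] _ (tJ N p S)).symm

theorem tJ_mem (i : Idx N S) : tJ N p S i ∈ BJ N p S := by
  rw [BJ_eq_adjoin]
  exact Algebra.subset_adjoin ⟨i, rfl⟩

/-- an element commuting with all the generators commutes with `BJ`. -/
theorem commute_BJ {x : Module.End ℤ_[p] (TpJ N p)}
    (hx : ∀ i, x * tJ N p S i = tJ N p S i * x) {b : Module.End ℤ_[p] (TpJ N p)}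
    (hb : b ∈ BJ N p S) : x * b = b * x := by
  rw [BJ_eq_adjoin] at hb
  have hle : Algebra.adjoin ℤ_[p] (Set.range (tJ N p S)) ≤ Subalgebra.centralizer ℤ_[p] {x} := by
    refine Algebra.adjoin_le ?_
    rintro _ ⟨i, rfl⟩
    rw [SetLike.mem_coe, Subalgebra.mem_centralizer_iff]
    intro y hy
    rw [Set.mem_singleton_iff] at hy
    rw [hy]
    exact hx i
  have := hle hb
  rw [Subalgebra.mem_centralizer_iff] at this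
  exact this x rfl

theorem not_dvd_mul (hpS : p ∈ S) (i : Idx N S) : ¬ ((i.1 : Nat.Primes) : ℕ) ∣ N * p := by
  intro h
  rcases (Nat.Prime.dvd_mul i.1.2).mp h with h1 | h1
  · exact i.2.1 h1
  · have : ((i.1 : Nat.Primes) : ℕ) = p := (Nat.prime_dvd_prime_iff_eq i.1.2 hp.out).mp h1
    exact i.2.2 (by rw [this]; exact_mod_cast hpS)

/-- `BJ` is commutative. -/
theorem BJ_comm (hpS : p ∈ S) : ∀ a ∈ BJ N p S, ∀ b ∈ BJ N p S, a * b = b * a := by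
  intro a ha b hb
  refine commute_BJ N p S (fun i => ?_) hb
  symm
  refine commute_BJ N p S (fun j => ?_) ha
  exact heckeT_comm N p i.1 (not_dvd_mul N p S hpS i) j.1

/-- the Galois action commutes with `BJ`. -/
theorem rhoT_comm_BJ (g : GQ) : ∀ b ∈ BJ N p S, rhoT N p g * b = b * rhoT N p g := by
  intro b hb
  exact commute_BJ N p S (fun i => rhoT_mul_heckeT N p g i.1) hb

/-! ### the package -/

variable (hpS : p ∈ S)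

/-- the commutative ring `𝕋_J`. -/
abbrev OJ : Type := Comm (BJ N p S) (BJ_comm N p S hpS)

/-- the ideal `(p)` of `𝕋_J`. -/
def JJ : Ideal (OJ N p S hpS) := JB (BJ N p S) (BJ_comm N p S hpS) (Ideal.span {(p : ℤ_[p])})

/-- the Galois action on `T_p J₀(N)`, `𝕋_J`-linearly. -/
def rhoM : GQ →* Module.End (OJ N p S hpS) (TpJ N p) :=
  rhoB (BJ N p S) (BJ_comm N p S hpS) (rhoT N p) (rhoT_comm_BJ N p S)

/-- the cyclotomic character with values in `𝕋_J`. -/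
def chiM : GQ →* (OJ N p S hpS)ˣ := chiB (BJ N p S) (BJ_comm N p S hpS) (chiAdic p)

open Classical in
/-- `τ ℓ = T_ℓ` (junk value `0` off the good primes). -/
def tau (ℓ : ℕ) : OJ N p S hpS :=
  if h : ℓ.Prime ∧ ¬ ℓ ∣ N ∧ ℓ ∉ (↑S : Set ℕ) then
    ofMem (BJ N p S) (BJ_comm N p S hpS) (heckeT N p ⟨ℓ, h.1⟩)
      (tJ_mem N p S ⟨⟨ℓ, h.1⟩, h.2⟩)
  else 0

theorem toEnd_tau (ℓ : ℕ) (hℓ : ℓ.Prime) (hℓN : ¬ ℓ ∣ N) (hℓS : ℓ ∉ (↑S : Set ℕ)) :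
    toEnd (BJ N p S) (BJ_comm N p S hpS) (tau N p S hpS ℓ) = heckeT N p ⟨ℓ, hℓ⟩ := by
  unfold tau
  rw [dif_pos ⟨hℓ, hℓN, hℓS⟩]
  rfl

/-- `tau ℓ`, as the image of the generator under `ofSub`. -/
theorem tau_eq_ofSub (ℓ : ℕ) (hℓ : ℓ.Prime) (hℓN : ¬ ℓ ∣ N) (hℓS : ℓ ∉ (↑S : Set ℕ)) :
    tau N p S hpS ℓ = ofSub (BJ N p S) (BJ_comm N p S hpS)
      ⟨tJ N p S ⟨⟨ℓ, hℓ⟩, hℓN, hℓS⟩, tJ_mem N p S ⟨⟨ℓ, hℓ⟩, hℓN, hℓS⟩⟩ := by
  refine toEnd_injective (BJ N p S) (BJ_comm N p S hpS) ?_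
  refine (toEnd_tau N p S hpS ℓ hℓ hℓN hℓS).trans ?_
  exact (toEnd_ofSub (BJ N p S) (BJ_comm N p S hpS)
    ⟨tJ N p S ⟨⟨ℓ, hℓ⟩, hℓN, hℓS⟩, tJ_mem N p S ⟨⟨ℓ, hℓ⟩, hℓN, hℓS⟩⟩).symm

/-- **continuity** (`hρM` of `TopOf.result_of_package`). -/
theorem hrhoM : ∀ m : ℕ, ∃ L : IntermediateField ℚ Kb, FiniteDimensional ℚ L ∧
    ∀ σ : GQ, (∀ x ∈ L, σ x = x) →
      EndCong (JJ N p S hpS ^ m) (rhoM N p S hpS σ) 1 ∧
        ((chiM N p S hpS σ : (OJ N p S hpS)ˣ) : OJ N p S hpS) - 1 ∈ JJ N p S hpS ^ m := by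
  refine level_of_two (BJ N p S) (BJ_comm N p S hpS) (rhoT N p) (rhoT_comm_BJ N p S) (chiAdic p)
    (Ideal.span {(p : ℤ_[p])}) (fun m => ?_) (fun m => ?_)
  · obtain ⟨L, hL, -, hfix⟩ := level_T N p m
    exact ⟨L, hL, hfix⟩
  · obtain ⟨L, hL, hfix⟩ := chiAdic_level (p := p) m
    refine ⟨L, hL, fun σ hσ => ?_⟩
    rw [Ideal.span_singleton_pow]
    exact hfix σ hσ

/-- **Eichler–Shimura** (`hES` of `TopOf.result_of_package`). -/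
theorem hES (hNS : ∀ q : ℕ, q.Prime → q ∣ N → q ∈ S) :
    ∀ (ℓ : ℕ) (A : ValuationSubring Kb) (σ : GQ), ℓ.Prime → ℓ ∉ S →
      A.LiesOverPrime ℓ → A.IsFrobeniusAt σ ℓ →
        RelInv (rhoM N p S hpS) (chiM N p S hpS) σ (tau N p S hpS ℓ) ∧
          ((chiM N p S hpS σ : (OJ N p S hpS)ˣ) : OJ N p S hpS) = (ℓ : OJ N p S hpS) := by
  intro ℓ A σ hℓ hℓS hA hσ
  have hℓN : ¬ ℓ ∣ N := fun h => hℓS (hNS ℓ hℓ h)
  have hℓS' : ℓ ∉ (↑S : Set ℕ) := by simpa using hℓS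
  have hℓp : ℓ ≠ p := fun h => hℓS (h ▸ hpS)
  have hndvd : ¬ ℓ ∣ N * p := not_dvd_mul N p S hpS ⟨⟨ℓ, hℓ⟩, hℓN, hℓS'⟩
  have hχ : ((chiAdic p σ : ℤ_[p]ˣ) : ℤ_[p]) = (ℓ : ℤ_[p]) := chiAdic_frob hℓ hℓp A hA σ hσ
  refine ⟨?_, chiB_val_eq_natCast (BJ N p S) (BJ_comm N p S hpS) hχ⟩
  refine relInv_of_end (BJ N p S) (BJ_comm N p S hpS) (rhoT N p) (rhoT_comm_BJ N p S) (chiAdic p) σ
    (tau N p S hpS ℓ) ?_
  rw [toEnd_tau N p S hpS ℓ hℓ hℓN hℓS', hχ]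
  exact rhoT_add_eq_heckeT N p ℓ hℓ hndvd A hA σ hσ

/-- **inertia** (`hin` of `TopOf.result_of_package`). -/
theorem hin (hNS : ∀ q : ℕ, q.Prime → q ∣ N → q ∈ S) :
    ∀ q : ℕ, q.Prime → q ∉ S → ∀ P : ValuationSubring Kb, P.LiesOverPrime q →
      ∀ σ ∈ P.inertiaSubgroupIn ℚ, rhoM N p S hpS σ = 1 ∧ chiM N p S hpS σ = 1 := by
  intro q hq hqS P hP σ hσ
  have hqN : ¬ q ∣ N := fun h => hqS (hNS q hq h)
  have hqS' : q ∉ (↑S : Set ℕ) := by simpa using hqS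
  have hqp : q ≠ p := fun h => hqS (h ▸ hpS)
  have hndvd : ¬ q ∣ N * p := not_dvd_mul N p S hpS ⟨⟨q, hq⟩, hqN, hqS'⟩
  exact ⟨rhoB_eq_one (BJ N p S) (BJ_comm N p S hpS) (rhoT N p) (rhoT_comm_BJ N p S)
      (inertia_T N p q hq hndvd P hP σ hσ),
    chiB_eq_one (BJ N p S) (BJ_comm N p S hpS) (chiAdic_inertia hq hqp P hP σ hσ)⟩

end Fermat.Agent.S31.PackageJ

end
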