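import Mathlib

set_option autoImplicit false

/-!
# S31, leaf (R6): continuity of `Π` from the Artin–Rees lemma

`M` a finite free `ℤ_p`-module, `O` a `ℤ_p`-subalgebra of `End M`, `Π : O →+* T` a ring
homomorphism with `Π p ∈ I`.  For every `n` there is `m` such that every `x ∈ O` which maps `M` into
`p ^ m M` satisfies `Π x ∈ I ^ n`.

Generic version (`exists_pow_forall_mem`): `R` a Noetherian commutative ring, `a : R`, `M` a finite
free `R`-module.
-/

namespace Fermat.Agent.S31.PiCont

open Module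

section Divide

variable {R : Type*} [CommRing R] {M : Type*} [AddCommGroup M] [Module R M] [Module.Free R M]

/-- an endomorphism of a free module with image in `a M` is `a • y`. -/
theorem exists_eq_smul_of_forall_mem (a : R) (x : Module.End R M)
    (h : ∀ v : M, x v ∈ (Ideal.span {a} : Ideal R) • (⊤ : Submodule R M)) :
    ∃ y : Module.End R M, x = a • y := by
  classical
  let b := Module.Free.chooseBasis R M
  have h' : ∀ v : M, ∃ w : M, a • w = x v := by
    intro v
    have := h v
    rw [Submodule.ideal_span_singleton_smul, Submodule.mem_smul_pointwise_iff_exists] at this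
    obtain ⟨w, -, hw⟩ := this
    exact ⟨w, hw⟩
  choose w hw using h'
  refine ⟨b.constr R (fun i => w (b i)), ?_⟩
  apply b.ext
  intro i
  rw [LinearMap.smul_apply, Basis.constr_basis, hw]

end Divide

section Main

variable {R : Type*} [CommRing R] [IsNoetherianRing R] {M : Type*} [AddCommGroup M] [Module R M]
  [Module.Free R M] [Module.Finite R M]

/-- **Artin–Rees for a subalgebra of `End M`.** -/
theorem exists_pow_forall_eq_smul (a : R) (O : Subalgebra R (Module.End R M)) (n : ℕ) :
    ∃ m, ∀ x : O,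
      (∀ v : M, (x : Module.End R M) v ∈ (Ideal.span {a} : Ideal R) ^ m • (⊤ : Submodule R M)) →
      ∃ y : O, x = a ^ n • y := by
  obtain ⟨k, hk⟩ := Ideal.exists_pow_inf_eq_pow_smul (Ideal.span {a} : Ideal R)
    (Subalgebra.toSubmodule O)
  refine ⟨n + k, fun x hx => ?_⟩
  -- `x = a ^ (n + k) • y₀` in `End M`
  have hx' : ∀ v : M, (x : Module.End R M) v
      ∈ (Ideal.span {a ^ (n + k)} : Ideal R) • (⊤ : Submodule R M) := by
    intro v
    have := hx v
    rwa [Ideal.span_singleton_pow] at this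
  obtain ⟨y₀, hy₀⟩ := exists_eq_smul_of_forall_mem (a ^ (n + k)) (x : Module.End R M) hx'
  have h1 : (x : Module.End R M) ∈ (Ideal.span {a} : Ideal R) ^ (n + k) •
      (⊤ : Submodule R (Module.End R M)) ⊓ Subalgebra.toSubmodule O := by
    refine Submodule.mem_inf.mpr ⟨?_, x.2⟩
    rw [Ideal.span_singleton_pow, Submodule.ideal_span_singleton_smul,
      Submodule.mem_smul_pointwise_iff_exists]
    exact ⟨y₀, Submodule.mem_top, hy₀.symm⟩
  rw [hk (n + k) (Nat.le_add_left k n), Nat.add_sub_cancel] at h1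
  -- so `x ∈ a ^ n • O`
  have h2 : (x : Module.End R M) ∈ (Ideal.span {a} : Ideal R) ^ n • Subalgebra.toSubmodule O :=
    Submodule.smul_mono le_rfl inf_le_right h1
  rw [Ideal.span_singleton_pow, Submodule.ideal_span_singleton_smul,
    Submodule.mem_smul_pointwise_iff_exists] at h2
  obtain ⟨y, hy, hxy⟩ := h2
  exact ⟨⟨y, hy⟩, Subtype.ext hxy.symm⟩

/-- **Continuity of a ring homomorphism out of a subalgebra of `End M`.** -/
theorem exists_pow_forall_mem (a : R) (O : Subalgebra R (Module.End R M))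
    {T : Type*} [CommRing T] (I : Ideal T) (φ : O →+* T)
    (ha : φ (algebraMap R O a) ∈ I) (n : ℕ) :
    ∃ m, ∀ x : O,
      (∀ v : M, (x : Module.End R M) v ∈ (Ideal.span {a} : Ideal R) ^ m • (⊤ : Submodule R M)) →
      φ x ∈ I ^ n := by
  obtain ⟨m, hm⟩ := exists_pow_forall_eq_smul a O n
  refine ⟨m, fun x hx => ?_⟩
  obtain ⟨y, rfl⟩ := hm x hx
  rw [Algebra.smul_def, map_mul, map_pow, map_pow]
  exact Ideal.mul_mem_right _ _ (Ideal.pow_mem_pow ha n)

end Main

section Padic

variable {p : ℕ} [Fact p.Prime] {M : Type*} [AddCommGroup M] [Module ℤ_[p] M]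
  [Module.Free ℤ_[p] M] [Module.Finite ℤ_[p] M]

/-- **(R6)**, verbatim. -/
theorem exists_pow_mem (O : Subalgebra ℤ_[p] (Module.End ℤ_[p] M)) {T : Type*} [CommRing T]
    (I : Ideal T) (φ : O →+* T) (hp : φ (p : O) ∈ I) (n : ℕ) :
    ∃ m, ∀ x : O,
      (∀ v : M, (x : Module.End ℤ_[p] M) v
        ∈ (Ideal.span {(p : ℤ_[p])}) ^ m • (⊤ : Submodule ℤ_[p] M)) →
      φ x ∈ I ^ n := by
  refine exists_pow_forall_mem (p : ℤ_[p]) O I φ ?_ n
  rwa [map_natCast]

/-- membership in `p ^ m M`, instance-free (natural-number multiples). -/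
theorem mem_span_natCast_pow_smul_top_iff {A : Type*} [CommRing A] {M' : Type*} [AddCommGroup M']
    [Module A M'] (q m : ℕ) (v : M') :
    v ∈ (Ideal.span {(q : A)}) ^ m • (⊤ : Submodule A M') ↔ ∃ w : M', (q ^ m) • w = v := by
  rw [Ideal.span_singleton_pow, Submodule.ideal_span_singleton_smul,
    Submodule.mem_smul_pointwise_iff_exists]
  constructor
  · rintro ⟨w, -, hw⟩
    refine ⟨w, ?_⟩
    rw [← hw, ← Nat.cast_pow, Nat.cast_smul_eq_nsmul]
  · rintro ⟨w, hw⟩
    refine ⟨w, Submodule.mem_top, ?_⟩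
    rw [← hw, ← Nat.cast_pow, Nat.cast_smul_eq_nsmul]

/-- **(R6)**, instance-free form: the hypothesis is `x M ⊆ p ^ m M` in terms of natural-number
multiples, so it can be fed from any module structure on `M` (e.g. over the Hecke algebra). -/
theorem exists_pow_mem_of_nsmul (O : Subalgebra ℤ_[p] (Module.End ℤ_[p] M)) {T : Type*}
    [CommRing T] (I : Ideal T) (φ : O →+* T) (hp : φ (p : O) ∈ I) (n : ℕ) :
    ∃ m, ∀ x : O, (∀ v : M, ∃ w : M, (p ^ m) • w = (x : Module.End ℤ_[p] M) v) → φ x ∈ I ^ n := by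
  obtain ⟨m, hm⟩ := exists_pow_mem O I φ hp n
  refine ⟨m, fun x hx => hm x fun v => ?_⟩
  rw [mem_span_natCast_pow_smul_top_iff]
  exact hx v

end Padic

end Fermat.Agent.S31.PiCont
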