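import Mathlib
import Fermat.Agent.S30.AdicTransfer
import Fermat.Agent.S31.PiCont
import Fermat.Agent.S31.SubalgRep

set_option autoImplicit false

/-!
# S31: the continuity hypothesis `hPi` of `TopOf.result_of_package` over `SubalgRep.Comm B hB`

`B` a commutative `ℤ_[p]`-subalgebra of `End M` (`M` finite free over `ℤ_[p]`), `O := SubalgRep.Comm B hB`
its commutative-ring form acting on `M`, `J := SubalgRep.JB B hB (span {p})`.  Every ring
homomorphism `φ : ↥B →+* T` with `p ∈ I` gives `piT φ : Comm B hB →+* T`, continuous in the sense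
of `TraceCompare.trace_mul_eq` (`PiCont.exists_pow_mem`, i.e. Artin-Rees, through the bridge
`SubalgRep.smul_one_endCong_zero_iff`).
-/

namespace Fermat.Agent.S31.PiContComm

open Fermat.Agent.S30.AdicTransfer Fermat.Agent.S31.SubalgRep

variable {p : ℕ} [Fact p.Prime] {M : Type*} [AddCommGroup M] [Module ℤ_[p] M]
  (B : Subalgebra ℤ_[p] (Module.End ℤ_[p] M)) (hB : ∀ a ∈ B, ∀ b ∈ B, a * b = b * a)
  {T : Type*} [CommRing T]

/-- a ring homomorphism out of the subalgebra, as a ring homomorphism out of `Comm B hB`. -/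
noncomputable def piT (φ : ↥B →+* T) : Comm B hB →+* T :=
  φ.comp ((ofSub B hB).symm : Comm B hB →+* ↥B)

theorem piT_apply (φ : ↥B →+* T) (x : Comm B hB) : piT B hB φ x = φ x.toSub := rfl

@[simp] theorem piT_ofSub (φ : ↥B →+* T) (b : ↥B) : piT B hB φ (ofSub B hB b) = φ b := rfl

@[simp] theorem piT_ofMem (φ : ↥B →+* T) (b : Module.End ℤ_[p] M) (hb : b ∈ B) :
    piT B hB φ (ofMem B hB b hb) = φ ⟨b, hb⟩ := rfl

variable [Module.Free ℤ_[p] M] [Module.Finite ℤ_[p] M]

/-- **the hypothesis `hPi` of `TopOf.result_of_package`** at `O := Comm B hB`,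
`J := JB B hB (span {p})`, `PiT := piT B hB φ`. -/
theorem hPi (I : Ideal T) (φ : ↥B →+* T) (hp : ((p : ℕ) : T) ∈ I) :
    ∀ n : ℕ, ∃ m : ℕ, ∀ x : Comm B hB,
      EndCong (JB B hB (Ideal.span {(p : ℤ_[p])}) ^ m) (x • (1 : Module.End (Comm B hB) M)) 0 →
        piT B hB φ x ∈ I ^ n := by
  intro n
  obtain ⟨m, hm⟩ := PiCont.exists_pow_mem B I φ (by rw [map_natCast]; exact hp) n
  refine ⟨m, fun x hx => ?_⟩
  rw [piT_apply]
  exact hm x.toSub ((smul_one_endCong_zero_iff B hB _ m x).1 hx)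

/-- the same for any `PiT` which agrees with `piT B hB φ`. -/
theorem hPi_of_eq (I : Ideal T) (φ : ↥B →+* T) (hp : ((p : ℕ) : T) ∈ I)
    (PiT : Comm B hB →+* T) (h : ∀ x, PiT x = φ x.toSub) :
    ∀ n : ℕ, ∃ m : ℕ, ∀ x : Comm B hB,
      EndCong (JB B hB (Ideal.span {(p : ℤ_[p])}) ^ m) (x • (1 : Module.End (Comm B hB) M)) 0 →
        PiT x ∈ I ^ n := by
  intro n
  obtain ⟨m, hm⟩ := hPi B hB I φ hp n
  exact ⟨m, fun x hx => by rw [h]; exact hm x hx⟩

end Fermat.Agent.S31.PiContComm
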