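import Mathlib
import Fermat.Agent.S30.LimitMap
import Fermat.Agent.S30.EigenChar
import Fermat.Agent.S30.TensorEigen

set_option autoImplicit false
set_option linter.unusedSectionVars false

/-!
# S31, leaf (3a): transfer of Hecke relations (noncommutative polynomial form)

Relations are elements `Q` of `FreeAlgebra R ι` evaluated through `FreeAlgebra.lift`, so that no
commutativity of the operators is needed anywhere.

* (A) `lift_intertwine`: an equivariant linear map intertwines all noncommutative polynomials;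
  relations are transferred BACKWARD along injective equivariant maps (`lift_eq_zero_of_injective`)
  and FORWARD to modules spanned by the image (`lift_eq_zero_of_span`); change of scalars
  `ℤ → R` (`lift_intCast`).
* (B) the `ℂ`-half of "`Π` is well defined": an integral relation among the Hecke operators on
  `XMod N ℤ ℤ` holds among the `T_ℓ` of the Hecke algebra (`lift_T_eq_zero`), hence among their
  images under any ring homomorphism (`lift_pi_T_eq_zero`).
-/

namespace Fermat.Agent.S31.RelTransfer

open Fermat.Agent.S29.Betti CongruenceSubgroup Fermat.Agent.S30.LimitMap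
open scoped MatrixGroups

noncomputable section

/-! ### (A) generic transfer -/

section Generic

variable {R : Type*} [CommSemiring R] {ι : Type*} {M M' : Type*} [AddCommMonoid M] [Module R M]
  [AddCommMonoid M'] [Module R M']

/-- an equivariant linear map intertwines the evaluations of every noncommutative polynomial -/
theorem lift_intertwine (a : ι → Module.End R M) (a' : ι → Module.End R M') (e : M →ₗ[R] M')
    (h : ∀ i m, e (a i m) = a' i (e m)) (Q : FreeAlgebra R ι) (m : M) :
    e (FreeAlgebra.lift R a Q m) = FreeAlgebra.lift R a' Q (e m) := by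
  induction Q using FreeAlgebra.induction generalizing m with
  | grade0 r =>
    rw [AlgHom.commutes, AlgHom.commutes, Module.algebraMap_end_apply,
      Module.algebraMap_end_apply, map_smul]
  | grade1 i => rw [FreeAlgebra.lift_ι_apply, FreeAlgebra.lift_ι_apply, h]
  | mul x y hx hy =>
    rw [map_mul, map_mul, Module.End.mul_apply, Module.End.mul_apply, hx, hy]
  | add x y hx hy =>
    rw [map_add, map_add, LinearMap.add_apply, LinearMap.add_apply, map_add, hx, hy]

/-- relations are transferred backward along injective equivariant maps -/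
theorem lift_eq_zero_of_injective (a : ι → Module.End R M) (a' : ι → Module.End R M')
    (e : M →ₗ[R] M') (he : Function.Injective e) (h : ∀ i m, e (a i m) = a' i (e m))
    (Q : FreeAlgebra R ι) (hQ : FreeAlgebra.lift R a' Q = 0) : FreeAlgebra.lift R a Q = 0 := by
  ext m
  apply he
  rw [lift_intertwine a a' e h, hQ, LinearMap.zero_apply, LinearMap.zero_apply, map_zero]

/-- relations are transferred forward along equivariant maps with spanning image -/
theorem lift_eq_zero_of_span (a : ι → Module.End R M) (a' : ι → Module.End R M')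
    (e : M →ₗ[R] M') (hspan : Submodule.span R (Set.range e) = ⊤)
    (h : ∀ i m, e (a i m) = a' i (e m))
    (Q : FreeAlgebra R ι) (hQ : FreeAlgebra.lift R a Q = 0) : FreeAlgebra.lift R a' Q = 0 := by
  apply LinearMap.ext_on_range hspan
  intro m
  rw [← lift_intertwine a a' e h, hQ, LinearMap.zero_apply, LinearMap.zero_apply, map_zero]

end Generic

section Scalars

variable {R : Type*} [CommRing R] {ι : Type*} {M : Type*} [AddCommGroup M] [Module R M]

/-- the base change `FreeAlgebra ℤ ι → FreeAlgebra R ι` -/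
def intCast (R : Type*) [CommRing R] (ι : Type*) : FreeAlgebra ℤ ι →ₐ[ℤ] FreeAlgebra R ι :=
  FreeAlgebra.lift ℤ (FreeAlgebra.ι R)

@[simp] theorem intCast_ι (i : ι) : intCast R ι (FreeAlgebra.ι ℤ i) = FreeAlgebra.ι R i :=
  FreeAlgebra.lift_ι_apply _ _

/-- evaluating an integral noncommutative polynomial: over `R` or over `ℤ` -/
theorem lift_intCast (a : ι → Module.End R M) (Q : FreeAlgebra ℤ ι) (m : M) :
    FreeAlgebra.lift R a (intCast R ι Q) m
      = FreeAlgebra.lift ℤ (fun i => (a i).restrictScalars ℤ) Q m := by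
  induction Q using FreeAlgebra.induction generalizing m with
  | grade0 r =>
    rw [AlgHom.commutes, AlgHom.commutes, Module.algebraMap_end_apply]
    have : (algebraMap ℤ (FreeAlgebra R ι) r) = algebraMap R (FreeAlgebra R ι) (r : R) := by
      rw [eq_intCast, map_intCast]
    rw [this, AlgHom.commutes, Module.algebraMap_end_apply, Int.cast_smul_eq_zsmul]
  | grade1 i => rw [intCast_ι, FreeAlgebra.lift_ι_apply, FreeAlgebra.lift_ι_apply]; rfl
  | mul x y hx hy =>
    rw [map_mul, map_mul, map_mul, Module.End.mul_apply, Module.End.mul_apply, hy, hx]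
  | add x y hx hy =>
    rw [map_add, map_add, map_add, LinearMap.add_apply, LinearMap.add_apply, hx, hy]

/-- the same at the level of algebras -/
theorem lift_intCast_alg {A : Type*} [Ring A] [Algebra R A] (a : ι → A) (Q : FreeAlgebra ℤ ι) :
    FreeAlgebra.lift R a (intCast R ι Q) = FreeAlgebra.lift ℤ a Q := by
  induction Q using FreeAlgebra.induction with
  | grade0 r =>
    rw [AlgHom.commutes, AlgHom.commutes, eq_intCast, eq_intCast, map_intCast]
  | grade1 i => rw [intCast_ι, FreeAlgebra.lift_ι_apply, FreeAlgebra.lift_ι_apply]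
  | mul x y hx hy => rw [map_mul, map_mul, map_mul, hx, hy]
  | add x y hx hy => rw [map_add, map_add, map_add, hx, hy]

/-- ring homomorphisms commute with the evaluation of integral noncommutative polynomials -/
theorem map_lift_int {A B : Type*} [Ring A] [Ring B] (φ : A →+* B) (a : ι → A)
    (Q : FreeAlgebra ℤ ι) :
    φ (FreeAlgebra.lift ℤ a Q) = FreeAlgebra.lift ℤ (fun i => φ (a i)) Q := by
  induction Q using FreeAlgebra.induction with
  | grade0 r => rw [AlgHom.commutes, AlgHom.commutes, eq_intCast, eq_intCast, map_intCast]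
  | grade1 i => rw [FreeAlgebra.lift_ι_apply, FreeAlgebra.lift_ι_apply]
  | mul x y hx hy => rw [map_mul, map_mul, map_mul, hx, hy]
  | add x y hx hy => rw [map_add, map_add, map_add, hx, hy]

end Scalars

/-! ### (B) the `ℂ`-half: from `XMod N ℤ ℤ` to the Hecke algebra -/

section CHalf

open ModularCurve ModularCurve.Period Fermat.Agent.S30.TensorEigen

variable {N : ℕ} [NeZero N] {ι : Type*} (g : ι → GoodPrime N)

/-- the Hecke operators on `XMod N R R`, as `ℤ`-linear endomorphisms -/
def opX (R : Type*) [CommRing R] (i : ι) : Module.End ℤ (XMod N R R) :=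
  (heckeX (g i).2 R R).restrictScalars ℤ

@[simp] theorem opX_apply (R : Type*) [CommRing R] (i : ι) (c : XMod N R R) :
    opX g R i c = heckeX (g i).2 R R c := rfl

/-- pushforward of admissible characters along a ring homomorphism, as a `ℤ`-linear map -/
def pushL {R R' : Type*} [CommRing R] [CommRing R'] (φ : R →+* R') :
    XMod N R R →ₗ[ℤ] XMod N R' R' :=
  (pushX R R' φ.toAddMonoidHom).toIntLinearMap

theorem pushL_apply {R R' : Type*} [CommRing R] [CommRing R'] (φ : R →+* R') (c : XMod N R R)
    (γ : Additive (Gamma0 N)) :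
    ((pushL φ c : XMod N R' R') : Additive (Gamma0 N) →+ R') γ
      = φ ((c : Additive (Gamma0 N) →+ R) γ) := rfl

theorem pushL_opX {R R' : Type*} [CommRing R] [CommRing R'] (φ : R →+* R') (i : ι)
    (c : XMod N R R) : pushL φ (opX g R i c) = opX g R' i (pushL φ c) :=
  pushX_heckeX (g i).2 φ.toAddMonoidHom c

/-- an integral relation on `XMod N R R` is inherited by `XMod N R' R'` along an injective
`φ : R' → R` (e.g. `ℤ → ℤ_[p]`) -/
theorem lift_opX_eq_zero_of_injective {R R' : Type*} [CommRing R] [CommRing R'] (φ : R' →+* R)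
    (hφ : Function.Injective φ) (Q : FreeAlgebra ℤ ι)
    (hQ : FreeAlgebra.lift ℤ (opX g R) Q = 0) : FreeAlgebra.lift ℤ (opX g R') Q = 0 := by
  refine lift_eq_zero_of_injective (opX g R') (opX g R) (pushL φ) ?_ (pushL_opX g φ) Q hQ
  intro c d hcd
  apply Subtype.ext
  refine DFunLike.ext _ _ fun γ => ?_
  apply hφ
  have := congrArg (fun u : XMod N R R => (u : Additive (Gamma0 N) →+ R) γ) hcd
  exact this

/-- **`XMod N ℤ ℤ → XMod N ℂ ℂ`**: integral relations are inherited by complex characters, since
these are spanned by the integral ones. -/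
theorem lift_heckeX_complex_eq_zero (Q : FreeAlgebra ℤ ι)
    (hQ : FreeAlgebra.lift ℤ (opX g ℤ) Q = 0) :
    FreeAlgebra.lift ℂ (fun i => heckeX (g i).2 ℂ ℂ) (intCast ℂ ι Q) = 0 := by
  classical
  ext1 c
  rw [LinearMap.zero_apply]
  obtain ⟨m, lam, cj, -, hsum, hkill⟩ :=
    exists_decomp ℤ (c : Additive (Gamma0 N) →+ ℂ)
  have hadm : ∀ j, IsAdmChar (cj j) := fun j γ hγ => hkill _ (c.2 γ hγ) j
  let cjX : Fin m → XMod N ℤ ℤ := fun j => ⟨cj j, hadm j⟩
  have hc : c = ∑ j, lam j • pushL (Int.castRingHom ℂ) (cjX j) := by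
    apply Subtype.ext
    refine DFunLike.ext _ _ fun γ => ?_
    rw [hsum γ]
    have h1 : (((∑ j, lam j • pushL (Int.castRingHom ℂ) (cjX j) : XMod N ℂ ℂ)) :
        Additive (Gamma0 N) →+ ℂ) γ
        = ∑ j, lam j * ((cj j γ : ℤ) : ℂ) := by
      rw [Submodule.coe_sum, AddMonoidHom.finsetSum_apply]
      rfl
    rw [h1]
    refine Finset.sum_congr rfl fun j _ => ?_
    rw [zsmul_eq_mul, mul_comm]
  have hzero : ∀ x : XMod N ℤ ℤ,
      FreeAlgebra.lift ℂ (fun i => heckeX (g i).2 ℂ ℂ) (intCast ℂ ι Q)
        (pushL (Int.castRingHom ℂ) x) = 0 := by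
    intro x
    rw [lift_intCast]
    have := lift_intertwine (opX g ℤ) (opX g ℂ) (pushL (Int.castRingHom ℂ))
      (pushL_opX g (Int.castRingHom ℂ)) Q x
    rw [hQ, LinearMap.zero_apply, map_zero] at this
    exact this.symm
  rw [hc, map_sum]
  refine Finset.sum_eq_zero fun j _ => ?_
  rw [map_smul, hzero, smul_zero]

/-- the period map into the admissible complex characters, as a linear map -/
def perL : CuspForm (Gamma0 N) 2 →ₗ[ℂ] XMod N ℂ ℂ where
  toFun f := ⟨periodMap N f, by
    rintro γ (hγ | hγ)
    · have := Fermat.Agent.S21.periodMap_mem_parabolicHoms N f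
      rw [mem_parabolicHoms_iff] at this
      exact this γ hγ
    · exact apply_eq_zero_of_isOfFinOrder N (periodMap N f) hγ⟩
  map_add' f f' := Subtype.ext (Fermat.Agent.S21.periodMap_add N f f')
  map_smul' a f := Subtype.ext (Fermat.Agent.S21.periodMap_smul N a f)

@[simp] theorem perL_coe (f : CuspForm (Gamma0 N) 2) :
    ((perL f : XMod N ℂ ℂ) : Additive (Gamma0 N) →+ ℂ) = periodMap N f := rfl

theorem perL_injective : Function.Injective (perL (N := N)) := by
  rw [← LinearMap.ker_eq_bot, LinearMap.ker_eq_bot']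
  intro f hf
  by_contra hne
  apply periodMap_ne_zero hne
  have := congrArg (fun u : XMod N ℂ ℂ => (u : Additive (Gamma0 N) →+ ℂ)) hf
  exact this

theorem perL_heckeTLin (q : GoodPrime N) (f : CuspForm (Gamma0 N) 2) :
    perL (CuspForm.heckeTLin 2 q.1.2 q.2 f) = heckeX q.2 ℂ ℂ (perL f) :=
  Subtype.ext (periodMap_heckeTLin q.1.2 q.2 f)

/-- **`XMod N ℂ ℂ → S₂(Γ₀(N))`**: relations on complex characters hold on cusp forms. -/
theorem lift_heckeTLin_eq_zero (Q : FreeAlgebra ℤ ι)
    (hQ : FreeAlgebra.lift ℤ (opX g ℤ) Q = 0) :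
    FreeAlgebra.lift ℤ (fun i => CuspForm.heckeTLin 2 (g i).1.2 (g i).2) Q
      = (0 : Module.End ℂ (CuspForm (Gamma0 N) 2)) := by
  rw [← lift_intCast_alg (R := ℂ)]
  exact lift_eq_zero_of_injective _ _ perL perL_injective (fun i f => perL_heckeTLin (g i) f) _
    (lift_heckeX_complex_eq_zero g Q hQ)

variable (S : Set ℕ) (hS : ∀ i, ((g i).1 : ℕ) ∉ S)

/-- the Hecke operators `T_ℓ`, `ℓ = g i`, in the Hecke algebra away from `S` -/
def TS (i : ι) : CuspForm.heckeAlgebra N 2 S := CuspForm.heckeAlgebra.T (g i).1.2 (g i).2 (hS i)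

/-- **the `ℂ`-half of "`Π` is well defined"**: an integral (noncommutative) polynomial relation
among the Hecke operators on `XMod N ℤ ℤ` holds in the Hecke algebra. -/
theorem lift_T_eq_zero (Q : FreeAlgebra ℤ ι) (hQ : FreeAlgebra.lift ℤ (opX g ℤ) Q = 0) :
    FreeAlgebra.lift ℤ (TS g S hS) Q = 0 := by
  apply Subtype.ext
  have h := map_lift_int (CuspForm.heckeAlgebra N 2 S).val.toRingHom (TS g S hS) Q
  have h2 : (((FreeAlgebra.lift ℤ (TS g S hS) Q : CuspForm.heckeAlgebra N 2 S)) :
      Module.End ℂ (CuspForm (Gamma0 N) 2))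
      = FreeAlgebra.lift ℤ (fun i => CuspForm.heckeTLin 2 (g i).1.2 (g i).2) Q := h
  rw [h2, lift_heckeTLin_eq_zero g Q hQ]
  rfl

/-- ... hence among the images of the `T_ℓ` under any ring homomorphism. -/
theorem lift_pi_T_eq_zero {T : Type*} [Ring T] (π : CuspForm.heckeAlgebra N 2 S →+* T)
    (Q : FreeAlgebra ℤ ι) (hQ : FreeAlgebra.lift ℤ (opX g ℤ) Q = 0) :
    FreeAlgebra.lift ℤ (fun i => π (TS g S hS i)) Q = 0 := by
  rw [← map_lift_int π, lift_T_eq_zero g S hS Q hQ, map_zero]

end CHalf

end

end Fermat.Agent.S31.RelTransfer
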