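import Mathlib
import Fermat.Agent.S31.RelTransfer

set_option autoImplicit false
set_option linter.unusedSectionVars false

/-!
# S31, leaf (3b): the `R`-half of "`Π` is well defined" (`R = ℤ_[p]`)

`R` a commutative ring which is torsion-free over `ℤ`.

* `exists_decomp_intCast` : every `P : FreeAlgebra R ι` is `∑ k, d k • intCast R ι (Q k)` with
  `d k ∈ R` linearly independent over `ℤ` and `Q k : FreeAlgebra ℤ ι`;
* `lift_opX_int_eq_zero` : if `P` kills `XMod N R R` then every `Q k` kills `XMod N ℤ ℤ`;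
* `lift_pi_eq_zero` : hence `P (π T) = 0` in every `R`-algebra `T` receiving the Hecke algebra;
* `lift_pi_eq_zero_of_embedding` : the same for a relation on an `R`-module `M` receiving an
  injective Hecke-equivariant map from `XMod N R R` (`M` := the Tate module of `J₀(N)`);
* `PiHom` : the ring homomorphism `(FreeAlgebra.lift R tJ).range → T`, `tJ i ↦ π (T_i)`.
-/

namespace Fermat.Agent.S31.RelTransferP

open Fermat.Agent.S29.Betti CongruenceSubgroup Fermat.Agent.S30.LimitMap
open Fermat.Agent.S31.RelTransfer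
open scoped MatrixGroups

noncomputable section

section Decomp

variable {R : Type*} [CommRing R] [Module.IsTorsionFree ℤ R] {ι : Type*}

/-- every noncommutative polynomial over `R` is an `R`-linear combination of integral ones -/
theorem mem_span_range_intCast (P : FreeAlgebra R ι) :
    P ∈ Submodule.span R (Set.range (intCast R ι)) := by
  induction P using FreeAlgebra.induction with
  | grade0 r =>
    have : algebraMap R (FreeAlgebra R ι) r = r • intCast R ι 1 := by
      rw [map_one, Algebra.algebraMap_eq_smul_one]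
    rw [this]
    exact Submodule.smul_mem _ _ (Submodule.subset_span ⟨1, rfl⟩)
  | grade1 i => exact Submodule.subset_span ⟨FreeAlgebra.ι ℤ i, intCast_ι i⟩
  | mul x y hx hy =>
    have h := Submodule.mul_mem_mul hx hy
    rw [Submodule.span_mul_span] at h
    refine Submodule.span_mono ?_ h
    rintro _ ⟨_, ⟨a, rfl⟩, _, ⟨b, rfl⟩, rfl⟩
    exact ⟨a * b, map_mul _ a b⟩
  | add x y hx hy => exact Submodule.add_mem _ hx hy

/-- **decomposition** with `ℤ`-linearly independent coefficients -/
theorem exists_decomp_intCast (P : FreeAlgebra R ι) :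
    ∃ (m : ℕ) (d : Fin m → R) (Q : Fin m → FreeAlgebra ℤ ι),
      LinearIndependent ℤ d ∧ P = ∑ k, d k • intCast R ι (Q k) := by
  classical
  obtain ⟨c, hc⟩ := Finsupp.mem_span_range_iff_exists_finsupp.1 (mem_span_range_intCast P)
  let U : Submodule ℤ R := Submodule.span ℤ (Set.range c)
  have hUfin : Module.Finite ℤ U := Module.Finite.span_of_finite ℤ c.finite_range
  have hUtf : Module.IsTorsionFree ℤ U :=
    Function.Injective.moduleIsTorsionFree U.subtype U.subtype_injective (fun _ _ => rfl)
  have hUfree : Module.Free ℤ U := Module.free_of_finite_type_torsion_free'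
  let b := Module.finBasis ℤ U
  have hU : ∀ q, c q ∈ U := fun q => Submodule.subset_span ⟨q, rfl⟩
  refine ⟨Module.finrank ℤ U, fun k => (b k : R),
    fun k => ∑ q ∈ c.support, b.repr ⟨c q, hU q⟩ k • q, ?_, ?_⟩
  · exact b.linearIndependent.map' U.subtype (Submodule.ker_subtype U)
  · rw [← hc, Finsupp.sum]
    have hcq : ∀ q, c q = ∑ k, b.repr ⟨c q, hU q⟩ k • (b k : R) := by
      intro q
      have h1 := b.sum_repr ⟨c q, hU q⟩
      have h2 : ((∑ k, b.repr ⟨c q, hU q⟩ k • b k : U) : R) = c q := by rw [h1]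
      refine h2.symm.trans ?_
      rw [Submodule.coe_sum]
      rfl
    simp only [map_sum, map_zsmul, Finset.smul_sum]
    rw [Finset.sum_comm]
    refine Finset.sum_congr rfl fun q _ => ?_
    conv_lhs => rw [hcq q]
    rw [Finset.sum_smul]
    refine Finset.sum_congr rfl fun k _ => ?_
    rw [smul_assoc, smul_comm]

end Decomp

section Main

variable {R : Type*} [CommRing R] [Module.IsTorsionFree ℤ R]
variable {N : ℕ} [NeZero N] {ι : Type*} (g : ι → GoodPrime N)

/-- the Hecke operators on `XMod N R R`, as `R`-linear endomorphisms -/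
def opXR (R : Type*) [CommRing R] (i : ι) : Module.End R (XMod N R R) := heckeX (g i).2 R R

/-- **`XMod N R R → XMod N ℤ ℤ`**: if `P = ∑ d k • Q k` (with `ℤ`-independent `d k`) kills
`XMod N R R`, every integral component `Q k` kills `XMod N ℤ ℤ`. -/
theorem lift_opX_int_eq_zero {m : ℕ}
    (d : Fin m → R) (Q : Fin m → FreeAlgebra ℤ ι) (hd : LinearIndependent ℤ d)
    (hP : FreeAlgebra.lift R (opXR g R) (∑ k, d k • intCast R ι (Q k)) = 0) (k : Fin m) :
    FreeAlgebra.lift ℤ (opX g ℤ) (Q k) = 0 := by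
  ext1 ψ
  rw [LinearMap.zero_apply]
  apply Subtype.ext
  refine DFunLike.ext _ _ fun γ => ?_
  -- the integer values
  let n : Fin m → ℤ := fun k =>
    ((FreeAlgebra.lift ℤ (opX g ℤ) (Q k) ψ : XMod N ℤ ℤ) : Additive (Gamma0 N) →+ ℤ) γ
  have hsum : ∑ k, n k • d k = 0 := by
    have h1 := LinearMap.congr_fun hP (pushL (Int.castRingHom R) ψ)
    rw [LinearMap.zero_apply, map_sum, LinearMap.sum_apply] at h1
    have h2 := congrArg (fun u : XMod N R R => (u : Additive (Gamma0 N) →+ R) γ) h1
    simp only [Submodule.coe_sum, AddMonoidHom.finsetSum_apply] at h2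
    refine Eq.trans ?_ (h2.trans rfl)
    refine Finset.sum_congr rfl fun k _ => ?_
    rw [map_smul, LinearMap.smul_apply, lift_intCast]
    have h3 := lift_intertwine (opX g ℤ) (opX g R) (pushL (Int.castRingHom R))
      (pushL_opX g (Int.castRingHom R)) (Q k) ψ
    have h4 : FreeAlgebra.lift ℤ (fun i => (opXR g R i).restrictScalars ℤ) (Q k)
        (pushL (Int.castRingHom R) ψ)
        = pushL (Int.castRingHom R) (FreeAlgebra.lift ℤ (opX g ℤ) (Q k) ψ) := h3.symm
    rw [h4]
    show n k • d k = (d k • (pushL (Int.castRingHom R)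
      (FreeAlgebra.lift ℤ (opX g ℤ) (Q k) ψ) : XMod N R R) : Additive (Gamma0 N) →+ R) γ
    rw [zsmul_eq_mul, mul_comm]
    rfl
  have := (Fintype.linearIndependent_iff.1 hd) n hsum k
  exact this

variable (S : Set ℕ) (hS : ∀ i, ((g i).1 : ℕ) ∉ S)

/-- **`Π` is well defined, Betti form**: a relation with coefficients in `R` among the Hecke
operators on `XMod N R R` holds among the `π (T_ℓ)` in every `R`-algebra `T`. -/
theorem lift_pi_eq_zero
    {T : Type*} [Ring T] [Algebra R T] (π : CuspForm.heckeAlgebra N 2 S →+* T)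
    (P : FreeAlgebra R ι) (hP : FreeAlgebra.lift R (opXR g R) P = 0) :
    FreeAlgebra.lift R (fun i => π (TS g S hS i)) P = 0 := by
  obtain ⟨m, d, Q, hd, rfl⟩ := exists_decomp_intCast P
  rw [map_sum]
  refine Finset.sum_eq_zero fun k _ => ?_
  rw [map_smul, lift_intCast_alg]
  have h1 : FreeAlgebra.lift ℤ (opX g ℤ) (Q k) = 0 := lift_opX_int_eq_zero g d Q hd hP k
  rw [lift_pi_T_eq_zero g S hS π (Q k) h1, smul_zero]

/-- **`Π` is well defined**: a relation among operators `tJ i` on an `R`-module `M` receiving an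
injective Hecke-equivariant map from `XMod N R R` holds among the `π (T_ℓ)`. -/
theorem lift_pi_eq_zero_of_embedding
    {T : Type*} [Ring T] [Algebra R T] (π : CuspForm.heckeAlgebra N 2 S →+* T)
    {M : Type*} [AddCommGroup M] [Module R M] (tJ : ι → Module.End R M)
    (e : XMod N R R →ₗ[R] M) (he : Function.Injective e)
    (hcomm : ∀ (i : ι) (ψ : XMod N R R), e (heckeX (g i).2 R R ψ) = tJ i (e ψ))
    (P : FreeAlgebra R ι) (hP : FreeAlgebra.lift R tJ P = 0) :
    FreeAlgebra.lift R (fun i => π (TS g S hS i)) P = 0 :=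
  lift_pi_eq_zero g S hS π P
    (lift_eq_zero_of_injective (opXR g R) tJ e he hcomm P hP)

/-- **the ring homomorphism `Π`** from the algebra generated by the `tJ i` to `T`. -/
def PiHom
    {T : Type*} [Ring T] [Algebra R T] (π : CuspForm.heckeAlgebra N 2 S →+* T)
    {M : Type*} [AddCommGroup M] [Module R M] (tJ : ι → Module.End R M)
    (e : XMod N R R →ₗ[R] M) (he : Function.Injective e)
    (hcomm : ∀ (i : ι) (ψ : XMod N R R), e (heckeX (g i).2 R R ψ) = tJ i (e ψ)) :
    (FreeAlgebra.lift R tJ).range →+* T :=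
  RingHom.liftOfSurjective (FreeAlgebra.lift R tJ).rangeRestrict.toRingHom
    (FreeAlgebra.lift R tJ).rangeRestrict_surjective
    ⟨(FreeAlgebra.lift R (fun i => π (TS g S hS i))).toRingHom, by
      intro P hP
      rw [RingHom.mem_ker] at hP ⊢
      have h0 : FreeAlgebra.lift R tJ P = 0 := by
        have := congrArg Subtype.val hP
        exact this
      exact lift_pi_eq_zero_of_embedding g S hS π tJ e he hcomm P h0⟩

theorem PiHom_lift
    {T : Type*} [Ring T] [Algebra R T] (π : CuspForm.heckeAlgebra N 2 S →+* T)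
    {M : Type*} [AddCommGroup M] [Module R M] (tJ : ι → Module.End R M)
    (e : XMod N R R →ₗ[R] M) (he : Function.Injective e)
    (hcomm : ∀ (i : ι) (ψ : XMod N R R), e (heckeX (g i).2 R R ψ) = tJ i (e ψ))
    (P : FreeAlgebra R ι) :
    PiHom g S hS π tJ e he hcomm ((FreeAlgebra.lift R tJ).rangeRestrict P)
      = FreeAlgebra.lift R (fun i => π (TS g S hS i)) P :=
  RingHom.liftOfRightInverse_comp_apply _ _ _ _ P

/-- `Π (tJ i) = π (T_i)` -/
theorem PiHom_gen
    {T : Type*} [Ring T] [Algebra R T] (π : CuspForm.heckeAlgebra N 2 S →+* T)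
    {M : Type*} [AddCommGroup M] [Module R M] (tJ : ι → Module.End R M)
    (e : XMod N R R →ₗ[R] M) (he : Function.Injective e)
    (hcomm : ∀ (i : ι) (ψ : XMod N R R), e (heckeX (g i).2 R R ψ) = tJ i (e ψ))
    (i : ι) (h : tJ i ∈ (FreeAlgebra.lift R tJ).range) :
    PiHom g S hS π tJ e he hcomm ⟨tJ i, h⟩ = π (TS g S hS i) := by
  have h1 := PiHom_lift g S hS π tJ e he hcomm (FreeAlgebra.ι R i)
  rw [FreeAlgebra.lift_ι_apply] at h1
  rw [← h1]
  congr 1
  apply Subtype.ext
  show tJ i = FreeAlgebra.lift R tJ (FreeAlgebra.ι R i)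
  rw [FreeAlgebra.lift_ι_apply]

/-- `Π` is `R`-linear: `Π (algebraMap r) = algebraMap r` -/
theorem PiHom_algebraMap
    {T : Type*} [Ring T] [Algebra R T] (π : CuspForm.heckeAlgebra N 2 S →+* T)
    {M : Type*} [AddCommGroup M] [Module R M] (tJ : ι → Module.End R M)
    (e : XMod N R R →ₗ[R] M) (he : Function.Injective e)
    (hcomm : ∀ (i : ι) (ψ : XMod N R R), e (heckeX (g i).2 R R ψ) = tJ i (e ψ))
    (r : R) :
    PiHom g S hS π tJ e he hcomm (algebraMap R (FreeAlgebra.lift R tJ).range r)
      = algebraMap R T r := by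
  have h1 := PiHom_lift g S hS π tJ e he hcomm (algebraMap R (FreeAlgebra R ι) r)
  rw [AlgHom.commutes, AlgHom.commutes] at h1
  exact h1

end Main

end

end Fermat.Agent.S31.RelTransferP

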