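import Mathlib
import Fermat.Prelude.Def_GaloisRep_Adic
import Fermat.Agent.S30.AdicTransfer

set_option autoImplicit false
set_option linter.style.haveILetI false

/-!
# S31 (R3): comparison of traces through weak cyclic Chebotarev

`J`-side: a commutative ring `O`, an `O`-module `M` with an `O`-linear Galois action `ρM`, a character
`χ : G_ℚ →* Oˣ`, both continuous for the `J`-adic filtration, with the exact relation
`ρM σ + χ σ • ρM σ⁻¹ = τ ℓ • 1`, `χ σ = ℓ` at the Frobenius lifts `σ` at the primes `ℓ ∉ bad`.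
`T`-side: a two-dimensional `ρ : GaloisRepAdic T` with `charpoly (ρ σ) = X² - φ (τ ℓ) X + ℓ` at the
same Frobenius lifts, for a ring homomorphism `φ : O →+* T` which is continuous in the sense `hφ`.

Conclusion: `tr ρ (σ₀ g) = tr ρ g` for every `g`, whenever `ρM σ₀ = 1` and `χ σ₀ = 1`.
-/

open Polynomial

namespace Fermat.Agent.S31.TraceCompare

open Fermat.Agent.S30.AdicTransfer IsLocalRing

local notation "Kb" => AlgebraicClosure ℚ
local notation "GQ" => (AlgebraicClosure ℚ ≃ₐ[ℚ] AlgebraicClosure ℚ)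

/-! ### power sums -/

section PowSum

variable {R S : Type*} [CommRing R] [CommRing S]

theorem map_powSum (φ : R →+* S) (a d : R) : ∀ j : ℕ, φ (powSum a d j) = powSum (φ a) (φ d) j
  | 0 => by simp only [powSum]; exact map_ofNat φ 2
  | 1 => by simp [powSum]
  | (n + 2) => by
    rw [powSum, powSum, map_sub, map_mul, map_mul, map_powSum φ a d (n + 1), map_powSum φ a d n]

/-- congruence of power sums -/
theorem powSum_sub_mem (I : Ideal R) {a a' d d' : R} (ha : a - a' ∈ I) (hd : d - d' ∈ I) :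
    ∀ j : ℕ, powSum a d j - powSum a' d' j ∈ I
  | 0 => by simp [powSum]
  | 1 => by simpa [powSum] using ha
  | (n + 2) => by
    have h1 := powSum_sub_mem I ha hd (n + 1)
    have h2 := powSum_sub_mem I ha hd n
    have e : powSum a d (n + 2) - powSum a' d' (n + 2)
        = (a - a') * powSum a d (n + 1) + a' * (powSum a d (n + 1) - powSum a' d' (n + 1))
          - ((d - d') * powSum a d n + d' * (powSum a d n - powSum a' d' n)) := by
      rw [powSum, powSum]; ring
    rw [e]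
    exact I.sub_mem (I.add_mem (I.mul_mem_right _ ha) (I.mul_mem_left _ h1))
      (I.add_mem (I.mul_mem_right _ hd) (I.mul_mem_left _ h2))

end PowSum

/-! ### traces on a free module of rank two -/

section Trace

variable {R : Type*} [CommRing R] {V : Type*} [AddCommGroup V] [Module R V]
  [Module.Free R V] [Module.Finite R V]

/-- the trace of an endomorphism with image in `I V` lies in `I` -/
theorem trace_mem_of_endCong (I : Ideal R) {f f' : Module.End R V} (h : EndCong I f f') :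
    LinearMap.trace R V f - LinearMap.trace R V f' ∈ I := by
  classical
  let b := Module.Free.chooseBasis R V
  rw [← map_sub, LinearMap.trace_eq_matrix_trace R b, Matrix.trace]
  refine I.sum_mem fun i _ => ?_
  rw [Matrix.diag_apply, LinearMap.toMatrix_apply, LinearMap.sub_apply]
  -- coordinates of an element of `I • ⊤` lie in `I`
  have key : ∀ x ∈ (I • ⊤ : Submodule R V), b.repr x i ∈ I := by
    intro x hx
    refine Submodule.smul_induction_on hx ?_ ?_
    · intro r hr v _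
      rw [map_smul, Finsupp.smul_apply, smul_eq_mul]
      exact I.mul_mem_right _ hr
    · intro x y hx hy
      rw [map_add, Finsupp.add_apply]
      exact I.add_mem hx hy
  exact key _ (h (b i))

/-- trace and determinant read off from a quadratic characteristic polynomial -/
theorem trace_eq_of_charpoly [Nontrivial R] (hfr : Module.finrank R V = 2) (f : Module.End R V)
    {a b : R} (h : LinearMap.charpoly f = X ^ 2 - C a * X + C b) :
    LinearMap.trace R V f = a := by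
  classical
  let bas : Module.Basis (Fin 2) R V := Module.finBasisOfFinrankEq R V hfr
  have h1 := LinearMap.charpoly_toMatrix f bas
  rw [Matrix.charpoly_fin_two, h] at h1
  have h2 := congrArg (fun q : R[X] => q.coeff 1) h1
  simp only [coeff_add, coeff_sub, coeff_X_pow, coeff_C_mul, coeff_X_one, coeff_C] at h2
  norm_num at h2
  rw [LinearMap.trace_eq_matrix_trace R bas]
  exact h2

/-- **the trace of a power** of an endomorphism of a free module of rank two with characteristic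
polynomial `X² - a X + b` is the power sum `powSum a b j` -/
theorem trace_pow_of_charpoly [Nontrivial R] (hfr : Module.finrank R V = 2) (f : Module.End R V)
    {a b : R} (h : LinearMap.charpoly f = X ^ 2 - C a * X + C b) :
    ∀ j : ℕ, LinearMap.trace R V (f ^ j) = powSum a b j
  | 0 => by
    rw [pow_zero, LinearMap.trace_one, hfr]
    simp [powSum]
  | 1 => by
    rw [pow_one]
    simp only [powSum]
    exact trace_eq_of_charpoly hfr f h
  | (n + 2) => by
    have hCH := LinearMap.aeval_self_charpoly f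
    rw [h] at hCH
    simp only [map_add, map_sub, map_mul, map_pow, aeval_X, aeval_C] at hCH
    have hff : f ^ 2 = a • f - b • (1 : Module.End R V) := by
      have e1 : (algebraMap R (Module.End R V)) a * f = a • f := by
        rw [Algebra.algebraMap_eq_smul_one, smul_mul_assoc, one_mul]
      have e2 : (algebraMap R (Module.End R V)) b = b • (1 : Module.End R V) :=
        Algebra.algebraMap_eq_smul_one b
      rw [e1, e2] at hCH
      have := eq_neg_of_add_eq_zero_left hCH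
      rw [sub_eq_iff_eq_add] at this
      rw [this]
      abel
    have e : f ^ (n + 2) = a • f ^ (n + 1) - b • f ^ n := by
      rw [pow_add, hff, mul_sub, mul_smul_comm, mul_smul_comm, mul_one, ← pow_succ]
    rw [e, map_sub, map_smul, map_smul, trace_pow_of_charpoly hfr f h (n + 1),
      trace_pow_of_charpoly hfr f h n, powSum, smul_eq_mul, smul_eq_mul]

end Trace

/-! ### the comparison -/

section Main

variable {O : Type} [CommRing O] {M : Type} [AddCommGroup M] [Module O M]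
  (J : Ideal O) (ρM : GQ →* Module.End O M) (χ : GQ →* Oˣ)
  {T : Type} [CommRing T] [IsLocalRing T]

/-- **one Chebotarev approximation**: for every `h` there is `a : O` with the relation for `h`
modulo `J ^ m` on the `J`-side and `tr ρ h ≡ φ a` modulo `𝔪 ^ n` on the `T`-side. -/
theorem exists_approx
    (hcheb : ∀ (L : IntermediateField ℚ Kb) [FiniteDimensional ℚ L] [IsGalois ℚ L] (g : GQ)
      (bad : Finset ℕ),
      ∃ (ℓ : ℕ) (A : ValuationSubring Kb) (σ : GQ) (i j : ℕ),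
        ℓ.Prime ∧ ℓ ∉ bad ∧ A.LiesOverPrime ℓ ∧ A.IsFrobeniusAt σ ℓ ∧
        (∀ x ∈ L, σ x = (g ^ i) x) ∧ (∀ x ∈ L, g x = (σ ^ j) x))
    (hρM : ∀ m : ℕ, ∃ L : IntermediateField ℚ Kb, FiniteDimensional ℚ L ∧
      ∀ σ : GQ, (∀ x ∈ L, σ x = x) →
        EndCong (J ^ m) (ρM σ) 1 ∧ ((χ σ : Oˣ) : O) - 1 ∈ J ^ m)
    (bad : Finset ℕ) (τ : ℕ → O)
    (hES : ∀ (ℓ : ℕ) (A : ValuationSubring Kb) (σ : GQ), ℓ.Prime → ℓ ∉ bad →
      A.LiesOverPrime ℓ → A.IsFrobeniusAt σ ℓ →
        RelInv ρM χ σ (τ ℓ) ∧ ((χ σ : Oˣ) : O) = (ℓ : O))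
    (φ : O →+* T) (ρ : GaloisRepAdic T)
    (hcp : ∀ (ℓ : ℕ) (A : ValuationSubring Kb) (σ : GQ), ℓ.Prime → ℓ ∉ bad →
      A.LiesOverPrime ℓ → A.IsFrobeniusAt σ ℓ →
        LinearMap.charpoly (ρ.ρ σ) = X ^ 2 - C (φ (τ ℓ)) * X + C ((ℓ : T)))
    (m n : ℕ) (h : GQ) :
    ∃ a : O, RelMod ρM χ (J ^ m) h a ∧ ρ.trace h - φ a ∈ maximalIdeal T ^ n := by
  obtain ⟨L1, hL1, h1⟩ := ρ.isAdicContinuous n
  obtain ⟨L2, hL2, h2⟩ := hρM m
  haveI := hL1
  haveI := hL2
  haveI : FiniteDimensional ℚ ↥(L1 ⊔ L2) := IntermediateField.finiteDimensional_sup L1 L2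
  haveI : IsAlgClosure ℚ Kb := ⟨inferInstance, AlgebraicClosure.isAlgebraic ℚ⟩
  haveI : Normal ℚ Kb := IsAlgClosure.normal ℚ Kb
  obtain ⟨L, hle, hLfin, hLst⟩ := exists_normal_finite_ge (L1 ⊔ L2)
  haveI := hLfin
  haveI : Normal ℚ L := IntermediateField.normal_iff_forall_map_eq.mpr hLst
  haveI : IsGalois ℚ L := ⟨⟩
  obtain ⟨ℓ, A, σ, i, j, hℓ, hbad, hA, hσ, -, hg⟩ := hcheb L h bad
  obtain ⟨hrel, hχσ⟩ := hES ℓ A σ hℓ hbad hA hσ
  set δ : GQ := (σ ^ j)⁻¹ * h with hδ
  have hδfix : ∀ x ∈ L, δ x = x := by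
    intro x hx
    rw [hδ, AlgEquiv.mul_apply, hg x hx]
    exact (σ ^ j).symm_apply_apply x
  have hhδ : h = σ ^ j * δ := by rw [hδ, mul_inv_cancel_left]
  have hδ1 : ∀ v : ρ.V, ρ.ρ δ v - v ∈ (maximalIdeal T ^ n) • (⊤ : Submodule T ρ.V) :=
    h1 δ (fun x hx => hδfix x (hle (le_sup_left (a := L1) (b := L2) hx)))
  obtain ⟨hδ2, hδ3⟩ := h2 δ (fun x hx => hδfix x (hle (le_sup_right (a := L1) (b := L2) hx)))
  refine ⟨powSum (τ ℓ) ((χ σ : Oˣ) : O) j, ?_, ?_⟩
  · rw [hhδ]
    exact relMod_of_mul ρM χ (relInv_pow ρM χ hrel j) hδ2 hδ3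
  · -- the `T`-side
    have hnt : Nontrivial T := inferInstance
    have e1 : EndCong (maximalIdeal T ^ n) (ρ.ρ h) (ρ.ρ (σ ^ j)) := by
      have hc : EndCong (maximalIdeal T ^ n) (ρ.ρ δ) 1 := fun v => by
        rw [Module.End.one_apply]; exact hδ1 v
      have := (EndCong.refl (I := maximalIdeal T ^ n) (ρ.ρ (σ ^ j))).mul hc
      rwa [← map_mul, mul_one, ← hhδ] at this
    have e2 := trace_mem_of_endCong (maximalIdeal T ^ n) e1
    have e3 : LinearMap.trace T ρ.V (ρ.ρ (σ ^ j)) = powSum (φ (τ ℓ)) ((ℓ : T)) j := by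
      rw [map_pow]
      exact trace_pow_of_charpoly ρ.finrank_eq (ρ.ρ σ) (hcp ℓ A σ hℓ hbad hA hσ) j
    have e4 : φ (powSum (τ ℓ) ((χ σ : Oˣ) : O) j) = powSum (φ (τ ℓ)) ((ℓ : T)) j := by
      rw [map_powSum, hχσ, map_natCast]
    rw [e4, ← e3]
    exact e2

/-- **the comparison of traces.** -/
theorem trace_mul_eq [IsHausdorff (maximalIdeal T) T]
    (hcheb : ∀ (L : IntermediateField ℚ Kb) [FiniteDimensional ℚ L] [IsGalois ℚ L] (g : GQ)
      (bad : Finset ℕ),
      ∃ (ℓ : ℕ) (A : ValuationSubring Kb) (σ : GQ) (i j : ℕ),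
        ℓ.Prime ∧ ℓ ∉ bad ∧ A.LiesOverPrime ℓ ∧ A.IsFrobeniusAt σ ℓ ∧
        (∀ x ∈ L, σ x = (g ^ i) x) ∧ (∀ x ∈ L, g x = (σ ^ j) x))
    (hρM : ∀ m : ℕ, ∃ L : IntermediateField ℚ Kb, FiniteDimensional ℚ L ∧
      ∀ σ : GQ, (∀ x ∈ L, σ x = x) →
        EndCong (J ^ m) (ρM σ) 1 ∧ ((χ σ : Oˣ) : O) - 1 ∈ J ^ m)
    (bad : Finset ℕ) (τ : ℕ → O)
    (hES : ∀ (ℓ : ℕ) (A : ValuationSubring Kb) (σ : GQ), ℓ.Prime → ℓ ∉ bad →
      A.LiesOverPrime ℓ → A.IsFrobeniusAt σ ℓ →
        RelInv ρM χ σ (τ ℓ) ∧ ((χ σ : Oˣ) : O) = (ℓ : O))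
    (φ : O →+* T)
    (hφ : ∀ n : ℕ, ∃ m : ℕ, ∀ x : O,
      EndCong (J ^ m) (x • (1 : Module.End O M)) 0 → φ x ∈ maximalIdeal T ^ n)
    (ρ : GaloisRepAdic T)
    (hcp : ∀ (ℓ : ℕ) (A : ValuationSubring Kb) (σ : GQ), ℓ.Prime → ℓ ∉ bad →
      A.LiesOverPrime ℓ → A.IsFrobeniusAt σ ℓ →
        LinearMap.charpoly (ρ.ρ σ) = X ^ 2 - C (φ (τ ℓ)) * X + C ((ℓ : T)))
    (σ₀ : GQ) (hσ₀ : ρM σ₀ = 1) (hχσ₀ : χ σ₀ = 1) (g : GQ) :
    ρ.trace (σ₀ * g) = ρ.trace g := by
  rw [← sub_eq_zero]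
  apply IsHausdorff.haus (inferInstance : IsHausdorff (maximalIdeal T) T)
  intro n
  rw [SModEq.sub_mem, sub_zero, smul_eq_mul, Ideal.mul_top]
  obtain ⟨m, hm⟩ := hφ n
  obtain ⟨a, ha1, ha2⟩ := exists_approx J ρM χ hcheb hρM bad τ hES φ ρ hcp m n g
  obtain ⟨a', ha1', ha2'⟩ := exists_approx J ρM χ hcheb hρM bad τ hES φ ρ hcp m n (σ₀ * g)
  -- the two relations have the same left-hand side
  have hσ₀inv : ρM σ₀⁻¹ = 1 := by
    have := map_mul ρM σ₀⁻¹ σ₀
    rw [inv_mul_cancel, map_one, hσ₀, mul_one] at this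
    exact this.symm
  have hsame : ρM (σ₀ * g) + ((χ (σ₀ * g) : Oˣ) : O) • ρM (σ₀ * g)⁻¹
      = ρM g + ((χ g : Oˣ) : O) • ρM g⁻¹ := by
    rw [map_mul, hσ₀, one_mul, map_mul χ, hχσ₀, one_mul, mul_inv_rev, map_mul, hσ₀inv, mul_one]
  have hdiff : EndCong (J ^ m) ((a' - a) • (1 : Module.End O M)) 0 := by
    unfold RelMod at ha1 ha1'
    rw [hsame] at ha1'
    have h3 := ha1'.symm.trans ha1
    intro v
    have h4 := h3 v
    rw [LinearMap.zero_apply, sub_zero, sub_smul, LinearMap.sub_apply]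
    exact h4
  have h5 := hm _ hdiff
  rw [map_sub] at h5
  have e : ρ.trace (σ₀ * g) - ρ.trace g
      = (ρ.trace (σ₀ * g) - φ a') - (ρ.trace g - φ a) + (φ a' - φ a) := by ring
  rw [e]
  exact Ideal.add_mem _ (Ideal.sub_mem _ ha2' ha2) h5

end Main

end Fermat.Agent.S31.TraceCompare
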