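import Mathlib
import Fermat.Prelude.Def_GaloisRep_Adic
import Fermat.Agent.S30.AdicTransfer
import Fermat.Agent.S31.TraceCompare

set_option autoImplicit false
set_option linter.style.haveILetI false

/-!
# S31 (R3'): comparison of traces, two-evaluation form

Generalisation of `TraceCompare.trace_mul_eq`: instead of a ring homomorphism `φ : O →+* T` one has a
ring `P` (not necessarily commutative, e.g. a free algebra of noncommutative polynomials in the Hecke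
operators) with two evaluations `evJ : P →+* O` (the `J`-side) and `evT : P →+* T`, elements of `P`
computing the power sums on both sides (`hq`), and the continuity statement `hK` (**Lemma K**):
`evJ x ≡ 0` modulo `J ^ m` on `M` implies `evT x ∈ 𝔪_T ^ n`.  `TraceCompare.trace_mul_eq` is the case
`P = O`, `evJ = id`, `evT = φ`.
-/

open Polynomial

namespace Fermat.Agent.S31.TraceComparePair

open Fermat.Agent.S30.AdicTransfer Fermat.Agent.S31.TraceCompare IsLocalRing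

local notation "Kb" => AlgebraicClosure ℚ
local notation "GQ" => (AlgebraicClosure ℚ ≃ₐ[ℚ] AlgebraicClosure ℚ)

variable {O : Type} [CommRing O] {M : Type} [AddCommGroup M] [Module O M]
  (J : Ideal O) (ρM : GQ →* Module.End O M) (χ : GQ →* Oˣ)
  {T : Type} [CommRing T] [IsLocalRing T]

/-- **one Chebotarev approximation**, with the Frobenius data `(ℓ, j)` made explicit. -/
theorem exists_approx
    (hcheb : ∀ (L : IntermediateField ℚ Kb) [FiniteDimensional ℚ L] [IsGalois ℚ L] (g : GQ)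
      (bad : Finset ℕ),
      ∃ (ℓ : ℕ) (A : ValuationSubring Kb) (σ : GQ) (i j : ℕ),
        ℓ.Prime ∧ ℓ ∉ bad ∧ A.LiesOverPrime ℓ ∧ A.IsFrobeniusAt σ ℓ ∧
        (∀ x ∈ L, σ x = (g ^ i) x) ∧ (∀ x ∈ L, g x = (σ ^ j) x))
    (hρM : ∀ m : ℕ, ∃ L : IntermediateField ℚ Kb, FiniteDimensional ℚ L ∧
      ∀ σ : GQ, (∀ x ∈ L, σ x = x) →
        EndCong (J ^ m) (ρM σ) 1 ∧ ((χ σ : Oˣ) : O) - 1 ∈ J ^ m)
    (bad : Finset ℕ) (τ : ℕ → O)
    (hES : ∀ (ℓ : ℕ) (A : ValuationSubring Kb) (σ : GQ), ℓ.Prime → ℓ ∉ bad →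
      A.LiesOverPrime ℓ → A.IsFrobeniusAt σ ℓ →
        RelInv ρM χ σ (τ ℓ) ∧ ((χ σ : Oˣ) : O) = (ℓ : O))
    (a : ℕ → T) (ρ : GaloisRepAdic T)
    (hcp : ∀ (ℓ : ℕ) (A : ValuationSubring Kb) (σ : GQ), ℓ.Prime → ℓ ∉ bad →
      A.LiesOverPrime ℓ → A.IsFrobeniusAt σ ℓ →
        LinearMap.charpoly (ρ.ρ σ) = X ^ 2 - C (a ℓ) * X + C ((ℓ : T)))
    (m n : ℕ) (h : GQ) :
    ∃ (ℓ j : ℕ), ℓ.Prime ∧ ℓ ∉ bad ∧ RelMod ρM χ (J ^ m) h (powSum (τ ℓ) ((ℓ : O)) j) ∧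
      ρ.trace h - powSum (a ℓ) ((ℓ : T)) j ∈ maximalIdeal T ^ n := by
  obtain ⟨L1, hL1, h1⟩ := ρ.isAdicContinuous n
  obtain ⟨L2, hL2, h2⟩ := hρM m
  haveI := hL1
  haveI := hL2
  haveI : FiniteDimensional ℚ ↥(L1 ⊔ L2) := IntermediateField.finiteDimensional_sup L1 L2
  haveI : IsAlgClosure ℚ Kb := ⟨inferInstance, AlgebraicClosure.isAlgebraic ℚ⟩
  haveI : Normal ℚ Kb := IsAlgClosure.normal ℚ Kb
  obtain ⟨L, hle, hLfin, hLst⟩ := exists_normal_finite_ge (L1 ⊔ L2)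
  haveI := hLfin
  haveI : Normal ℚ L := IntermediateField.normal_iff_forall_map_eq.mpr hLst
  haveI : IsGalois ℚ L := ⟨⟩
  obtain ⟨ℓ, A, σ, i, j, hℓ, hbad, hA, hσ, -, hg⟩ := hcheb L h bad
  obtain ⟨hrel, hχσ⟩ := hES ℓ A σ hℓ hbad hA hσ
  set δ : GQ := (σ ^ j)⁻¹ * h with hδ
  have hδfix : ∀ x ∈ L, δ x = x := by
    intro x hx
    rw [hδ, AlgEquiv.mul_apply, hg x hx]
    exact (σ ^ j).symm_apply_apply x
  have hhδ : h = σ ^ j * δ := by rw [hδ, mul_inv_cancel_left]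
  have hδ1 : ∀ v : ρ.V, ρ.ρ δ v - v ∈ (maximalIdeal T ^ n) • (⊤ : Submodule T ρ.V) :=
    h1 δ (fun x hx => hδfix x (hle (le_sup_left (a := L1) (b := L2) hx)))
  obtain ⟨hδ2, hδ3⟩ := h2 δ (fun x hx => hδfix x (hle (le_sup_right (a := L1) (b := L2) hx)))
  refine ⟨ℓ, j, hℓ, hbad, ?_, ?_⟩
  · rw [hhδ, ← hχσ]
    exact relMod_of_mul ρM χ (relInv_pow ρM χ hrel j) hδ2 hδ3
  · have hnt : Nontrivial T := inferInstance
    have e1 : EndCong (maximalIdeal T ^ n) (ρ.ρ h) (ρ.ρ (σ ^ j)) := by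
      have hc : EndCong (maximalIdeal T ^ n) (ρ.ρ δ) 1 := fun v => by
        rw [Module.End.one_apply]; exact hδ1 v
      have := (EndCong.refl (I := maximalIdeal T ^ n) (ρ.ρ (σ ^ j))).mul hc
      rwa [← map_mul, mul_one, ← hhδ] at this
    have e2 := trace_mem_of_endCong (maximalIdeal T ^ n) e1
    have e3 : LinearMap.trace T ρ.V (ρ.ρ (σ ^ j)) = powSum (a ℓ) ((ℓ : T)) j := by
      rw [map_pow]
      exact trace_pow_of_charpoly ρ.finrank_eq (ρ.ρ σ) (hcp ℓ A σ hℓ hbad hA hσ) j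
    rw [← e3]
    exact e2

/-- **the comparison of traces, two-evaluation form.** -/
theorem trace_mul_eq_of_pair [IsHausdorff (maximalIdeal T) T]
    (hcheb : ∀ (L : IntermediateField ℚ Kb) [FiniteDimensional ℚ L] [IsGalois ℚ L] (g : GQ)
      (bad : Finset ℕ),
      ∃ (ℓ : ℕ) (A : ValuationSubring Kb) (σ : GQ) (i j : ℕ),
        ℓ.Prime ∧ ℓ ∉ bad ∧ A.LiesOverPrime ℓ ∧ A.IsFrobeniusAt σ ℓ ∧
        (∀ x ∈ L, σ x = (g ^ i) x) ∧ (∀ x ∈ L, g x = (σ ^ j) x))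
    (hρM : ∀ m : ℕ, ∃ L : IntermediateField ℚ Kb, FiniteDimensional ℚ L ∧
      ∀ σ : GQ, (∀ x ∈ L, σ x = x) →
        EndCong (J ^ m) (ρM σ) 1 ∧ ((χ σ : Oˣ) : O) - 1 ∈ J ^ m)
    (bad : Finset ℕ) (τ : ℕ → O)
    (hES : ∀ (ℓ : ℕ) (A : ValuationSubring Kb) (σ : GQ), ℓ.Prime → ℓ ∉ bad →
      A.LiesOverPrime ℓ → A.IsFrobeniusAt σ ℓ →
        RelInv ρM χ σ (τ ℓ) ∧ ((χ σ : Oˣ) : O) = (ℓ : O))
    (a : ℕ → T) {P : Type*} [Ring P] (evJ : P →+* O) (evT : P →+* T)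
    (hq : ∀ ℓ : ℕ, ℓ.Prime → ℓ ∉ bad → ∀ j : ℕ, ∃ q : P,
      evJ q = powSum (τ ℓ) ((ℓ : O)) j ∧ evT q = powSum (a ℓ) ((ℓ : T)) j)
    (hK : ∀ n : ℕ, ∃ m : ℕ, ∀ x : P,
      EndCong (J ^ m) (evJ x • (1 : Module.End O M)) 0 → evT x ∈ maximalIdeal T ^ n)
    (ρ : GaloisRepAdic T)
    (hcp : ∀ (ℓ : ℕ) (A : ValuationSubring Kb) (σ : GQ), ℓ.Prime → ℓ ∉ bad →
      A.LiesOverPrime ℓ → A.IsFrobeniusAt σ ℓ →
        LinearMap.charpoly (ρ.ρ σ) = X ^ 2 - C (a ℓ) * X + C ((ℓ : T)))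
    (σ₀ : GQ) (hσ₀ : ρM σ₀ = 1) (hχσ₀ : χ σ₀ = 1) (g : GQ) :
    ρ.trace (σ₀ * g) = ρ.trace g := by
  rw [← sub_eq_zero]
  apply IsHausdorff.haus (inferInstance : IsHausdorff (maximalIdeal T) T)
  intro n
  rw [SModEq.sub_mem, sub_zero, smul_eq_mul, Ideal.mul_top]
  obtain ⟨m, hm⟩ := hK n
  obtain ⟨ℓ, j, hℓ, hbad, ha1, ha2⟩ :=
    exists_approx J ρM χ hcheb hρM bad τ hES a ρ hcp m n g
  obtain ⟨ℓ', j', hℓ', hbad', ha1', ha2'⟩ :=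
    exists_approx J ρM χ hcheb hρM bad τ hES a ρ hcp m n (σ₀ * g)
  obtain ⟨q, hqJ, hqT⟩ := hq ℓ hℓ hbad j
  obtain ⟨q', hqJ', hqT'⟩ := hq ℓ' hℓ' hbad' j'
  have hσ₀inv : ρM σ₀⁻¹ = 1 := by
    have := map_mul ρM σ₀⁻¹ σ₀
    rw [inv_mul_cancel, map_one, hσ₀, mul_one] at this
    exact this.symm
  have hsame : ρM (σ₀ * g) + ((χ (σ₀ * g) : Oˣ) : O) • ρM (σ₀ * g)⁻¹
      = ρM g + ((χ g : Oˣ) : O) • ρM g⁻¹ := by
    rw [map_mul, hσ₀, one_mul, map_mul χ, hχσ₀, one_mul, mul_inv_rev, map_mul, hσ₀inv, mul_one]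
  have hdiff : EndCong (J ^ m) (evJ (q' - q) • (1 : Module.End O M)) 0 := by
    unfold RelMod at ha1 ha1'
    rw [hsame] at ha1'
    have h3 := ha1'.symm.trans ha1
    intro v
    have h4 := h3 v
    rw [LinearMap.zero_apply, sub_zero, map_sub, hqJ, hqJ', sub_smul, LinearMap.sub_apply]
    exact h4
  have h5 := hm _ hdiff
  rw [map_sub, hqT, hqT'] at h5
  have e : ρ.trace (σ₀ * g) - ρ.trace g
      = (ρ.trace (σ₀ * g) - powSum (a ℓ') ((ℓ' : T)) j') - (ρ.trace g - powSum (a ℓ) ((ℓ : T)) j)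
        + (powSum (a ℓ') ((ℓ' : T)) j' - powSum (a ℓ) ((ℓ : T)) j) := by ring
  rw [e]
  exact Ideal.add_mem _ (Ideal.sub_mem _ ha2' ha2) h5

end Fermat.Agent.S31.TraceComparePair
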