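import Mathlib
import Fermat.Prelude.Def_CuspForm_HeckeGaloisRepDatum
import Fermat.Agent.S53.Schur

/-!
# S31, leaf (1): unramifiedness from invariance of traces

* `eq_zero_of_trace_mul_eq_zero` : the trace form on `End V` (`V` finite free over a commutative ring)
  is nondegenerate;
* `eq_one_of_trace_mul` : if the image of `ρ` spans `End V` and `tr ρ(σ g) = tr ρ(g)` for all `g`,
  then `ρ σ = 1`;
* `eq_one_of_trace_adic` : the same for a `GaloisRepAdic A` with absolutely irreducible
  residual representation (`S53/Schur`: Burnside + Nakayama);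
* `isUnramifiedAt_of_trace` : a Hecke–Galois datum is unramified at `q` as soon as
  `tr ρ(σ g) = tr ρ(g)` for every `σ` in an inertia group over `q` and every `g`.
-/

set_option autoImplicit false

namespace Fermat.Agent.S31.TraceReduce

open Module

section Abstract

variable {A : Type*} [CommRing A] {V : Type*} [AddCommGroup V] [Module A V]
  [Module.Free A V] [Module.Finite A V]

/-- nondegeneracy of the trace form on `End V` for a finite free module. -/
theorem eq_zero_of_trace_mul_eq_zero (D : Module.End A V)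
    (h : ∀ X : Module.End A V, LinearMap.trace A V (D * X) = 0) : D = 0 := by
  classical
  let b := Module.Free.chooseBasis A V
  apply (LinearMap.toMatrix b b).injective
  rw [map_zero]
  ext i j
  have h1 := h ((LinearMap.toMatrix b b).symm (Matrix.single j i (1 : A)))
  rw [LinearMap.trace_eq_matrix_trace A b, LinearMap.toMatrix_mul, LinearEquiv.apply_symm_apply,
    Matrix.trace_mul_comm] at h1
  rw [Matrix.zero_apply, ← h1]
  simp only [Matrix.trace, Matrix.diag_apply, Matrix.mul_apply, Matrix.single_apply, ite_mul,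
    one_mul, zero_mul]
  rw [Finset.sum_eq_single j, Finset.sum_eq_single i]
  · simp
  · intro k _ hk
    simp [hk.symm]
  · simp
  · intro k _ hk
    apply Finset.sum_eq_zero
    intro l _
    simp [hk.symm]
  · simp

variable {G : Type*} [Group G]

/-- **an element acting trivially on all traces acts trivially**, when the image spans. -/
theorem eq_one_of_trace_mul (ρ : G →* Module.End A V)
    (hspan : Submodule.span A (Set.range ρ) = ⊤) (σ : G)
    (h : ∀ g : G, LinearMap.trace A V (ρ (σ * g)) = LinearMap.trace A V (ρ g)) : ρ σ = 1 := by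
  have h0 : ρ σ - 1 = 0 := by
    apply eq_zero_of_trace_mul_eq_zero
    intro X
    have hX : X ∈ Submodule.span A (Set.range ρ) := by rw [hspan]; trivial
    induction hX using Submodule.span_induction with
    | mem x hx =>
      obtain ⟨g, rfl⟩ := hx
      rw [sub_mul, one_mul, map_sub, ← map_mul, h g, sub_self]
    | zero => rw [mul_zero, map_zero]
    | add x y _ _ hx hy => rw [mul_add, map_add, hx, hy, add_zero]
    | smul a x _ hx => rw [mul_smul_comm, map_smul, hx, smul_zero]
  exact sub_eq_zero.mp h0

end Abstract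

local notation "GQ" => (AlgebraicClosure ℚ ≃ₐ[ℚ] AlgebraicClosure ℚ)

/-- **`ρ σ = 1` from invariance of traces**, for an adic representation with absolutely irreducible
residual representation. -/
theorem eq_one_of_trace_adic {A : Type} [CommRing A] [IsLocalRing A]
    (ρ : GaloisRepAdic A) (hirr : ρ.residual.IsAbsolutelyIrreducible) (σ : GQ)
    (h : ∀ g : GQ, ρ.trace (σ * g) = ρ.trace g) : ρ.ρ σ = 1 :=
  eq_one_of_trace_mul ρ.ρ
    (Fermat.Agent.S53.Schur.adic_span_eq_top ρ
      (Fermat.Agent.S53.Schur.residual_span_eq_top ρ.residual hirr)) σ h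

open CuspForm

variable {N : ℕ} [NeZero N] {S : Set ℕ}
  {𝒪 : Type} [CommRing 𝒪] [IsDomain 𝒪] [IsDiscreteValuationRing 𝒪]
  [IsAdicComplete (IsLocalRing.maximalIdeal 𝒪) 𝒪]
  {θ : CuspForm.heckeAlgebra N 2 S →+* IsLocalRing.ResidueField 𝒪}
  {T : Type} [CommRing T] [IsLocalRing T] [IsNoetherianRing T]
  [IsAdicComplete (IsLocalRing.maximalIdeal T) T] [Algebra 𝒪 T] [IsLocalHom (algebraMap 𝒪 T)]
  [Module.Finite 𝒪 T] [Module.Free 𝒪 T]

/-- **S31 reduced to the invariance of traces under inertia.** -/
theorem isUnramifiedAt_of_trace (H : CuspForm.HeckeGaloisRepDatum N S 𝒪 θ T) (q : ℕ)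
    (htr : ∀ P : ValuationSubring (AlgebraicClosure ℚ), P.LiesOverPrime q →
      ∀ σ ∈ P.inertiaSubgroupIn ℚ, ∀ g : GQ, H.ρ.trace (σ * g) = H.ρ.trace g) :
    H.ρ.IsUnramifiedAt q :=
  fun P hP σ hσ => eq_one_of_trace_adic H.ρ H.residual_absIrr σ (htr P hP σ hσ)

end Fermat.Agent.S31.TraceReduce
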