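/-
S31, the top junction (hypothesis style).

`result_of_package` : the frozen statement S31 (`H.ρ.IsUnramifiedAt q` for `q ∉ S`) from an abstract
`J`-side package

* a commutative ring `O`, an `O`-module `M`, an ideal `J`, an `O`-linear Galois action `ρM` on `M` and
  a character `χ : G_ℚ →* Oˣ`, both continuous for the `J`-adic filtration (`hρM`);
* `τ : ℕ → O` with the exact relation `ρM σ + χ σ • ρM σ⁻¹ = τ ℓ • 1` and `χ σ = ℓ` at the Frobenius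
  lifts at the primes `ℓ ∉ S` (`hES`);
* a ring homomorphism `PiT : O →+* T`, continuous (`hPi`), with `PiT (τ ℓ) = H.π (T_ℓ)` (`hPiτ`);
* `ρM σ = 1` and `χ σ = 1` on the inertia groups at the primes `q ∉ S` (`hin`),

by `TraceReduce.isUnramifiedAt_of_trace` (trace criterion), `TraceCompare.trace_mul_eq` (comparison of
traces) and weak cyclic Chebotarev `CycCheb.Main.cycChebStatement`.

`result_of_pair_package` : the same on top of `TraceComparePair.trace_mul_eq_of_pair` (two evaluations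
`evJ : P →+* O`, `evT : P →+* T` of a possibly noncommutative ring `P` instead of `PiT`).
-/
import Mathlib
import Fermat.Prelude.Def_CuspForm_HeckeGaloisRepDatum
import Fermat.Agent.S30.AdicTransfer
import Fermat.Agent.S31.TraceReduce
import Fermat.Agent.S31.TraceCompare
import Fermat.Agent.S31.TraceComparePair
import Fermat.Agent.S29.CycCheb.Main

set_option autoImplicit false

open Polynomial

namespace Fermat.Agent.S31.TopOf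

open Fermat.Agent.S30.AdicTransfer

local notation "Kb" => AlgebraicClosure ℚ
local notation "GQ" => (AlgebraicClosure ℚ ≃ₐ[ℚ] AlgebraicClosure ℚ)

variable {N : ℕ} [NeZero N] {S : Finset ℕ}
  {𝒪 : Type} [CommRing 𝒪] [IsDomain 𝒪] [IsDiscreteValuationRing 𝒪]
  [IsAdicComplete (IsLocalRing.maximalIdeal 𝒪) 𝒪]
  {θ : CuspForm.heckeAlgebra N 2 (↑S : Set ℕ) →+* IsLocalRing.ResidueField 𝒪}
  {T : Type} [CommRing T] [IsLocalRing T] [IsNoetherianRing T]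
  [IsAdicComplete (IsLocalRing.maximalIdeal T) T] [Algebra 𝒪 T] [IsLocalHom (algebraMap 𝒪 T)]
  [Module.Finite 𝒪 T] [Module.Free 𝒪 T]

/-- weak cyclic Chebotarev, in the shape of the hypothesis `hcheb` of `TraceCompare`. -/
theorem cheb (L : IntermediateField ℚ Kb) [FiniteDimensional ℚ L] [IsGalois ℚ L] (g : GQ)
    (bad : Finset ℕ) :
    ∃ (ℓ : ℕ) (A : ValuationSubring Kb) (σ : GQ) (i j : ℕ),
      ℓ.Prime ∧ ℓ ∉ bad ∧ A.LiesOverPrime ℓ ∧ A.IsFrobeniusAt σ ℓ ∧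
      (∀ x ∈ L, σ x = (g ^ i) x) ∧ (∀ x ∈ L, g x = (σ ^ j) x) :=
  Fermat.Agent.S29.CycCheb.Main.cycChebStatement L g bad

/-- the characteristic polynomials of the datum at the Frobenius lifts outside `S`, in the shape
of the hypothesis `hcp` of `TraceCompare`. -/
theorem charpoly_frob_of_notMem (hNS : ∀ q : ℕ, q.Prime → q ∣ N → q ∈ S)
    (H : CuspForm.HeckeGaloisRepDatum N (↑S : Set ℕ) 𝒪 θ T) (a : ℕ → T)
    (ha : ∀ (ℓ : ℕ) (hℓ : ℓ.Prime) (hℓN : ¬ ℓ ∣ N) (hℓS : ℓ ∉ (↑S : Set ℕ)),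
      a ℓ = H.π (CuspForm.heckeAlgebra.T hℓ hℓN hℓS))
    (ℓ : ℕ) (A : ValuationSubring Kb) (σ : GQ) (hℓ : ℓ.Prime) (hℓS : ℓ ∉ S)
    (hA : A.LiesOverPrime ℓ) (hσ : A.IsFrobeniusAt σ ℓ) :
    LinearMap.charpoly (H.ρ.ρ σ) = X ^ 2 - C (a ℓ) * X + C ((ℓ : T)) := by
  have hℓN : ¬ ℓ ∣ N := fun h => hℓS (hNS ℓ hℓ h)
  have hℓS' : ℓ ∉ (↑S : Set ℕ) := by simpa using hℓS
  rw [ha ℓ hℓ hℓN hℓS']
  exact H.charpoly_frob ℓ hℓ hℓN hℓS' A hA σ hσ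

/-- **S31 from the abstract `J`-side package.** -/
theorem result_of_package
    (hNS : ∀ q : ℕ, q.Prime → q ∣ N → q ∈ S)
    (H : CuspForm.HeckeGaloisRepDatum N (↑S : Set ℕ) 𝒪 θ T)
    {O : Type} [CommRing O] {M : Type} [AddCommGroup M] [Module O M] (J : Ideal O)
    (ρM : GQ →* Module.End O M) (χ : GQ →* Oˣ)
    (hρM : ∀ m : ℕ, ∃ L : IntermediateField ℚ Kb, FiniteDimensional ℚ L ∧
      ∀ σ : GQ, (∀ x ∈ L, σ x = x) →
        EndCong (J ^ m) (ρM σ) 1 ∧ ((χ σ : Oˣ) : O) - 1 ∈ J ^ m)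
    (τ : ℕ → O)
    (hES : ∀ (ℓ : ℕ) (A : ValuationSubring Kb) (σ : GQ), ℓ.Prime → ℓ ∉ S →
      A.LiesOverPrime ℓ → A.IsFrobeniusAt σ ℓ →
        RelInv ρM χ σ (τ ℓ) ∧ ((χ σ : Oˣ) : O) = (ℓ : O))
    (PiT : O →+* T)
    (hPi : ∀ n : ℕ, ∃ m : ℕ, ∀ x : O,
      EndCong (J ^ m) (x • (1 : Module.End O M)) 0 → PiT x ∈ IsLocalRing.maximalIdeal T ^ n)
    (hPiτ : ∀ (ℓ : ℕ) (hℓ : ℓ.Prime) (hℓN : ¬ ℓ ∣ N) (hℓS : ℓ ∉ (↑S : Set ℕ)),
      PiT (τ ℓ) = H.π (CuspForm.heckeAlgebra.T hℓ hℓN hℓS))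
    (hin : ∀ q : ℕ, q.Prime → q ∉ S → ∀ P : ValuationSubring Kb, P.LiesOverPrime q →
      ∀ σ ∈ P.inertiaSubgroupIn ℚ, ρM σ = 1 ∧ χ σ = 1)
    (q : ℕ) (hq : q.Prime) (hqS : q ∉ S) :
    H.ρ.IsUnramifiedAt q := by
  refine Fermat.Agent.S31.TraceReduce.isUnramifiedAt_of_trace H q fun P hP σ hσ g => ?_
  obtain ⟨h1, h2⟩ := hin q hq hqS P hP σ hσ
  exact Fermat.Agent.S31.TraceCompare.trace_mul_eq J ρM χ (fun L _ _ g bad => cheb L g bad)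
    hρM S τ hES PiT hPi H.ρ
    (charpoly_frob_of_notMem hNS H (fun ℓ => PiT (τ ℓ)) hPiτ) σ h1 h2 g

/-- **S31 from the abstract `J`-side package, two-evaluation form** (no ring homomorphism
`O →+* T`: a ring `P`, possibly noncommutative, with evaluations `evJ : P →+* O` and
`evT : P →+* T`). -/
theorem result_of_pair_package
    (hNS : ∀ q : ℕ, q.Prime → q ∣ N → q ∈ S)
    (H : CuspForm.HeckeGaloisRepDatum N (↑S : Set ℕ) 𝒪 θ T)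
    {O : Type} [CommRing O] {M : Type} [AddCommGroup M] [Module O M] (J : Ideal O)
    (ρM : GQ →* Module.End O M) (χ : GQ →* Oˣ)
    (hρM : ∀ m : ℕ, ∃ L : IntermediateField ℚ Kb, FiniteDimensional ℚ L ∧
      ∀ σ : GQ, (∀ x ∈ L, σ x = x) →
        EndCong (J ^ m) (ρM σ) 1 ∧ ((χ σ : Oˣ) : O) - 1 ∈ J ^ m)
    (τ : ℕ → O)
    (hES : ∀ (ℓ : ℕ) (A : ValuationSubring Kb) (σ : GQ), ℓ.Prime → ℓ ∉ S →
      A.LiesOverPrime ℓ → A.IsFrobeniusAt σ ℓ →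
        RelInv ρM χ σ (τ ℓ) ∧ ((χ σ : Oˣ) : O) = (ℓ : O))
    (a : ℕ → T)
    (ha : ∀ (ℓ : ℕ) (hℓ : ℓ.Prime) (hℓN : ¬ ℓ ∣ N) (hℓS : ℓ ∉ (↑S : Set ℕ)),
      a ℓ = H.π (CuspForm.heckeAlgebra.T hℓ hℓN hℓS))
    {P : Type*} [Ring P] (evJ : P →+* O) (evT : P →+* T)
    (hq : ∀ ℓ : ℕ, ℓ.Prime → ℓ ∉ S → ∀ j : ℕ, ∃ x : P,
      evJ x = powSum (τ ℓ) ((ℓ : O)) j ∧ evT x = powSum (a ℓ) ((ℓ : T)) j)
    (hK : ∀ n : ℕ, ∃ m : ℕ, ∀ x : P,
      EndCong (J ^ m) (evJ x • (1 : Module.End O M)) 0 →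
        evT x ∈ IsLocalRing.maximalIdeal T ^ n)
    (hin : ∀ q : ℕ, q.Prime → q ∉ S → ∀ P : ValuationSubring Kb, P.LiesOverPrime q →
      ∀ σ ∈ P.inertiaSubgroupIn ℚ, ρM σ = 1 ∧ χ σ = 1)
    (q : ℕ) (hq' : q.Prime) (hqS : q ∉ S) :
    H.ρ.IsUnramifiedAt q := by
  refine Fermat.Agent.S31.TraceReduce.isUnramifiedAt_of_trace H q fun P' hP σ hσ g => ?_
  obtain ⟨h1, h2⟩ := hin q hq' hqS P' hP σ hσ
  exact Fermat.Agent.S31.TraceComparePair.trace_mul_eq_of_pair J ρM χ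
    (fun L _ _ g bad => cheb L g bad) hρM S τ hES a evJ evT hq hK H.ρ
    (charpoly_frob_of_notMem hNS H a ha) σ h1 h2 g

end Fermat.Agent.S31.TopOf
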