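import Mathlib
import Fermat.Prelude.Def_CuspForm_HeckeGaloisRepDatum
import Fermat.Agent.S30.PadicAlg
import Fermat.Agent.S30.KappaSystem
import Fermat.Agent.S31.TopOf
import Fermat.Agent.S31.PackageJ
import Fermat.Agent.S31.PiContComm
import Fermat.Agent.S31.RelTransferP

/-!
# S31: the final assembly
-/

set_option autoImplicit false
set_option linter.unusedSectionVars false
set_option linter.style.haveILetI false

noncomputable section

namespace Fermat.Agent.S31.MainOf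

open Fermat.Agent.S29.Betti
open Fermat.Agent.S30.TateJ Fermat.Agent.S30.KappaSystem
open Fermat.Agent.S31.SubalgRep Fermat.Agent.S31.PackageJ Fermat.Agent.S31.PiContComm
open Fermat.Agent.S31.RelTransfer Fermat.Agent.S31.RelTransferP

variable {p : ℕ} {N : ℕ} [NeZero N] {S : Finset ℕ}
  {𝒪 : Type} [CommRing 𝒪] [IsDomain 𝒪] [IsDiscreteValuationRing 𝒪]
  [IsAdicComplete (IsLocalRing.maximalIdeal 𝒪) 𝒪]
  {θ : CuspForm.heckeAlgebra N 2 (↑S : Set ℕ) →+* IsLocalRing.ResidueField 𝒪}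
  {T : Type} [CommRing T] [IsLocalRing T] [IsNoetherianRing T]
  [IsAdicComplete (IsLocalRing.maximalIdeal T) T] [Algebra 𝒪 T] [IsLocalHom (algebraMap 𝒪 T)]
  [Module.Finite 𝒪 T] [Module.Free 𝒪 T]

/-- the good primes indexed by `Idx N S`. -/
def gI (N : ℕ) [NeZero N] (S : Finset ℕ) : Idx N S → GoodPrime N := fun i => ⟨i.1, i.2.1⟩

theorem hSI (N : ℕ) [NeZero N] (S : Finset ℕ) (i : Idx N S) :
    (((gI N S i).1 : Nat.Primes) : ℕ) ∉ (↑S : Set ℕ) := i.2.2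

/-- `p` lies in the maximal ideal of `T`. -/
theorem natCast_mem_maximalIdeal (hp𝒪 : (p : 𝒪) ∈ IsLocalRing.maximalIdeal 𝒪) :
    ((p : ℕ) : T) ∈ IsLocalRing.maximalIdeal T := by
  have h : algebraMap 𝒪 T (p : 𝒪) ∈ IsLocalRing.maximalIdeal T := by
    rw [IsLocalRing.mem_maximalIdeal, mem_nonunits_iff] at hp𝒪 ⊢
    exact fun hu => hp𝒪 (isUnit_of_map_unit (algebraMap 𝒪 T) _ hu)
  rwa [map_natCast] at h

/-- **S31.** -/
theorem isUnramifiedAt_of_notMem (hp : p.Prime)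
    (hp𝒪 : (p : 𝒪) ∈ IsLocalRing.maximalIdeal 𝒪) (hpS : p ∈ S)
    (hNS : ∀ q : ℕ, q.Prime → q ∣ N → q ∈ S)
    (H : CuspForm.HeckeGaloisRepDatum N (↑S : Set ℕ) 𝒪 θ T)
    (q : ℕ) (hq : q.Prime) (hqS : q ∉ S) :
    H.ρ.IsUnramifiedAt q := by
  haveI : Fact p.Prime := ⟨hp⟩
  have hpT : ((p : ℕ) : T) ∈ IsLocalRing.maximalIdeal T := natCast_mem_maximalIdeal hp𝒪
  letI : Algebra ℤ_[p] T :=
    (Fermat.Agent.S30.PadicAlg.padicHom (IsLocalRing.maximalIdeal T) hpT).toAlgebra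
  -- the ring homomorphism `Π`
  let φ : ↥(BJ N p S) →+* T :=
    PiHom (gI N S) (↑S : Set ℕ) (hSI N S) H.π (tJ N p S) (eTate N p) (eTate_injective N p)
      (fun i ψ => by
        haveI : Fact ((i.1 : Nat.Primes) : ℕ).Prime := ⟨i.1.2⟩
        exact eTate_heckeX N p (i.1 : ℕ) i.1.2 i.2.1 ψ)
  refine Fermat.Agent.S31.TopOf.result_of_package hNS H (JJ N p S hpS) (rhoM N p S hpS)
    (chiM N p S hpS) (hrhoM N p S hpS) (tau N p S hpS) (hES N p S hpS hNS)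
    (piT (BJ N p S) (BJ_comm N p S hpS) φ)
    (PiContComm.hPi (BJ N p S) (BJ_comm N p S hpS) (IsLocalRing.maximalIdeal T) φ hpT)
    ?_ (hin N p S hpS hNS) q hq hqS
  intro ℓ hℓ hℓN hℓS
  rw [tau_eq_ofSub N p S hpS ℓ hℓ hℓN hℓS, piT_ofSub]
  exact PiHom_gen (gI N S) (↑S : Set ℕ) (hSI N S) H.π (tJ N p S) (eTate N p) (eTate_injective N p)
    _ ⟨⟨ℓ, hℓ⟩, hℓN, hℓS⟩ _

end Fermat.Agent.S31.MainOf

end
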