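import Mathlib
import Fermat.Prelude.Def_GaloisRep_Adic
import Fermat.Agent.S30.AdicTransfer

/-!
# S31, abstract step (2): `t(g) = ρ g + χ g • ρ g⁻¹` lies in a subalgebra, for all `g`

`R` a Noetherian local ring, `M` a finitely generated free `R`-module, `ρ : G_ℚ →* End_R M`
adic-continuous, `χ : G_ℚ →* Rˣ` continuous, `B` an `R`-subalgebra of `End_R M`.  If
`ρ σ + χ σ • ρ σ⁻¹ ∈ B` for every Frobenius lift `σ` at every prime outside a finite set `bad`, then
(weak cyclic Chebotarev, as a hypothesis in the verbatim shape of `CycChebStatement`)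
`ρ g + χ g • ρ g⁻¹ ∈ B` for **all** `g` (`t_mem_of_cycCheb`).

* `unit_pow_mem` : `u + d u⁻¹ ∈ B ⇒ u^i + d^i u^{-i} ∈ B` in any algebra;
* `mem_smul_top_end` : an endomorphism of a finite free module with image in `I M` lies in
  `I • End M`;
* `mem_of_forall_endCong` : a subalgebra (indeed any submodule) of `End_R M` is closed for the
  `𝔪`-adic topology;
* `endCong_tval_mul` : `t (s τ) ≡ t s` modulo `I` if `ρ τ ≡ 1` and `χ τ ≡ 1` modulo `I`;
* `exists_mem_endCong` : the finite-level statement; `t_mem_of_cycCheb`.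
-/

set_option autoImplicit false

open Module

namespace Fermat.Agent.S31.AdicMember

open Fermat.Agent.S30.AdicTransfer

/-! ### 1. powers -/

section Units

variable {R : Type*} [CommRing R] {E : Type*} [Ring E] [Algebra R E]

/-- `u + d u⁻¹ ∈ B` implies `u^i + d^i u^{-i} ∈ B`. -/
theorem unit_pow_mem (B : Subalgebra R E) {u : Eˣ} {d : R}
    (h : (u : E) + d • ((u⁻¹ : Eˣ) : E) ∈ B) (i : ℕ) :
    ((u ^ i : Eˣ) : E) + d ^ i • (((u ^ i)⁻¹ : Eˣ) : E) ∈ B := by
  set f : E := (u : E) with hf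
  set f' : E := d • ((u⁻¹ : Eˣ) : E) with hf'
  have hff' : f * f' = d • (1 : E) := by
    rw [hf', mul_smul_comm, hf, Units.mul_inv]
  have hf'f : f' * f = d • (1 : E) := by
    rw [hf', smul_mul_assoc, hf, Units.inv_mul]
  have key : ∀ n, f ^ n + f' ^ n ∈ B ∧ f ^ (n + 1) + f' ^ (n + 1) ∈ B := by
    intro n
    induction n with
    | zero =>
      refine ⟨?_, ?_⟩
      · simp only [pow_zero]
        exact add_mem (one_mem B) (one_mem B)
      · simpa only [zero_add, pow_one] using h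
    | succ n ih =>
      refine ⟨ih.2, ?_⟩
      have e : f ^ (n + 1 + 1) + f' ^ (n + 1 + 1) =
          (f + f') * (f ^ (n + 1) + f' ^ (n + 1)) - d • (f ^ n + f' ^ n) := by
        have c1 : f' * f ^ (n + 1) = (f' * f) * f ^ n := by
          rw [pow_succ', ← mul_assoc]
        have c2 : f * f' ^ (n + 1) = (f * f') * f' ^ n := by
          rw [pow_succ', ← mul_assoc]
        rw [add_mul, mul_add, mul_add, c1, c2, ← pow_succ', ← pow_succ', hff', hf'f,
          smul_mul_assoc, smul_mul_assoc, one_mul, one_mul, smul_add]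
        abel
      rw [e]
      exact sub_mem (mul_mem h ih.2) (B.smul_mem ih.1 d)
  have hpow : f' ^ i = d ^ i • (((u ^ i)⁻¹ : Eˣ) : E) := by
    rw [hf', smul_pow, ← Units.val_pow_eq_pow_val, inv_pow]
  rw [Units.val_pow_eq_pow_val, ← hpow]
  exact (key i).1

end Units

/-! ### 2. closedness of submodules of `End_R M` -/

section Closed

variable {R : Type*} [CommRing R] {M : Type*} [AddCommGroup M] [Module R M]
  [Module.Free R M] [Module.Finite R M]

/-- an endomorphism of a finite free module with image in `I M` lies in `I • End M`. -/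
theorem mem_smul_top_end {I : Ideal R} {D : Module.End R M}
    (h : ∀ v : M, D v ∈ (I • ⊤ : Submodule R M)) :
    D ∈ (I • ⊤ : Submodule R (Module.End R M)) := by
  classical
  set b := Module.Free.chooseBasis R M with hb
  have hD : D = ∑ i, LinearMap.smulRightₗ (b.coord i) (D (b i)) := by
    apply b.ext
    intro j
    rw [LinearMap.sum_apply]
    simp only [LinearMap.smulRightₗ_apply]
    rw [Finset.sum_eq_single j]
    · rw [LinearMap.smulRight_apply, Module.Basis.coord_apply, Module.Basis.repr_self,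
        Finsupp.single_eq_same, one_smul]
    · intro i _ hij
      rw [LinearMap.smulRight_apply, Module.Basis.coord_apply, Module.Basis.repr_self,
        Finsupp.single_eq_of_ne hij, zero_smul]
    · intro hj
      exact absurd (Finset.mem_univ j) hj
  rw [hD]
  refine Submodule.sum_mem _ fun i _ => ?_
  have h1 : LinearMap.smulRightₗ (b.coord i) (D (b i)) ∈
      Submodule.map (LinearMap.smulRightₗ (b.coord i) : M →ₗ[R] Module.End R M)
        (I • ⊤ : Submodule R M) :=
    Submodule.mem_map_of_mem (h (b i))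
  rw [Submodule.map_smul''] at h1
  exact Submodule.smul_mono (le_refl I) le_top h1

variable [IsLocalRing R] [IsNoetherianRing R]

/-- **closedness**: an element of `End_R M` which is congruent to elements of a submodule `B`
modulo every power of the maximal ideal lies in `B`. -/
theorem mem_of_forall_endCong (B : Submodule R (Module.End R M)) (f : Module.End R M)
    (h : ∀ n : ℕ, ∃ b ∈ B, EndCong (IsLocalRing.maximalIdeal R ^ n) f b) : f ∈ B := by
  have hm : IsLocalRing.maximalIdeal R ≠ ⊤ := Ideal.IsPrime.ne_top inferInstance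
  haveI : IsHausdorff (IsLocalRing.maximalIdeal R) (Module.End R M ⧸ B) :=
    IsHausdorff.of_isLocalRing _ _ hm
  have h0 : B.mkQ f = 0 := by
    apply IsHausdorff.haus (inferInstance :
      IsHausdorff (IsLocalRing.maximalIdeal R) (Module.End R M ⧸ B))
    intro n
    rw [SModEq.sub_mem, sub_zero]
    obtain ⟨b, hb, hfb⟩ := h n
    have h1 : f - b ∈ (IsLocalRing.maximalIdeal R ^ n • ⊤ : Submodule R (Module.End R M)) :=
      mem_smul_top_end (fun v => by rw [LinearMap.sub_apply]; exact hfb v)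
    have h2 : B.mkQ (f - b) ∈ Submodule.map B.mkQ
        (IsLocalRing.maximalIdeal R ^ n • ⊤ : Submodule R (Module.End R M)) :=
      Submodule.mem_map_of_mem h1
    have hb0 : B.mkQ b = 0 := by
      rw [Submodule.mkQ_apply]
      exact (Submodule.Quotient.mk_eq_zero B).mpr hb
    rw [Submodule.map_smul'', map_sub, hb0, sub_zero] at h2
    exact Submodule.smul_mono (le_refl _) le_top h2
  rw [Submodule.mkQ_apply] at h0
  exact (Submodule.Quotient.mk_eq_zero B).mp h0

end Closed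

/-! ### 3. the value `t g = ρ g + χ g • ρ g⁻¹` -/

section TVal

variable {R : Type*} [CommRing R] {M : Type*} [AddCommGroup M] [Module R M]
  {G : Type*} [Group G] (ρ : G →* Module.End R M) (χ : G →* Rˣ)

/-- `t g = ρ g + χ g • ρ g⁻¹`. -/
def tval (g : G) : Module.End R M := ρ g + ((χ g : Rˣ) : R) • ρ g⁻¹

theorem tval_def (g : G) : tval ρ χ g = ρ g + ((χ g : Rˣ) : R) • ρ g⁻¹ := rfl

/-- if `ρ τ = 1` and `χ τ = 1` then `t (τ g) = t g`. -/
theorem tval_mul_of_eq_one {τ : G} (h1 : ρ τ = 1) (h2 : χ τ = 1) (g : G) :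
    tval ρ χ (τ * g) = tval ρ χ g := by
  have h3 : ρ τ⁻¹ = 1 := by
    calc ρ τ⁻¹ = ρ τ⁻¹ * ρ τ := by rw [h1, mul_one]
      _ = 1 := by rw [← map_mul, inv_mul_cancel, map_one]
  unfold tval
  rw [mul_inv_rev, map_mul, map_mul, map_mul, h1, h2, h3, one_mul, one_mul, mul_one]

/-- powers: membership in a subalgebra. -/
theorem tval_pow_mem (B : Subalgebra R (Module.End R M)) {s : G} (h : tval ρ χ s ∈ B) (j : ℕ) :
    tval ρ χ (s ^ j) ∈ B := by
  have h1 : ((ρ.toHomUnits s : (Module.End R M)ˣ) : Module.End R M)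
      + ((χ s : Rˣ) : R) • (((ρ.toHomUnits s)⁻¹ : (Module.End R M)ˣ) : Module.End R M) ∈ B := by
    rw [← map_inv]
    exact h
  have h2 := unit_pow_mem B h1 j
  rw [← map_pow, ← map_inv, ← inv_pow] at h2
  unfold tval
  rw [map_pow χ, Units.val_pow_eq_pow_val, ← inv_pow]
  exact h2

/-- **transfer modulo `I`**: `t (s τ) ≡ t s` if `ρ τ ≡ 1` and `χ τ ≡ 1` modulo `I`. -/
theorem endCong_tval_mul {I : Ideal R} {s τ : G}
    (hρτ : EndCong I (ρ τ) 1) (hχτ : ((χ τ : Rˣ) : R) - 1 ∈ I) :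
    EndCong I (tval ρ χ (s * τ)) (tval ρ χ s) := by
  have e1 : EndCong I (ρ (s * τ)) (ρ s) := by
    have := (EndCong.refl (I := I) (ρ s)).mul hρτ
    rwa [← map_mul, mul_one] at this
  have e2 : EndCong I (ρ (s * τ)⁻¹) (ρ s⁻¹) := by
    have := (endCong_inv ρ hρτ).mul (EndCong.refl (I := I) (ρ s⁻¹))
    rwa [← map_mul, one_mul, ← mul_inv_rev] at this
  have e3 : ((χ (s * τ) : Rˣ) : R) - ((χ s : Rˣ) : R) ∈ I := by
    have : ((χ (s * τ) : Rˣ) : R) - ((χ s : Rˣ) : R) = ((χ s : Rˣ) : R) * (((χ τ : Rˣ) : R) - 1) := by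
      rw [map_mul, Units.val_mul]; ring
    rw [this]
    exact I.mul_mem_left _ hχτ
  exact e1.add (EndCong.smul e3 e2)

end TVal

/-! ### 4. the Galois form -/

section Galois

local notation "Kb" => AlgebraicClosure ℚ
local notation "GQ" => (AlgebraicClosure ℚ ≃ₐ[ℚ] AlgebraicClosure ℚ)

open IsLocalRing

variable {R : Type} [CommRing R] [IsLocalRing R] {M : Type} [AddCommGroup M] [Module R M]
  (ρ : GQ →* Module.End R M) (χ : GQ →* Rˣ)

/-- **finite level**: modulo `𝔪 ^ n`, `t g` is congruent to an element of `B`. -/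
theorem exists_mem_endCong (hρ : GaloisActionIsAdicContinuous R ρ)
    (hχ : CharIsAdicContinuous χ) (B : Subalgebra R (Module.End R M))
    (hcheb : ∀ (L : IntermediateField ℚ Kb) [FiniteDimensional ℚ L] [IsGalois ℚ L] (g : GQ)
      (bad : Finset ℕ),
      ∃ (ℓ : ℕ) (A : ValuationSubring Kb) (σ : GQ) (i j : ℕ),
        ℓ.Prime ∧ ℓ ∉ bad ∧ A.LiesOverPrime ℓ ∧ A.IsFrobeniusAt σ ℓ ∧
        (∀ x ∈ L, σ x = (g ^ i) x) ∧ (∀ x ∈ L, g x = (σ ^ j) x))
    (bad : Finset ℕ)
    (hkey : ∀ (ℓ : ℕ) (A : ValuationSubring Kb) (σ : GQ), ℓ.Prime → ℓ ∉ bad →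
      A.LiesOverPrime ℓ → A.IsFrobeniusAt σ ℓ → tval ρ χ σ ∈ B)
    (g : GQ) (n : ℕ) :
    ∃ b ∈ B, EndCong (maximalIdeal R ^ n) (tval ρ χ g) b := by
  obtain ⟨L, hLfin, hLgal, hL⟩ := exists_galois_level ρ χ hρ hχ n
  haveI := hLfin
  haveI := hLgal
  obtain ⟨ℓ, A, σ, i, j, hℓ, hbad, hA, hσ, -, hg⟩ := hcheb L g bad
  have hσB := hkey ℓ A σ hℓ hbad hA hσ
  set τ : GQ := (σ ^ j)⁻¹ * g with hτ
  have hτfix : ∀ x ∈ L, τ x = x := by
    intro x hx
    rw [hτ, AlgEquiv.mul_apply, hg x hx]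
    exact (σ ^ j).symm_apply_apply x
  obtain ⟨h1, h2⟩ := hL τ hτfix
  have hgτ : g = σ ^ j * τ := by rw [hτ, mul_inv_cancel_left]
  refine ⟨tval ρ χ (σ ^ j), tval_pow_mem ρ χ B hσB j, ?_⟩
  rw [hgτ]
  exact endCong_tval_mul ρ χ h1 h2

variable [IsNoetherianRing R] [Module.Free R M] [Module.Finite R M]

/-- **`t(g) ∈ B` for all `g`**, from membership at the Frobenius lifts outside `bad`. -/
theorem t_mem_of_cycCheb (hρ : GaloisActionIsAdicContinuous R ρ)
    (hχ : CharIsAdicContinuous χ) (B : Subalgebra R (Module.End R M))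
    (hcheb : ∀ (L : IntermediateField ℚ Kb) [FiniteDimensional ℚ L] [IsGalois ℚ L] (g : GQ)
      (bad : Finset ℕ),
      ∃ (ℓ : ℕ) (A : ValuationSubring Kb) (σ : GQ) (i j : ℕ),
        ℓ.Prime ∧ ℓ ∉ bad ∧ A.LiesOverPrime ℓ ∧ A.IsFrobeniusAt σ ℓ ∧
        (∀ x ∈ L, σ x = (g ^ i) x) ∧ (∀ x ∈ L, g x = (σ ^ j) x))
    (bad : Finset ℕ)
    (hkey : ∀ (ℓ : ℕ) (A : ValuationSubring Kb) (σ : GQ), ℓ.Prime → ℓ ∉ bad →
      A.LiesOverPrime ℓ → A.IsFrobeniusAt σ ℓ →
        ρ σ + ((χ σ : Rˣ) : R) • ρ σ⁻¹ ∈ B)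
    (g : GQ) : ρ g + ((χ g : Rˣ) : R) • ρ g⁻¹ ∈ B :=
  mem_of_forall_endCong (Subalgebra.toSubmodule B) (tval ρ χ g)
    (fun n => exists_mem_endCong ρ χ hρ hχ B hcheb bad hkey g n)

end Galois

end Fermat.Agent.S31.AdicMember
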