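import Mathlib
import Fermat.Agent.S31.RelTransfer

/-!
# S31, step (3), `ℤ_p`-half: decomposition of a noncommutative polynomial into integral ones

`A` a commutative domain of characteristic zero (e.g. `ℤ_[p]`).  Every `P : FreeAlgebra A ι` is a
finite combination `P = ∑ i, c i • intCast A ι (Q i)` with `Q i : FreeAlgebra ℤ ι` and
`c : Fin n → A` **`ℤ`-linearly independent** (`exists_decomp`).

* `span_range_intCast` : the `A`-span of the integral noncommutative polynomials is everything;
* `exists_decomp`;
* `lift_eq_sum` : evaluation of `P` at endomorphisms through the decomposition.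
-/

set_option autoImplicit false

open Module

namespace Fermat.Agent.S31.FreeDecomp

open Fermat.Agent.S31.RelTransfer

variable {A : Type*} [CommRing A] {ι : Type*}

/-- the `A`-span of the integral noncommutative polynomials is the whole free algebra. -/
theorem span_range_intCast :
    Submodule.span A (Set.range (intCast A ι)) = ⊤ := by
  rw [eq_top_iff]
  intro P _
  induction P using FreeAlgebra.induction with
  | grade0 r =>
    have h1 : algebraMap A (FreeAlgebra A ι) r = r • intCast A ι 1 := by
      rw [map_one, Algebra.algebraMap_eq_smul_one]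
    rw [h1]
    exact Submodule.smul_mem _ _ (Submodule.subset_span ⟨1, rfl⟩)
  | grade1 i =>
    exact Submodule.subset_span ⟨FreeAlgebra.ι ℤ i, intCast_ι i⟩
  | add a b ha hb => exact add_mem (ha trivial) (hb trivial)
  | mul a b ha hb =>
    have ha' := ha trivial
    have hb' := hb trivial
    -- the span is closed under multiplication
    refine Submodule.span_induction (p := fun x _ => x * b ∈ Submodule.span A (Set.range (intCast A ι)))
      ?_ ?_ ?_ ?_ ha'
    · rintro _ ⟨x, rfl⟩
      refine Submodule.span_induction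
        (p := fun y _ => intCast A ι x * y ∈ Submodule.span A (Set.range (intCast A ι)))
        ?_ ?_ ?_ ?_ hb'
      · rintro _ ⟨y, rfl⟩
        exact Submodule.subset_span ⟨x * y, map_mul _ _ _⟩
      · rw [mul_zero]; exact zero_mem _
      · intro y z _ _ hy hz
        rw [mul_add]; exact add_mem hy hz
      · intro r y _ hy
        rw [mul_smul_comm]; exact Submodule.smul_mem _ _ hy
    · rw [zero_mul]; exact zero_mem _
    · intro y z _ _ hy hz
      rw [add_mul]; exact add_mem hy hz
    · intro r y _ hy
      rw [smul_mul_assoc]; exact Submodule.smul_mem _ _ hy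

variable [IsDomain A] [CharZero A]

/-- **decomposition**: `P = ∑ c_i • Q_i` with `Q_i` integral and the `c_i` linearly independent over
`ℤ`. -/
theorem exists_decomp (P : FreeAlgebra A ι) :
    ∃ (n : ℕ) (c : Fin n → A) (Q : Fin n → FreeAlgebra ℤ ι),
      LinearIndependent ℤ c ∧ P = ∑ i, c i • intCast A ι (Q i) := by
  classical
  have hP : P ∈ Submodule.span A (Set.range (intCast A ι)) := by
    rw [span_range_intCast]; trivial
  obtain ⟨s, a, W, hPs⟩ : ∃ (s : Finset (FreeAlgebra ℤ ι)) (a : FreeAlgebra ℤ ι → A)
      (W : FreeAlgebra ℤ ι → FreeAlgebra ℤ ι), P = ∑ k ∈ s, a k • intCast A ι (W k) := by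
    refine Submodule.span_induction (p := fun x _ => ∃ (s : Finset (FreeAlgebra ℤ ι))
      (a : FreeAlgebra ℤ ι → A) (W : FreeAlgebra ℤ ι → FreeAlgebra ℤ ι),
        x = ∑ k ∈ s, a k • intCast A ι (W k)) ?_ ?_ ?_ ?_ hP
    · rintro _ ⟨x, rfl⟩
      exact ⟨{x}, fun _ => 1, fun k => k, by rw [Finset.sum_singleton, one_smul]⟩
    · exact ⟨∅, fun _ => 0, fun k => k, by rw [Finset.sum_empty]⟩
    · rintro x y _ _ ⟨s, a, W, rfl⟩ ⟨s', a', W', rfl⟩
      -- reindex both sums by the integral polynomials themselves
      have key : ∀ (s : Finset (FreeAlgebra ℤ ι)) (a : FreeAlgebra ℤ ι → A)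
          (W : FreeAlgebra ℤ ι → FreeAlgebra ℤ ι),
          ∃ (t : Finset (FreeAlgebra ℤ ι)) (b : FreeAlgebra ℤ ι → A),
            ∑ k ∈ s, a k • intCast A ι (W k) = ∑ w ∈ t, b w • intCast A ι w := by
        intro s a W
        refine ⟨s.image W, fun w => ∑ k ∈ s.filter (fun k => W k = w), a k, ?_⟩
        rw [Finset.sum_image' (f := fun w => (∑ k ∈ s.filter (fun k => W k = w), a k)
          • intCast A ι w) (g := W) (h := fun k => a k • intCast A ι (W k))]
        intro k hk
        rw [Finset.sum_smul]
        refine Finset.sum_congr (by ext j; simp [Finset.mem_filter]) ?_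
        intro j hj
        rw [(Finset.mem_filter.mp hj).2]
      obtain ⟨t, b, hb⟩ := key s a W
      obtain ⟨t', b', hb'⟩ := key s' a' W'
      refine ⟨t ∪ t', fun w => (if w ∈ t then b w else 0) + (if w ∈ t' then b' w else 0),
        fun w => w, ?_⟩
      rw [hb, hb']
      simp only [add_smul, Finset.sum_add_distrib]
      congr 1
      · rw [← Finset.sum_subset (Finset.subset_union_left (s₁ := t) (s₂ := t'))]
        · exact Finset.sum_congr rfl fun w hw => by rw [if_pos hw]
        · intro w _ hw
          rw [if_neg hw, zero_smul]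
      · rw [← Finset.sum_subset (Finset.subset_union_right (s₁ := t) (s₂ := t'))]
        · exact Finset.sum_congr rfl fun w hw => by rw [if_pos hw]
        · intro w _ hw
          rw [if_neg hw, zero_smul]
    · rintro r x _ ⟨s, a, W, rfl⟩
      exact ⟨s, fun k => r * a k, W, by rw [Finset.smul_sum]; simp only [mul_smul]⟩
  -- the `ℤ`-module generated by the coefficients is free
  set B : Submodule ℤ A := Submodule.span ℤ (Set.range fun k : s => a k) with hB
  haveI : Module.Finite ℤ B := Module.Finite.span_of_finite ℤ (Set.finite_range _)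
  haveI : Module.Free ℤ B := inferInstance
  let b := Module.Free.chooseBasis ℤ B
  haveI : Fintype (Module.Free.ChooseBasisIndex ℤ B) := inferInstance
  let e := Fintype.equivFin (Module.Free.ChooseBasisIndex ℤ B)
  have hak : ∀ k : s, a k ∈ B := fun k => Submodule.subset_span ⟨k, rfl⟩
  refine ⟨Fintype.card (Module.Free.ChooseBasisIndex ℤ B), fun i => (b (e.symm i) : A),
    fun i => ∑ k : s, (b.repr ⟨a k, hak k⟩ (e.symm i)) • W k, ?_, ?_⟩
  · have h1 : LinearIndependent ℤ (fun j => (b j : A)) :=
      b.linearIndependent.map' B.subtype (Submodule.ker_subtype B)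
    exact h1.comp _ e.symm.injective
  · rw [hPs, ← Finset.sum_coe_sort s (fun k => a k • intCast A ι (W k))]
    have h2 : ∀ k : s, a k = ∑ i, (b.repr ⟨a k, hak k⟩ (e.symm i)) • (b (e.symm i) : A) := by
      intro k
      have h3 := b.sum_repr ⟨a k, hak k⟩
      have h4 := congrArg (fun x : B => (x : A)) h3
      simp only [Submodule.coe_sum, Submodule.coe_smul] at h4
      exact h4.symm.trans (Equiv.sum_comp e.symm
        (fun j => (b.repr ⟨a k, hak k⟩ j) • (b j : A))).symm
    calc ∑ k : s, a k • intCast A ι (W k)
        = ∑ k : s, ∑ i, ((b.repr ⟨a k, hak k⟩ (e.symm i)) • (b (e.symm i) : A))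
            • intCast A ι (W k) := by
          refine Finset.sum_congr rfl fun k _ => ?_
          conv_lhs => rw [h2 k]
          rw [Finset.sum_smul]
      _ = ∑ i, ∑ k : s, ((b.repr ⟨a k, hak k⟩ (e.symm i)) • (b (e.symm i) : A))
            • intCast A ι (W k) := Finset.sum_comm
      _ = ∑ i, (b (e.symm i) : A) • intCast A ι
            (∑ k : s, (b.repr ⟨a k, hak k⟩ (e.symm i)) • W k) := by
          refine Finset.sum_congr rfl fun i _ => ?_
          rw [map_sum, Finset.smul_sum]
          refine Finset.sum_congr rfl fun k _ => ?_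
          rw [map_zsmul, smul_assoc, smul_comm]

omit [IsDomain A] [CharZero A] in
/-- evaluation through the decomposition. -/
theorem lift_eq_sum {M : Type*} [AddCommGroup M] [Module A M] (a : ι → Module.End A M)
    {n : ℕ} (c : Fin n → A) (Q : Fin n → FreeAlgebra ℤ ι) (P : FreeAlgebra A ι)
    (hP : P = ∑ i, c i • intCast A ι (Q i)) (m : M) :
    FreeAlgebra.lift A a P m
      = ∑ i, c i • FreeAlgebra.lift ℤ (fun j => (a j).restrictScalars ℤ) (Q i) m := by
  rw [hP, map_sum, LinearMap.sum_apply]
  refine Finset.sum_congr rfl fun i _ => ?_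
  rw [map_smul, LinearMap.smul_apply, lift_intCast]

end Fermat.Agent.S31.FreeDecomp
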