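import Mathlib
import Fermat.Agent.S30.TateJ
import Fermat.Agent.Lib.Frobenius

/-!
# S31 (R4, commutativity): the good Hecke operators on `T_p J₀(N)` commute

For a prime `ℓ ∤ N p` the Eichler–Shimura relation at a Frobenius lift `Φ` at `ℓ` gives
`T_ℓ = ρ(Φ) + ℓ ρ(Φ)⁻¹` on `T_p J₀(N)`; hence `T_ℓ` commutes with every endomorphism commuting with
the Galois action, in particular with every Hecke operator.
-/

set_option autoImplicit false
set_option linter.unusedSectionVars false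

noncomputable section

open Fermat.Agent.S30.TateJ

namespace Fermat.Agent.S31.HeckeCommJ

local notation "GQ" => (AlgebraicClosure ℚ ≃ₐ[ℚ] AlgebraicClosure ℚ)

section Abstract

variable {R : Type*} [Ring R]

/-- `a² - t a + c = 0` and `a a' = 1` give `t = a + c a'`. -/
theorem eq_add_mul_of_quadratic (a a' t c : R) (h : a * a - t * a + c = 0) (hinv : a * a' = 1) :
    t = a + c * a' := by
  have h' : t * a = a * a + c := by
    rw [eq_comm, ← sub_eq_zero, ← h]; abel
  calc t = t * (a * a') := by rw [hinv, mul_one]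
    _ = (t * a) * a' := by rw [mul_assoc]
    _ = (a * a + c) * a' := by rw [h']
    _ = a * (a * a') + c * a' := by rw [add_mul, mul_assoc]
    _ = a + c * a' := by rw [hinv, mul_one]

/-- an element `a + c a'` commutes with whatever commutes with `a`, `a'` and `c`. -/
theorem add_mul_comm (a a' c f : R) (ha : a * f = f * a) (ha' : a' * f = f * a')
    (hc : c * f = f * c) : (a + c * a') * f = f * (a + c * a') := by
  rw [add_mul, mul_add, ha, mul_assoc, ha', ← mul_assoc, hc, mul_assoc]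

/-- commutativity of the subalgebra generated by a commuting family. -/
theorem adjoin_comm {A : Type*} [CommRing A] [Algebra A R] (s : Set R)
    (hs : ∀ x ∈ s, ∀ y ∈ s, x * y = y * x) (a : R) (ha : a ∈ Algebra.adjoin A s) (b : R)
    (hb : b ∈ Algebra.adjoin A s) : a * b = b * a := by
  have h1 : ∀ y ∈ s, ∀ x ∈ Algebra.adjoin A s, x * y = y * x := by
    intro y hy x hx
    induction hx using Algebra.adjoin_induction with
    | mem x hx => exact hs x hx y hy
    | algebraMap r => exact Algebra.commutes r y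
    | add x z _ _ h1 h2 => rw [add_mul, mul_add, h1, h2]
    | mul x z _ _ h1 h2 => rw [mul_assoc, h2, ← mul_assoc, h1, mul_assoc]
  induction hb using Algebra.adjoin_induction with
  | mem y hy => exact h1 y hy a ha
  | algebraMap r => exact (Algebra.commutes r a).symm
  | add x z _ _ h2 h3 => rw [mul_add, add_mul, h2, h3]
  | mul x z _ _ h2 h3 => rw [← mul_assoc, h2, mul_assoc, h3, ← mul_assoc]

/-- what commutes with the generators commutes with the generated subalgebra. -/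
theorem mul_adjoin_comm {A : Type*} [CommRing A] [Algebra A R] (s : Set R) (f : R)
    (hs : ∀ x ∈ s, f * x = x * f) (b : R) (hb : b ∈ Algebra.adjoin A s) : f * b = b * f := by
  induction hb using Algebra.adjoin_induction with
  | mem y hy => exact hs y hy
  | algebraMap r => exact (Algebra.commutes r f).symm
  | add x z _ _ h2 h3 => rw [mul_add, add_mul, h2, h3]
  | mul x z _ _ h2 h3 => rw [← mul_assoc, h2, mul_assoc, h3, ← mul_assoc]

end Abstract

variable (N : ℕ) [NeZero N] (p : ℕ) [hp : Fact p.Prime]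

/-- `T_ℓ = ρ(Φ) + ℓ ρ(Φ⁻¹)` on `T_p J₀(N)` for a Frobenius lift `Φ` at `ℓ ∤ N p`. -/
theorem heckeT_eq (ℓ : ℕ) (hℓ : ℓ.Prime) (hndvd : ¬ ℓ ∣ N * p)
    (A : ValuationSubring (AlgebraicClosure ℚ)) (hA : A.LiesOverPrime ℓ) (Φ : GQ)
    (hΦ : A.IsFrobeniusAt Φ ℓ) :
    heckeT N p ⟨ℓ, hℓ⟩ = rhoT N p Φ + (ℓ : Module.End ℤ_[p] (TpJ N p)) * rhoT N p Φ⁻¹ := by
  have hinv : rhoT N p Φ * rhoT N p Φ⁻¹ = 1 := by rw [← map_mul, mul_inv_cancel, map_one]
  exact eq_add_mul_of_quadratic _ _ _ _ (es_T N p ℓ hℓ hndvd A hA Φ hΦ) hinv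

/-- A good Hecke operator commutes with every endomorphism commuting with the Galois action. -/
theorem heckeT_mul_comm_of_galois (ℓ : Nat.Primes) (hndvd : ¬ (ℓ : ℕ) ∣ N * p)
    (f : Module.End ℤ_[p] (TpJ N p)) (hf : ∀ σ : GQ, rhoT N p σ * f = f * rhoT N p σ) :
    heckeT N p ℓ * f = f * heckeT N p ℓ := by
  obtain ⟨A, Φ, hA, hΦ⟩ := Fermat.Agent.Lib.exists_isFrobeniusAt (ℓ : ℕ) ℓ.2
  have h : heckeT N p ℓ = rhoT N p Φ + ((ℓ : ℕ) : Module.End ℤ_[p] (TpJ N p)) * rhoT N p Φ⁻¹ :=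
    heckeT_eq N p (ℓ : ℕ) ℓ.2 hndvd A hA Φ hΦ
  rw [h]
  exact add_mul_comm _ _ _ _ (hf Φ) (hf Φ⁻¹) (Nat.cast_commute (ℓ : ℕ) f).eq

/-- **The good Hecke operators on `T_p J₀(N)` commute** (one good prime suffices). -/
theorem heckeT_mul_comm (ℓ q : Nat.Primes) (hndvd : ¬ (ℓ : ℕ) ∣ N * p) :
    heckeT N p ℓ * heckeT N p q = heckeT N p q * heckeT N p ℓ :=
  heckeT_mul_comm_of_galois N p ℓ hndvd (heckeT N p q) (fun σ => rhoT_mul_heckeT N p σ q)

/-- The `ℤ_p`-subalgebra generated by any family of good Hecke operators is commutative. -/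
theorem adjoin_heckeT_comm {ι : Type*} (g : ι → Nat.Primes) (hg : ∀ i, ¬ ((g i : ℕ)) ∣ N * p)
    (a : Module.End ℤ_[p] (TpJ N p))
    (ha : a ∈ Algebra.adjoin ℤ_[p] (Set.range fun i => heckeT N p (g i)))
    (b : Module.End ℤ_[p] (TpJ N p))
    (hb : b ∈ Algebra.adjoin ℤ_[p] (Set.range fun i => heckeT N p (g i))) :
    a * b = b * a := by
  refine adjoin_comm (A := ℤ_[p]) _ ?_ a ha b hb
  rintro _ ⟨i, rfl⟩ _ ⟨j, rfl⟩
  exact heckeT_mul_comm N p (g i) (g j) (hg i)

/-- Every element of the subalgebra generated by Hecke operators commutes with Galois. -/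
theorem rhoT_mul_adjoin {ι : Type*} (g : ι → Nat.Primes) (σ : GQ)
    (b : Module.End ℤ_[p] (TpJ N p))
    (hb : b ∈ Algebra.adjoin ℤ_[p] (Set.range fun i => heckeT N p (g i))) :
    rhoT N p σ * b = b * rhoT N p σ := by
  refine mul_adjoin_comm (A := ℤ_[p]) _ _ ?_ b hb
  rintro _ ⟨i, rfl⟩
  exact rhoT_mul_heckeT N p σ (g i)

end Fermat.Agent.S31.HeckeCommJ
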