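import Mathlib
import Fermat.Agent.S30.KappaSystem
import Fermat.Agent.S31.RelTransfer

/-!
# S31, hedge (Lemma K): saturation of the integral Hecke algebra and the `Π`-free Hecke link

`ι` an index type with `g : ι → GoodPrime N` and `hS : ∀ i, (g i : ℕ) ∉ S`;
noncommutative integral polynomials `x : FreeAlgebra ℤ ι` are evaluated

* on the Tate module, `evTate g p x : Module.End ℤ_[p] (TpJ N p)` (`ι i ↦ heckeT N p (g i).1`),
* on the lattice `H = XMod N ℤ ℤ`, `FreeAlgebra.lift ℤ (opX g ℤ) x`,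
* in any ring `T` receiving `π : heckeAlgebra N 2 S →+* T`, `evPi g S hS π x` (`ι i ↦ π T_{g i}`).

**Lemma K** (`exists_pow_forall_mem`): for every `n` there is `m` such that, for every `x`, if
`evTate x` maps `T_p J₀(N)` into `p ^ m T_p J₀(N)` then `evPi π x ∈ 𝔪_T ^ n`, for every local ring
`T` with `p ∈ 𝔪_T` and every `π`.  No `ℤ_p`-coefficients, no commutativity, no Artin–Rees:

* (K-a) the Kummer embedding `eTate` has saturated image, so `lift (opX g ℤ) x` maps `H` into
  `p ^ m H`;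
* (K-c) the image of `FreeAlgebra ℤ ι` in `End_ℤ H` has finite index in its saturation
  (`exists_saturation`), `d = p ^ c u`;
* (K-b) `RelTransfer.lift_pi_T_eq_zero` applied to `u • x - p ^ (m - c) • x'`.
-/

set_option autoImplicit false
set_option linter.unusedSectionVars false
set_option linter.style.haveILetI false

noncomputable section

namespace Fermat.Agent.S31.HeckeSat

/-! ### Pure algebra -/

section Algebra

/-- **saturation exponent**: for a submodule `B` of a finitely generated `ℤ`-module there is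
`d > 0` with `d • F ∈ B` whenever some positive multiple of `F` lies in `B`. -/
theorem exists_saturation {E : Type*} [AddCommGroup E] [Module.Finite ℤ E] (B : Submodule ℤ E) :
    ∃ d : ℕ, 0 < d ∧ ∀ (F : E) (k : ℕ), 0 < k → k • F ∈ B → d • F ∈ B := by
  classical
  let Sat : Submodule ℤ E :=
    { carrier := {F | ∃ k : ℕ, 0 < k ∧ k • F ∈ B}
      zero_mem' := ⟨1, one_pos, by simp⟩
      add_mem' := by
        rintro a b ⟨k, hk, hka⟩ ⟨l, hl, hlb⟩
        refine ⟨k * l, Nat.mul_pos hk hl, ?_⟩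
        rw [smul_add]
        refine B.add_mem ?_ ?_
        · rw [mul_comm, mul_smul]
          exact B.smul_of_tower_mem l hka
        · rw [mul_smul]
          exact B.smul_of_tower_mem k hlb
      smul_mem' := by
        rintro c a ⟨k, hk, hka⟩
        refine ⟨k, hk, ?_⟩
        rw [smul_comm]
        exact B.smul_mem c hka }
  haveI : IsNoetherian ℤ E := isNoetherian_of_isNoetherianRing_of_finite ℤ E
  obtain ⟨s, hs⟩ := (IsNoetherian.noetherian Sat : Sat.FG)
  have hmem : ∀ f ∈ s, ∃ k : ℕ, 0 < k ∧ k • f ∈ B := by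
    intro f hf
    have : f ∈ Sat := hs ▸ Submodule.subset_span hf
    exact this
  choose! k hk0 hkB using hmem
  refine ⟨∏ f ∈ s, k f, Finset.prod_pos fun f hf => hk0 f hf, ?_⟩
  have key : ∀ F ∈ Submodule.span ℤ (s : Set E), (∏ f ∈ s, k f) • F ∈ B := by
    intro F hFS
    induction hFS using Submodule.span_induction with
    | mem f hf =>
      obtain ⟨e, he⟩ := Finset.dvd_prod_of_mem k hf
      rw [he, mul_comm, mul_smul]
      exact B.smul_of_tower_mem e (hkB f hf)
    | zero => rw [smul_zero]; exact B.zero_mem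
    | add a b _ _ ha hb => rw [smul_add]; exact B.add_mem ha hb
    | smul c a _ ha => rw [smul_comm]; exact B.smul_mem c ha
  intro F l hl hF
  apply key
  rw [hs]
  exact ⟨l, hl, hF⟩

/-- **division of an endomorphism**: on a torsion-free `ℤ`-module, an endomorphism with values
in `k H` is `k` times an endomorphism. -/
theorem exists_eq_nsmul_end {H : Type*} [AddCommGroup H] [IsAddTorsionFree H] (k : ℕ)
    (hk : 0 < k) (f : Module.End ℤ H) (h : ∀ ψ, ∃ ψ', k • ψ' = f ψ) :
    ∃ F : Module.End ℤ H, k • F = f := by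
  choose F hF using h
  have hinj : ∀ a b : H, k • a = k • b → a = b := fun a b hab =>
    nsmul_right_injective hk.ne' hab
  refine ⟨{ toFun := F
            map_add' := fun a b => hinj _ _ (by rw [hF, smul_add, hF, hF, map_add])
            map_smul' := fun c a => hinj _ _ (by
              rw [hF, RingHom.id_apply, smul_comm, hF, map_smul]) }, ?_⟩
  ext ψ
  rw [LinearMap.smul_apply]
  exact hF ψ

/-- an integer prime to `p` is a unit in a local ring with `p` in the maximal ideal. -/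
theorem isUnit_natCast_of_not_dvd {T : Type*} [CommRing T] [IsLocalRing T] {p : ℕ}
    (hp : p.Prime) (hpT : (p : T) ∈ IsLocalRing.maximalIdeal T) {u : ℕ} (hu : ¬ p ∣ u) :
    IsUnit (u : T) := by
  have hcop : Nat.Coprime u p := (Nat.Coprime.symm ((Nat.Prime.coprime_iff_not_dvd hp).2 hu))
  have hgcd := Int.gcd_eq_gcd_ab (u : ℤ) (p : ℤ)
  have h1 : (Int.gcd (u : ℤ) (p : ℤ) : ℤ) = 1 := by
    rw [Int.gcd_natCast_natCast]
    exact_mod_cast hcop
  rw [h1] at hgcd
  have h2 : (u : T) * ((Int.gcdA (u : ℤ) (p : ℤ) : ℤ) : T)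
      = 1 - (p : T) * ((Int.gcdB (u : ℤ) (p : ℤ) : ℤ) : T) := by
    have := congrArg (Int.cast : ℤ → T) hgcd
    push_cast at this
    rw [eq_sub_iff_add_eq, ← this]
  have h3 : IsUnit (1 - (p : T) * ((Int.gcdB (u : ℤ) (p : ℤ) : ℤ) : T)) := by
    by_contra hnu
    have hm : 1 - (p : T) * ((Int.gcdB (u : ℤ) (p : ℤ) : ℤ) : T) ∈ IsLocalRing.maximalIdeal T :=
      (IsLocalRing.mem_maximalIdeal _).2 hnu
    have hm2 := Ideal.add_mem _ hm (Ideal.mul_mem_right ((Int.gcdB (u : ℤ) (p : ℤ) : ℤ) : T) _ hpT)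
    rw [sub_add_cancel] at hm2
    exact (IsLocalRing.maximalIdeal.isMaximal T).ne_top ((Ideal.eq_top_iff_one _).2 hm2)
  rw [← h2] at h3
  exact isUnit_of_mul_isUnit_left h3

end Algebra

/-! ### The lattice `H = XMod N ℤ ℤ` -/

section Lattice

open Fermat.Agent.S29.Betti CongruenceSubgroup Fermat.Agent.S30.TensorEigen

variable (N : ℕ) [NeZero N]

instance instFiniteXModInt : Module.Finite ℤ (XMod N ℤ ℤ) := by
  obtain ⟨S, hS⟩ := Group.fg_def.1 (inferInstance : Group.FG (Gamma0 N))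
  exact Module.Finite.of_injective (evS ℤ (XMod N ℤ ℤ) S) (evS_injective ℤ (XMod N ℤ ℤ) hS)

instance instTorsionFreeXModInt : IsAddTorsionFree (XMod N ℤ ℤ) where
  nsmul_right_injective n hn a b hab := by
    apply Subtype.ext
    refine AddMonoidHom.ext fun γ => ?_
    have h := congrArg (fun u : XMod N ℤ ℤ => (u : Additive (Gamma0 N) →+ ℤ) γ) hab
    exact mul_left_cancel₀ (Nat.cast_ne_zero.mpr hn) (by simpa using h)

instance instFreeXModInt : Module.Free ℤ (XMod N ℤ ℤ) := Module.free_of_finite_type_torsion_free'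

end Lattice

/-! ### (K-a): from the Tate module to the lattice -/

section TateToLattice

open Fermat.Agent.S29.Betti CongruenceSubgroup Fermat.Agent.S30.LimitMap
  Fermat.Agent.S30.TateModule Fermat.Agent.S30.TateJ Fermat.Agent.S30.KappaSystem
  Fermat.Agent.S31.RelTransfer

variable {N : ℕ} [NeZero N] (p : ℕ) [hp : Fact p.Prime] {ι : Type*} (g : ι → GoodPrime N)

/-- evaluation of a noncommutative integral polynomial in the Hecke operators of the Tate module. -/
def evTate : FreeAlgebra ℤ ι →ₐ[ℤ] Module.End ℤ_[p] (TpJ N p) :=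
  FreeAlgebra.lift ℤ (fun i => heckeT N p (g i).1)

@[simp] theorem evTate_ι (i : ι) : evTate p g (FreeAlgebra.ι ℤ i) = heckeT N p (g i).1 :=
  FreeAlgebra.lift_ι_apply _ _

/-- the `ℤ`-linear Hecke operators of the Tate module. -/
def opT (i : ι) : Module.End ℤ (TpJ N p) := (heckeT N p (g i).1).restrictScalars ℤ

/-- restriction of scalars of endomorphisms, as a ring homomorphism. -/
def rsHom (R : Type*) [CommRing R] (M : Type*) [AddCommGroup M] [Module R M] :
    Module.End R M →+* Module.End ℤ M where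
  toFun f := f.restrictScalars ℤ
  map_one' := rfl
  map_mul' _ _ := rfl
  map_zero' := rfl
  map_add' _ _ := rfl

theorem lift_opT_apply (x : FreeAlgebra ℤ ι) (v : TpJ N p) :
    FreeAlgebra.lift ℤ (opT p g) x v = evTate p g x v := by
  have h := map_lift_int (rsHom ℤ_[p] (TpJ N p)) (fun i => heckeT N p (g i).1) x
  have h2 : FreeAlgebra.lift ℤ (opT p g) x = rsHom ℤ_[p] (TpJ N p) (evTate p g x) := h.symm
  rw [h2]
  rfl

/-- the Kummer embedding of the integral lattice. -/
def eH : XMod N ℤ ℤ →ₗ[ℤ] TpJ N p :=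
  ((eTate N p).restrictScalars ℤ).comp (pushL (Int.castRingHom ℤ_[p]))

theorem eH_apply (ψ : XMod N ℤ ℤ) :
    eH (N := N) p ψ = eTate N p (pushL (Int.castRingHom ℤ_[p]) ψ) := rfl

theorem eH_opX (i : ι) (ψ : XMod N ℤ ℤ) : eH p (opX g ℤ i ψ) = opT p g i (eH p ψ) := by
  rw [eH_apply, pushL_opX, opX_apply]
  exact eTate_heckeX N p ((g i).1 : ℕ) (g i).1.2 (g i).2 _

/-- **(K-a)**: if `evTate x` maps the Tate module into `p ^ m` times itself then
`lift (opX g ℤ) x` maps the lattice into `p ^ m` times itself. -/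
theorem exists_nsmul_eq_lift (m : ℕ) (x : FreeAlgebra ℤ ι)
    (hx : ∀ v : TpJ N p, evTate p g x v ∈
      ((Ideal.span {(p : ℤ_[p])}) ^ m • (⊤ : Submodule ℤ_[p] (TpJ N p))))
    (ψ : XMod N ℤ ℤ) : ∃ ψ' : XMod N ℤ ℤ, (p ^ m) • ψ' = FreeAlgebra.lift ℤ (opX g ℤ) x ψ := by
  set φ : XMod N ℤ ℤ := FreeAlgebra.lift ℤ (opX g ℤ) x ψ with hφ
  have h1 : eH p φ = evTate p g x (eH p ψ) := by
    rw [hφ, lift_intertwine (opX g ℤ) (opT p g) (eH p) (eH_opX p g) x ψ, lift_opT_apply]
  have h2 := hx (eH p ψ)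
  rw [← h1, mem_span_pow_smul_top_iff, eH_apply, eTate_apply] at h2
  have h3 : redX p m (pushL (Int.castRingHom ℤ_[p]) φ) = 0 :=
    kappaQ_injective N p m (by rw [h2, map_zero])
  have hdvd : ∀ γ : Additive (Gamma0 N), ((p ^ m : ℕ) : ℤ) ∣ (φ : Additive (Gamma0 N) →+ ℤ) γ := by
    intro γ
    have h4 := congrArg (fun u : XMod N (ZMod (p ^ m)) (ZMod (p ^ m)) =>
      (u : Additive (Gamma0 N) →+ ZMod (p ^ m)) γ) h3
    simp only [redX_apply, pushL_apply] at h4
    have h5 : (((φ : Additive (Gamma0 N) →+ ℤ) γ : ℤ) : ZMod (p ^ m)) = 0 := by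
      have := h4
      rw [eq_intCast, map_intCast] at this
      exact this
    exact (ZMod.intCast_zmod_eq_zero_iff_dvd _ _).1 h5
  have hk : ((p ^ m : ℕ) : ℤ) ≠ 0 := by exact_mod_cast (pow_pos hp.out.pos m).ne'
  let c' : Additive (Gamma0 N) →+ ℤ :=
    { toFun := fun γ => (φ : Additive (Gamma0 N) →+ ℤ) γ / ((p ^ m : ℕ) : ℤ)
      map_zero' := by rw [map_zero, Int.zero_ediv]
      map_add' := fun a b => by
        rw [map_add, Int.add_ediv_of_dvd_left (hdvd a)] }
  have hc' : IsAdmChar c' := by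
    intro γ hγ
    show (φ : Additive (Gamma0 N) →+ ℤ) (Additive.ofMul γ) / ((p ^ m : ℕ) : ℤ) = 0
    rw [φ.2 γ hγ, Int.zero_ediv]
  refine ⟨⟨c', hc'⟩, ?_⟩
  apply Subtype.ext
  refine AddMonoidHom.ext fun γ => ?_
  show (p ^ m) • ((φ : Additive (Gamma0 N) →+ ℤ) γ / ((p ^ m : ℕ) : ℤ)) = _
  rw [nsmul_eq_mul, Int.mul_ediv_cancel' (hdvd γ)]

end TateToLattice

/-! ### Lemma K -/

section Main

open Fermat.Agent.S29.Betti CongruenceSubgroup Fermat.Agent.S30.TateJ
  Fermat.Agent.S31.RelTransfer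

variable {N : ℕ} [NeZero N] (p : ℕ) [hp : Fact p.Prime] {ι : Type*} (g : ι → GoodPrime N)
  (S : Set ℕ) (hS : ∀ i, ((g i).1 : ℕ) ∉ S)

/-- evaluation of a noncommutative integral polynomial at the images of the `T_ℓ` under a ring
homomorphism out of the Hecke algebra. -/
def evPi {T : Type*} [Ring T] (π : CuspForm.heckeAlgebra N 2 S →+* T) :
    FreeAlgebra ℤ ι →ₐ[ℤ] T :=
  FreeAlgebra.lift ℤ (fun i => π (TS g S hS i))

@[simp] theorem evPi_ι {T : Type*} [Ring T] (π : CuspForm.heckeAlgebra N 2 S →+* T) (i : ι) :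
    evPi g S hS π (FreeAlgebra.ι ℤ i) = π (TS g S hS i) :=
  FreeAlgebra.lift_ι_apply _ _

/-- **Lemma K**: there is a constant `c` (depending only on `N`, `p` and the family of primes)
such that an integral noncommutative polynomial in the Hecke operators which is divisible by
`p ^ (n + c)` on the Tate module of `J₀(N)` has image in `𝔪_T ^ n` under every ring homomorphism
from the Hecke algebra to a local ring `T` with `p ∈ 𝔪_T`. -/
theorem exists_const_forall_mem : ∃ c : ℕ, ∀ (n : ℕ) (x : FreeAlgebra ℤ ι),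
    (∀ v : TpJ N p, evTate p g x v ∈
      ((Ideal.span {(p : ℤ_[p])}) ^ (n + c) • (⊤ : Submodule ℤ_[p] (TpJ N p)))) →
    ∀ {T : Type*} [CommRing T] [IsLocalRing T] (π : CuspForm.heckeAlgebra N 2 S →+* T),
      (p : T) ∈ IsLocalRing.maximalIdeal T →
        evPi g S hS π x ∈ IsLocalRing.maximalIdeal T ^ n := by
  classical
  let B : Submodule ℤ (Module.End ℤ (XMod N ℤ ℤ)) :=
    LinearMap.range (FreeAlgebra.lift ℤ (opX g ℤ)).toLinearMap
  haveI hfinE : Module.Finite ℤ (Module.End ℤ (XMod N ℤ ℤ)) :=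
    Module.Finite.linearMap ℤ ℤ (XMod N ℤ ℤ) (XMod N ℤ ℤ)
  obtain ⟨d, hd0, hd⟩ := exists_saturation B
  obtain ⟨c, u, hu, hdu⟩ := Nat.exists_eq_pow_mul_and_not_dvd hd0.ne' p hp.out.ne_one
  refine ⟨c, fun n x hx T _ _ π hpT => ?_⟩
  have hpos : 0 < p ^ (n + c) := pow_pos hp.out.pos _
  obtain ⟨F, hF⟩ := exists_eq_nsmul_end (p ^ (n + c)) hpos (FreeAlgebra.lift ℤ (opX g ℤ) x)
    (exists_nsmul_eq_lift p g (n + c) x hx)
  have hFB : (p ^ (n + c)) • F ∈ B := by
    rw [hF]
    exact ⟨x, rfl⟩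
  obtain ⟨x', hx'⟩ := hd F (p ^ (n + c)) hpos hFB
  have hx'' : FreeAlgebra.lift ℤ (opX g ℤ) x' = d • F := hx'
  have hy : FreeAlgebra.lift ℤ (opX g ℤ) (u • x - (p ^ n) • x') = 0 := by
    rw [map_sub, map_nsmul, map_nsmul, ← hF, hx'', hdu, sub_eq_zero, ← mul_smul, ← mul_smul,
      pow_add]
    congr 1
    ring
  have h0 := lift_pi_T_eq_zero g S hS π _ hy
  have h1 : (u : T) * evPi g S hS π x = (p : T) ^ n * evPi g S hS π x' := by
    have : evPi g S hS π (u • x - (p ^ n) • x') = 0 := h0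
    rw [map_sub, map_nsmul, map_nsmul, sub_eq_zero, nsmul_eq_mul, nsmul_eq_mul] at this
    rw [this]
    push_cast
    rfl
  obtain ⟨w, hw⟩ := isUnit_natCast_of_not_dvd hp.out hpT hu
  have h2 : evPi g S hS π x = (p : T) ^ n * ((w⁻¹ : Tˣ) * evPi g S hS π x') := by
    calc evPi g S hS π x = (w⁻¹ : Tˣ) * ((u : T) * evPi g S hS π x) := by
          rw [← hw, ← mul_assoc, Units.inv_mul, one_mul]
      _ = (p : T) ^ n * ((w⁻¹ : Tˣ) * evPi g S hS π x') := by rw [h1]; ring
  rw [h2]
  exact Ideal.mul_mem_right _ _ (Ideal.pow_mem_pow hpT n)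

end Main

end Fermat.Agent.S31.HeckeSat
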