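import Mathlib

/-!
# S31, leaf (D1): the saturation of a subgroup of a finitely generated abelian group has
finite exponent over it

`exists_sat_bound`: for a subgroup `M` of a finitely generated abelian group `E` there is `d ≥ 1`
such that `n • x ∈ M` (some `n ≥ 1`) implies `d • x ∈ M`.
-/

set_option autoImplicit false

namespace Fermat.Agent.S31.Saturation

variable {E : Type*} [AddCommGroup E]

/-- the saturation of a `ℤ`-submodule. -/
def sat (M : Submodule ℤ E) : Submodule ℤ E where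
  carrier := {x | ∃ n : ℕ, 0 < n ∧ n • x ∈ M}
  zero_mem' := ⟨1, one_pos, by rw [smul_zero]; exact M.zero_mem⟩
  add_mem' := by
    rintro x y ⟨n, hn, hx⟩ ⟨k, hk, hy⟩
    refine ⟨n * k, Nat.mul_pos hn hk, ?_⟩
    rw [smul_add]
    refine M.add_mem ?_ ?_
    · rw [mul_comm, mul_smul]
      exact M.smul_of_tower_mem k hx
    · rw [mul_smul]
      exact M.smul_of_tower_mem n hy
  smul_mem' := by
    rintro c x ⟨n, hn, hx⟩
    refine ⟨n, hn, ?_⟩
    rw [smul_comm]
    exact M.smul_mem c hx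

theorem mem_sat {M : Submodule ℤ E} {x : E} : x ∈ sat M ↔ ∃ n : ℕ, 0 < n ∧ n • x ∈ M := Iff.rfl

/-- **the saturation has finite exponent over `M`.** -/
theorem exists_sat_bound [Module.Finite ℤ E] (M : Submodule ℤ E) :
    ∃ d : ℕ, 0 < d ∧ ∀ (x : E) (n : ℕ), 0 < n → n • x ∈ M → d • x ∈ M := by
  classical
  have : IsNoetherian ℤ E := isNoetherian_of_isNoetherianRing_of_finite ℤ E
  obtain ⟨s, hs⟩ := (IsNoetherian.noetherian (sat M) : (sat M).FG)
  have hmem : ∀ x ∈ s, ∃ n : ℕ, 0 < n ∧ n • x ∈ M := fun x hx =>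
    mem_sat.mp (hs ▸ Submodule.subset_span hx)
  choose! f hf using hmem
  refine ⟨∏ x ∈ s, f x, Finset.prod_pos fun x hx => (hf x hx).1, ?_⟩
  intro x n hn hx
  have hxs : x ∈ Submodule.span ℤ (s : Set E) := by
    rw [hs]
    exact ⟨n, hn, hx⟩
  refine Submodule.span_induction (p := fun y _ => (∏ z ∈ s, f z) • y ∈ M) ?_ ?_ ?_ ?_ hxs
  · intro y hy
    have hy' : y ∈ s := hy
    rw [← Finset.mul_prod_erase s f hy', mul_comm, mul_smul]
    exact M.smul_of_tower_mem _ (hf y hy').2
  · rw [smul_zero]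
    exact M.zero_mem
  · intro y z _ _ hy hz
    rw [smul_add]
    exact M.add_mem hy hz
  · intro c y _ hy
    rw [smul_comm]
    exact M.smul_mem c hy

end Fermat.Agent.S31.Saturation
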