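import Mathlib
import Fermat.Agent.S31.Saturation
import Fermat.Agent.S31.RelTransfer

/-!
# S31, Lemma K, integral half: divisibility on `XMod N ℤ ℤ` forces smallness in `T`

`H := XMod N ℤ ℤ` (admissible integral characters of `Γ₀(N)`) is a finitely generated abelian group,
so the image of the free algebra in `End_ℤ H` has a saturation of finite exponent
(`Saturation.exists_sat_bound`).  Together with `RelTransfer.lift_T_eq_zero` (integral relations on
`H` hold in the Hecke algebra) and the torsion-freeness of the Hecke algebra this gives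

`exists_bound`: there is `c` such that for every noncommutative integral polynomial `Q` in the Hecke
operators with `Q(heckeX) H ⊆ p ^ n H`, and every ring homomorphism `π` from the Hecke algebra to a
local ring `T` with `p ∈ 𝔪_T`, one has `Q(π T_ℓ) ∈ 𝔪_T ^ (n - c)`.
-/

set_option autoImplicit false
set_option linter.unusedSectionVars false
set_option linter.style.haveILetI false

namespace Fermat.Agent.S31.HeckeSatZ

open Fermat.Agent.S29.Betti CongruenceSubgroup
open Fermat.Agent.S31.RelTransfer Fermat.Agent.S31.Saturation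
open scoped MatrixGroups

noncomputable section

variable {N : ℕ} [NeZero N]

/-- `XMod N ℤ ℤ` is a finitely generated abelian group. -/
instance finite_XMod : Module.Finite ℤ (XMod N ℤ ℤ) := by
  classical
  obtain ⟨S, hS⟩ := Group.fg_def.1 (inferInstance : Group.FG (Gamma0 N))
  exact Module.Finite.of_injective
    (Fermat.Agent.S30.TensorEigen.evS ℤ (XMod N ℤ ℤ) S)
    (Fermat.Agent.S30.TensorEigen.evS_injective ℤ (XMod N ℤ ℤ) hS)

/-- division of characters: `k • ψ = k • ψ'` implies `ψ = ψ'` for `k ≠ 0`. -/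
theorem nsmul_cancel {k : ℕ} (hk : k ≠ 0) {ψ ψ' : XMod N ℤ ℤ} (h : k • ψ = k • ψ') : ψ = ψ' := by
  apply Subtype.ext
  refine AddMonoidHom.ext fun γ => ?_
  have h1 : k • ((ψ : Additive (Gamma0 N) →+ ℤ) γ) = k • ((ψ' : Additive (Gamma0 N) →+ ℤ) γ) :=
    congrArg (fun u : XMod N ℤ ℤ => (u : Additive (Gamma0 N) →+ ℤ) γ) h
  exact nsmul_right_injective hk h1

/-- an endomorphism of `XMod N ℤ ℤ` with values divisible by `k ≠ 0` is `k` times an
endomorphism. -/
theorem exists_end_of_forall_exists {k : ℕ} (hk : k ≠ 0) (f : Module.End ℤ (XMod N ℤ ℤ))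
    (h : ∀ ψ : XMod N ℤ ℤ, ∃ ψ' : XMod N ℤ ℤ, f ψ = k • ψ') :
    ∃ Y : Module.End ℤ (XMod N ℤ ℤ), f = k • Y := by
  choose Y hY using h
  have hadd : ∀ a b, Y (a + b) = Y a + Y b := by
    intro a b
    apply nsmul_cancel hk
    rw [smul_add, ← hY, ← hY, ← hY, map_add]
  let Y' : XMod N ℤ ℤ →+ XMod N ℤ ℤ :=
    { toFun := Y
      map_zero' := by
        apply nsmul_cancel hk
        rw [← hY, map_zero, smul_zero]
      map_add' := hadd }
  refine ⟨Y'.toIntLinearMap, ?_⟩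
  ext1 ψ
  rw [LinearMap.smul_apply]
  exact hY ψ

/-- the ring-theoretic tail: `p ^ c * d' • x = p ^ n • y` in a torsion-free ring, `p ∤ d'`, `c ≤ n`,
implies `π x ∈ 𝔪 ^ (n - c)` for a homomorphism to a local ring with `p ∈ 𝔪`. -/
theorem map_mem_pow_of_nsmul_eq {A T : Type*} [CommRing A] [IsAddTorsionFree A] [CommRing T]
    [IsLocalRing T] (π : A →+* T) (p : ℕ) [hp : Fact p.Prime]
    (hpT : (p : T) ∈ IsLocalRing.maximalIdeal T) {c d' n : ℕ} (hd' : ¬ p ∣ d') (hnc : c ≤ n)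
    (x y : A) (h : (p ^ c * d') • x = (p ^ n : ℕ) • y) :
    π x ∈ IsLocalRing.maximalIdeal T ^ (n - c) := by
  -- cancel `p ^ c`
  have h1 : d' • x = (p ^ (n - c) : ℕ) • y := by
    have hpc : (p ^ c : ℕ) ≠ 0 := pow_ne_zero c hp.out.ne_zero
    apply nsmul_right_injective hpc
    show (p ^ c : ℕ) • d' • x = (p ^ c : ℕ) • (p ^ (n - c) : ℕ) • y
    rw [← mul_smul, ← mul_smul, ← pow_add, Nat.add_sub_cancel' hnc]
    exact h
  -- apply `π`
  have h2 : (d' : T) * π x = (p : T) ^ (n - c) * π y := by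
    have := congrArg π h1
    rw [map_nsmul, map_nsmul, nsmul_eq_mul, nsmul_eq_mul, Nat.cast_pow] at this
    exact this
  -- `d'` is a unit of `T`
  have hunit : IsUnit (d' : T) := by
    by_contra hnu
    have hmem : (d' : T) ∈ IsLocalRing.maximalIdeal T := (IsLocalRing.mem_maximalIdeal _).mpr hnu
    have hcop : Nat.Coprime d' p :=
      Nat.Coprime.symm ((Nat.Prime.coprime_iff_not_dvd hp.out).mpr hd')
    have hbez : (d' : ℤ) * Nat.gcdA d' p + (p : ℤ) * Nat.gcdB d' p = 1 := by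
      have := Nat.gcd_eq_gcd_ab d' p
      rw [hcop.gcd_eq_one] at this
      exact_mod_cast this.symm
    have hbezT : (d' : T) * ((Nat.gcdA d' p : ℤ) : T) + (p : T) * ((Nat.gcdB d' p : ℤ) : T)
        = 1 := by
      have := congrArg (Int.cast : ℤ → T) hbez
      push_cast at this
      exact this
    have h1mem : (1 : T) ∈ IsLocalRing.maximalIdeal T := by
      rw [← hbezT]
      exact Ideal.add_mem _ (Ideal.mul_mem_right _ _ hmem) (Ideal.mul_mem_right _ _ hpT)
    exact (IsLocalRing.maximalIdeal.isMaximal T).ne_top ((Ideal.eq_top_iff_one _).mpr h1mem)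
  obtain ⟨u, hu⟩ := hunit
  have : π x = (u⁻¹ : Tˣ) * ((p : T) ^ (n - c) * π y) := by
    rw [← h2, ← hu, ← mul_assoc, Units.inv_mul, one_mul]
  rw [this]
  exact Ideal.mul_mem_left _ _ (Ideal.mul_mem_right _ _ (Ideal.pow_mem_pow hpT _))

variable {ι : Type*} (g : ι → GoodPrime N) (S : Set ℕ) (hS : ∀ i, ((g i).1 : ℕ) ∉ S)

/-- **Lemma K, integral half.** -/
theorem exists_bound (p : ℕ) [hp : Fact p.Prime] :
    ∃ c : ℕ, ∀ (n : ℕ) (Q : FreeAlgebra ℤ ι),
      (∀ ψ : XMod N ℤ ℤ, ∃ ψ' : XMod N ℤ ℤ,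
        FreeAlgebra.lift ℤ (opX g ℤ) Q ψ = (p ^ n : ℕ) • ψ') →
      ∀ {T : Type*} [CommRing T] [IsLocalRing T] (π : CuspForm.heckeAlgebra N 2 S →+* T),
        (p : T) ∈ IsLocalRing.maximalIdeal T →
        FreeAlgebra.lift ℤ (fun i => π (TS g S hS i)) Q ∈ IsLocalRing.maximalIdeal T ^ (n - c) := by
  classical
  set evH : FreeAlgebra ℤ ι →ₐ[ℤ] Module.End ℤ (XMod N ℤ ℤ) := FreeAlgebra.lift ℤ (opX g ℤ)
    with hevH
  haveI : IsNoetherian ℤ (Module.End ℤ (XMod N ℤ ℤ)) :=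
    isNoetherian_linearMap ℤ (XMod N ℤ ℤ) (XMod N ℤ ℤ)
  haveI : Module.Finite ℤ (Module.End ℤ (XMod N ℤ ℤ)) :=
    Module.IsNoetherian.finite ℤ (Module.End ℤ (XMod N ℤ ℤ))
  obtain ⟨d, hd, hsat⟩ := exists_sat_bound (LinearMap.range evH.toLinearMap)
  obtain ⟨c, d', hd', hdd'⟩ := Nat.exists_eq_pow_mul_and_not_dvd hd.ne' p hp.out.ne_one
  refine ⟨c, fun n Q hdiv T _ _ π hpT => ?_⟩
  rcases Nat.lt_or_ge n c with hnc | hnc
  · rw [Nat.sub_eq_zero_of_le hnc.le, pow_zero, Ideal.one_eq_top]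
    exact Submodule.mem_top
  -- divide `evH Q` by `p ^ n`
  have hpn : (p ^ n : ℕ) ≠ 0 := pow_ne_zero n hp.out.ne_zero
  obtain ⟨Y, hY⟩ := exists_end_of_forall_exists hpn (evH Q) hdiv
  have hYmem : (p ^ n : ℕ) • Y ∈ LinearMap.range evH.toLinearMap := ⟨Q, hY⟩
  obtain ⟨Q', hQ'⟩ := hsat Y (p ^ n) (Nat.pos_of_ne_zero hpn) hYmem
  have hQ'' : evH Q' = d • Y := hQ'
  -- the relation `d • Q - p ^ n • Q'` holds on `XMod N ℤ ℤ`, hence in the Hecke algebra
  have hrel : evH (d • Q - (p ^ n : ℕ) • Q') = 0 := by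
    rw [map_sub, map_nsmul, map_nsmul, hY, hQ'', smul_comm, sub_self]
  have hT := lift_T_eq_zero g S hS _ hrel
  have hT' : (p ^ c * d') • (FreeAlgebra.lift ℤ (TS g S hS) Q)
      = (p ^ n : ℕ) • (FreeAlgebra.lift ℤ (TS g S hS) Q') := by
    rw [map_sub, map_nsmul, map_nsmul, sub_eq_zero] at hT
    rw [← hdd']
    exact hT
  rw [← map_lift_int π (TS g S hS) Q]
  exact map_mem_pow_of_nsmul_eq π p hpT hd' hnc _ _ hT'

end

end Fermat.Agent.S31.HeckeSatZ
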