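import Mathlib
import Fermat.Agent.S30.AdicTransfer
import Fermat.Agent.S31.PiCont

set_option autoImplicit false

/-!
# S31: the continuity hypothesis `hφ` of `TraceCompare.trace_mul_eq` from `PiCont`

`TraceCompare.trace_mul_eq` asks for
`∀ n, ∃ m, ∀ x : O, EndCong (J ^ m) (x • (1 : Module.End O M)) 0 → φ x ∈ maximalIdeal T ^ n`
for a commutative ring `O` acting on `M`.  Here `O` acts through a ring homomorphism `e` into a
`ℤ_[p]`-subalgebra `B` of `End M` (`M` finite free over `ℤ_[p]`), `J` is contained in the ideal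
generated by `p`, and the homomorphism to `T` factors through `B`.  The statement then follows from
`PiCont.exists_pow_mem_of_nsmul` (Artin-Rees).
-/

namespace Fermat.Agent.S31.PiContOf

open Fermat.Agent.S30.AdicTransfer

/-- monotonicity of `EndCong` in the ideal. -/
theorem endCong_mono {O : Type*} [CommRing O] {M : Type*} [AddCommGroup M] [Module O M]
    {I I' : Ideal O} (h : I ≤ I') {f f' : Module.End O M} (hf : EndCong I f f') :
    EndCong I' f f' := fun v =>
  Submodule.smul_mono (N := (⊤ : Submodule O M)) (P := ⊤) h le_rfl (hf v)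

/-- an endomorphism `x • 1` which vanishes modulo `(q) ^ m` has its values divisible by `q ^ m`. -/
theorem exists_nsmul_of_endCong {O : Type*} [CommRing O] {M : Type*} [AddCommGroup M] [Module O M]
    (q m : ℕ) (x : O)
    (h : EndCong ((Ideal.span {((q : ℕ) : O)}) ^ m) (x • (1 : Module.End O M)) 0) (v : M) :
    ∃ w : M, (q ^ m) • w = x • v := by
  have h1 := h v
  rw [LinearMap.zero_apply, sub_zero, LinearMap.smul_apply, Module.End.one_apply] at h1
  exact (PiCont.mem_span_natCast_pow_smul_top_iff (A := O) q m (x • v)).1 h1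

/-- the same for any ideal `J` contained in `(q)`. -/
theorem exists_nsmul_of_endCong_of_le {O : Type*} [CommRing O] {M : Type*} [AddCommGroup M]
    [Module O M] (q : ℕ) (J : Ideal O) (hJ : J ≤ Ideal.span {((q : ℕ) : O)}) (m : ℕ) (x : O)
    (h : EndCong (J ^ m) (x • (1 : Module.End O M)) 0) (v : M) :
    ∃ w : M, (q ^ m) • w = x • v :=
  exists_nsmul_of_endCong q m x (endCong_mono (Ideal.pow_right_mono hJ m) h) v

section Padic

variable {p : ℕ} [Fact p.Prime] {M : Type*} [AddCommGroup M] [Module ℤ_[p] M]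
  [Module.Free ℤ_[p] M] [Module.Finite ℤ_[p] M]

/-- **the continuity hypothesis of `TraceCompare.trace_mul_eq`, generic form.**  `O` is any
commutative ring acting on `M` through `e : O →+* B`, `B` a `ℤ_[p]`-subalgebra of `End M`. -/
theorem hPi_of_ringHom (B : Subalgebra ℤ_[p] (Module.End ℤ_[p] M))
    {O : Type*} [CommRing O] [Module O M] (J : Ideal O)
    (hJ : J ≤ Ideal.span {((p : ℕ) : O)})
    (e : O →+* B) (he : ∀ (x : O) (v : M), x • v = ((e x : B) : Module.End ℤ_[p] M) v)
    {T : Type*} [CommRing T] (I : Ideal T) (φ : B →+* T) (hp : ((p : ℕ) : T) ∈ I) (n : ℕ) :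
    ∃ m : ℕ, ∀ x : O, EndCong (J ^ m) (x • (1 : Module.End O M)) 0 → φ (e x) ∈ I ^ n := by
  obtain ⟨m, hm⟩ := PiCont.exists_pow_mem_of_nsmul B I φ (by rw [map_natCast]; exact hp) n
  refine ⟨m, fun x hx => hm (e x) fun v => ?_⟩
  obtain ⟨w, hw⟩ := exists_nsmul_of_endCong_of_le p J hJ m x hx v
  exact ⟨w, by rw [hw, he]⟩

/-- **the hypothesis `hPi` of `TopOf.result_of_package` / `hφ` of `TraceCompare.trace_mul_eq`,
verbatim shape**: `PiT : O →+* T` factors as `φ ∘ e` through the subalgebra `B` of `End M`. -/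
theorem hPi_of_factor (B : Subalgebra ℤ_[p] (Module.End ℤ_[p] M))
    {O : Type*} [CommRing O] [Module O M] (J : Ideal O)
    (hJ : J ≤ Ideal.span {((p : ℕ) : O)})
    (e : O →+* B) (he : ∀ (x : O) (v : M), x • v = ((e x : B) : Module.End ℤ_[p] M) v)
    {T : Type*} [CommRing T] (I : Ideal T) (φ : B →+* T) (PiT : O →+* T)
    (hfac : ∀ x : O, PiT x = φ (e x)) (hp : ((p : ℕ) : T) ∈ I) :
    ∀ n : ℕ, ∃ m : ℕ, ∀ x : O,
      EndCong (J ^ m) (x • (1 : Module.End O M)) 0 → PiT x ∈ I ^ n := by
  intro n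
  obtain ⟨m, hm⟩ := hPi_of_ringHom B J hJ e he I φ hp n
  exact ⟨m, fun x hx => by rw [hfac]; exact hm x hx⟩

end Padic

end Fermat.Agent.S31.PiContOf
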