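import Mathlib

/-!
# S31, step (R5): the homomorphism `𝕋_J → T` (abstract construction)

`E` a (non-commutative) `R`-algebra, `tJ : ι → E` a family of elements, `A` the subalgebra they
generate; `T` any `R`-algebra with a family `tT : ι → T`.  If every non-commutative polynomial
relation between the `tJ i` (an element of `FreeAlgebra R ι` killed by `FreeAlgebra.lift R tJ`)
also holds between the `tT i`, there is a unique `R`-algebra homomorphism `A →ₐ[R] T` sending
`tJ i` to `tT i`.

* `piHom tJ tT hA hker : A →ₐ[R] T`;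
* `piHom_lift`  : `piHom (lift tJ P) = lift tT P`;
* `piHom_gen`   : `piHom (tJ i) = tT i`;
* `piHom_unique`.

Used with `R = ℤ_[p]`, `E = End (T_p J₀(N))`, `tJ = heckeT`, `A = 𝕋_J`, `tT i = H.π (T_ℓ)`; the
kernel hypothesis is `RelTransferP` (helper29).
-/

set_option autoImplicit false

namespace Fermat.Agent.S31.PiHom

noncomputable section

variable {R : Type*} [CommRing R] {ι : Type*} {E : Type*} [Ring E] [Algebra R E]
  {T : Type*} [Ring T] [Algebra R T]

section Construction

variable (tJ : ι → E) (tT : ι → T) {A : Subalgebra R E}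
  (hA : Algebra.adjoin R (Set.range tJ) = A)

include hA

theorem range_lift_eq : (FreeAlgebra.lift R tJ).range = A := by
  rw [← hA, Algebra.adjoin_range_eq_range_freeAlgebra_lift]

theorem lift_mem (P : FreeAlgebra R ι) : FreeAlgebra.lift R tJ P ∈ A := by
  rw [← range_lift_eq tJ hA]
  exact ⟨P, rfl⟩

theorem gen_mem (i : ι) : tJ i ∈ A := by
  rw [← hA]
  exact Algebra.subset_adjoin ⟨i, rfl⟩

/-- the evaluation of non-commutative polynomials at `tJ`, as a map onto the subalgebra `A`. -/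
def evJ : FreeAlgebra R ι →ₐ[R] A :=
  (FreeAlgebra.lift R tJ).codRestrict A (lift_mem tJ hA)

@[simp] theorem evJ_coe (P : FreeAlgebra R ι) :
    ((evJ tJ hA P : A) : E) = FreeAlgebra.lift R tJ P := rfl

theorem evJ_surjective : Function.Surjective (evJ tJ hA) := by
  intro x
  have hx : (x : E) ∈ (FreeAlgebra.lift R tJ).range := by
    rw [range_lift_eq tJ hA]
    exact x.2
  obtain ⟨P, hP⟩ := hx
  exact ⟨P, Subtype.ext hP⟩

variable (hker : ∀ P : FreeAlgebra R ι, FreeAlgebra.lift R tJ P = 0 → FreeAlgebra.lift R tT P = 0)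

include hker

theorem ker_evJ_le :
    RingHom.ker ((evJ tJ hA : FreeAlgebra R ι →ₐ[R] A) : FreeAlgebra R ι →+* A) ≤
      RingHom.ker ((FreeAlgebra.lift R tT : FreeAlgebra R ι →ₐ[R] T) : FreeAlgebra R ι →+* T) := by
  intro P hP
  rw [RingHom.mem_ker] at hP ⊢
  have h1 : FreeAlgebra.lift R tJ P = 0 := by
    have := congrArg (fun x : A => (x : E)) hP
    exact this
  exact hker P h1

/-- the ring homomorphism `A → T`, `tJ i ↦ tT i`. -/
def piRingHom : A →+* T :=
  RingHom.liftOfSurjective ((evJ tJ hA : FreeAlgebra R ι →ₐ[R] A) : FreeAlgebra R ι →+* A)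
    (evJ_surjective tJ hA)
    ⟨((FreeAlgebra.lift R tT : FreeAlgebra R ι →ₐ[R] T) : FreeAlgebra R ι →+* T),
      ker_evJ_le tJ tT hA hker⟩

theorem piRingHom_evJ (P : FreeAlgebra R ι) :
    piRingHom tJ tT hA hker (evJ tJ hA P) = FreeAlgebra.lift R tT P :=
  RingHom.liftOfSurjective_comp_apply _ (evJ_surjective tJ hA) _ P

/-- **the algebra homomorphism `A →ₐ[R] T`, `tJ i ↦ tT i`.** -/
def piHom : A →ₐ[R] T :=
  { piRingHom tJ tT hA hker with
    commutes' := fun r => by
      have h1 := piRingHom_evJ tJ tT hA hker (algebraMap R (FreeAlgebra R ι) r)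
      rw [AlgHom.commutes, AlgHom.commutes] at h1
      exact h1 }

@[simp] theorem piHom_evJ (P : FreeAlgebra R ι) :
    piHom tJ tT hA hker (evJ tJ hA P) = FreeAlgebra.lift R tT P :=
  piRingHom_evJ tJ tT hA hker P

theorem piHom_lift (P : FreeAlgebra R ι) :
    piHom tJ tT hA hker ⟨FreeAlgebra.lift R tJ P, lift_mem tJ hA P⟩ = FreeAlgebra.lift R tT P :=
  piHom_evJ tJ tT hA hker P

theorem piHom_gen (i : ι) : piHom tJ tT hA hker ⟨tJ i, gen_mem tJ hA i⟩ = tT i := by
  have h := piHom_evJ tJ tT hA hker (FreeAlgebra.ι R i)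
  rw [FreeAlgebra.lift_ι_apply] at h
  rw [← h]
  congr 1
  apply Subtype.ext
  rw [evJ_coe, FreeAlgebra.lift_ι_apply]

theorem piHom_unique (φ : A →ₐ[R] T) (hφ : ∀ i, φ ⟨tJ i, gen_mem tJ hA i⟩ = tT i) :
    φ = piHom tJ tT hA hker := by
  have h : φ.comp (evJ tJ hA) = (piHom tJ tT hA hker).comp (evJ tJ hA) := by
    apply FreeAlgebra.hom_ext
    funext i
    have e : evJ tJ hA (FreeAlgebra.ι R i) = ⟨tJ i, gen_mem tJ hA i⟩ := by
      apply Subtype.ext
      rw [evJ_coe, FreeAlgebra.lift_ι_apply]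
    simp only [Function.comp_apply, AlgHom.comp_apply, e, hφ, piHom_gen]
  apply AlgHom.ext
  intro x
  obtain ⟨P, rfl⟩ := evJ_surjective tJ hA x
  exact AlgHom.congr_fun h P

end Construction

end

end Fermat.Agent.S31.PiHom
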