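import Mathlib

/-!
# S31, shared leaf: the power-sum (Lucas) sequence

`powSum a b j` is the sequence `P₀ = 2`, `P₁ = a`, `P_{j+2} = a · P_{j+1} − b · P_j`, over any
ring.  It computes

* `α ^ j + β ^ j` for commuting `α`, `β` with `a = α + β`, `b = α * β` (`pow_add_pow`);
* the trace of `A ^ j` for a `2 × 2` matrix, `a = tr A`, `b = det A` (`trace_pow_matrix`);
* the trace of `f ^ j` for an endomorphism of a finite free module with characteristic polynomial
  `X² − a X + b` (`trace_pow_of_charpoly`).

It is natural in ring homomorphisms (`map_powSum`) and respects congruences modulo a two-sided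
ideal (`powSum_sub_mem`).
-/

set_option autoImplicit false

open Polynomial

namespace Fermat.Agent.S31.PowerSum

/-- The power-sum sequence `P₀ = 2`, `P₁ = a`, `P_{j+2} = a P_{j+1} − b P_j`. -/
def powSum {R : Type*} [Ring R] (a b : R) : ℕ → R
  | 0 => 2
  | 1 => a
  | (j + 2) => a * powSum a b (j + 1) - b * powSum a b j

section Basic

variable {R : Type*} [Ring R] (a b : R)

@[simp] theorem powSum_zero : powSum a b 0 = 2 := rfl

@[simp] theorem powSum_one : powSum a b 1 = a := rfl

theorem powSum_add_two (j : ℕ) :
    powSum a b (j + 2) = a * powSum a b (j + 1) - b * powSum a b j := rfl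

theorem powSum_two : powSum a b 2 = a * a - b * 2 := rfl

/-- Naturality in ring homomorphisms. -/
theorem map_powSum {S : Type*} [Ring S] (f : R →+* S) (j : ℕ) :
    f (powSum a b j) = powSum (f a) (f b) j := by
  induction j using Nat.twoStepInduction with
  | zero => rw [powSum_zero, powSum_zero, map_ofNat]
  | one => rw [powSum_one, powSum_one]
  | more j h0 h1 => rw [powSum_add_two, powSum_add_two, map_sub, map_mul, map_mul, h0, h1]

/-- A sequence satisfying the recursion and the two initial conditions is `powSum`. -/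
theorem eq_powSum_of_rec (s : ℕ → R) (h0 : s 0 = 2) (h1 : s 1 = a)
    (hrec : ∀ j, s (j + 2) = a * s (j + 1) - b * s j) (j : ℕ) : s j = powSum a b j := by
  induction j using Nat.twoStepInduction with
  | zero => rw [h0, powSum_zero]
  | one => rw [h1, powSum_one]
  | more j i0 i1 => rw [hrec, i0, i1, powSum_add_two]

end Basic

section Commute

variable {R : Type*} [Ring R]

/-- **Power sums of commuting elements.** -/
theorem pow_add_pow {α β : R} (h : Commute α β) (j : ℕ) :
    α ^ j + β ^ j = powSum (α + β) (α * β) j := by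
  refine eq_powSum_of_rec (α + β) (α * β) (fun j => α ^ j + β ^ j) ?_ ?_ ?_ j
  · simp only [pow_zero]; norm_num
  · simp only [pow_one]
  · intro j
    have h1 : β * α ^ (j + 1) = α * β * α ^ j := by
      rw [pow_succ', ← mul_assoc, h.eq]
    have h2 : α * β ^ (j + 1) = α * β * β ^ j := by
      rw [pow_succ', ← mul_assoc]
    have h3 : α ^ (j + 2) = α * α ^ (j + 1) := pow_succ' α (j + 1)
    have h4 : β ^ (j + 2) = β * β ^ (j + 1) := pow_succ' β (j + 1)
    rw [add_mul, mul_add, mul_add, mul_add, h1, h2, h3, h4]
    abel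

/-- The relation `Φ² − aΦ + b = 0` with `b` a unit commuting with `Φ` in the form
`Φ ^ j + (b Φ⁻¹) ^ j = P_j(a, b)`: here `Ψ` plays the role of `b Φ⁻¹`. -/
theorem pow_add_pow_of_add_eq {Φ Ψ a b : R} (hc : Commute Φ Ψ) (hadd : Φ + Ψ = a)
    (hmul : Φ * Ψ = b) (j : ℕ) : Φ ^ j + Ψ ^ j = powSum a b j := by
  rw [← hadd, ← hmul]
  exact pow_add_pow hc j

end Commute

section Congruence

variable {R : Type*} [CommRing R]

/-- The power-sum sequence respects congruences modulo an ideal. -/
theorem powSum_sub_mem (I : Ideal R) {a a' b b' : R} (ha : a - a' ∈ I) (hb : b - b' ∈ I)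
    (j : ℕ) : powSum a b j - powSum a' b' j ∈ I := by
  have h := map_powSum a b (Ideal.Quotient.mk I) j
  have h' := map_powSum a' b' (Ideal.Quotient.mk I) j
  have ea : Ideal.Quotient.mk I a = Ideal.Quotient.mk I a' := by
    rw [← sub_eq_zero, ← map_sub]; exact Ideal.Quotient.eq_zero_iff_mem.mpr ha
  have eb : Ideal.Quotient.mk I b = Ideal.Quotient.mk I b' := by
    rw [← sub_eq_zero, ← map_sub]; exact Ideal.Quotient.eq_zero_iff_mem.mpr hb
  rw [← Ideal.Quotient.eq_zero_iff_mem, map_sub, h, h', ea, eb, sub_self]

end Congruence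

section Matrix

variable {R : Type*} [CommRing R]

/-- Cayley–Hamilton for `2 × 2` matrices. -/
theorem matrix_sq (A : Matrix (Fin 2) (Fin 2) R) :
    A ^ 2 = A.trace • A - A.det • (1 : Matrix (Fin 2) (Fin 2) R) := by
  rcases subsingleton_or_nontrivial R with hR | hR
  · exact Subsingleton.elim _ _
  have h := Matrix.aeval_self_charpoly A
  rw [Matrix.charpoly_fin_two] at h
  simp only [map_add, map_sub, map_mul, map_pow, aeval_X, aeval_C,
    Algebra.algebraMap_eq_smul_one] at h
  rw [smul_mul_assoc, one_mul] at h
  rw [← sub_eq_zero]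
  rw [← h]
  abel

/-- **Traces of powers of a `2 × 2` matrix.** -/
theorem trace_pow_matrix (A : Matrix (Fin 2) (Fin 2) R) (j : ℕ) :
    (A ^ j).trace = powSum A.trace A.det j := by
  refine eq_powSum_of_rec A.trace A.det (fun j => (A ^ j).trace) ?_ ?_ ?_ j
  · simp only [pow_zero, Matrix.trace_one, Fintype.card_fin]; norm_num
  · simp only [pow_one]
  · intro j
    have h : A ^ (j + 2) = A.trace • A ^ (j + 1) - A.det • A ^ j := by
      rw [pow_add, matrix_sq, mul_sub, mul_smul_comm, mul_smul_comm, mul_one, ← pow_succ]
    simp only [h, Matrix.trace_sub, Matrix.trace_smul, smul_eq_mul]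

end Matrix

section LinearMap

variable {R : Type*} [CommRing R] {V : Type*} [AddCommGroup V] [Module R V]

/-- A quadratic relation for an endomorphism gives the recursion for the traces of its powers. -/
theorem trace_pow_of_sq_eq (f : Module.End R V) {a b : R}
    (hsq : f ^ 2 = a • f - b • (1 : Module.End R V)) (htr : LinearMap.trace R V f = a)
    (h1 : LinearMap.trace R V (1 : Module.End R V) = 2) (j : ℕ) :
    LinearMap.trace R V (f ^ j) = powSum a b j := by
  refine eq_powSum_of_rec a b (fun j => LinearMap.trace R V (f ^ j)) ?_ ?_ ?_ j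
  · simp only [pow_zero]; exact h1
  · simp only [pow_one]; exact htr
  · intro j
    have h : f ^ (j + 2) = a • f ^ (j + 1) - b • f ^ j := by
      rw [pow_add, hsq, mul_sub, mul_smul_comm, mul_smul_comm, mul_one, ← pow_succ]
    simp only [h, map_sub, map_smul, smul_eq_mul]

variable [Module.Free R V] [Module.Finite R V]

/-- **Traces of powers from the characteristic polynomial.** If `f` has characteristic
polynomial `X² − a X + b` then `tr (f ^ j) = P_j(a, b)`. -/
theorem trace_pow_of_charpoly [Nontrivial R] (f : Module.End R V) {a b : R}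
    (h : f.charpoly = X ^ 2 - C a * X + C b) (j : ℕ) :
    LinearMap.trace R V (f ^ j) = powSum a b j := by
  have hdeg : (X ^ 2 - C a * X + C b : R[X]).natDegree = 2 := by
    have e : (X ^ 2 - C a * X + C b : R[X]) = X ^ 2 + (C (-a) * X + C b) := by
      rw [map_neg]; ring
    rw [e]
    have h1 : (C (-a) * X + C b : R[X]).degree < ((X : R[X]) ^ 2).degree := by
      rw [degree_X_pow]
      refine lt_of_le_of_lt (degree_linear_le) ?_
      norm_num
    rw [natDegree_add_eq_left_of_degree_lt h1, natDegree_X_pow]
  have hrank : Module.finrank R V = 2 := by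
    rw [← LinearMap.charpoly_natDegree f, h, hdeg]
  -- Cayley–Hamilton
  have hCH := LinearMap.aeval_self_charpoly f
  rw [h] at hCH
  simp only [map_add, map_sub, map_mul, map_pow, aeval_X, aeval_C,
    Algebra.algebraMap_eq_smul_one] at hCH
  rw [smul_mul_assoc, one_mul] at hCH
  have hsq : f ^ 2 = a • f - b • (1 : Module.End R V) := by
    rw [← sub_eq_zero, ← hCH]; abel
  -- the trace of `f`
  have htr : LinearMap.trace R V f = a := by
    let bas := Module.Free.chooseBasis R V
    have hcard : Fintype.card (Module.Free.ChooseBasisIndex R V) = 2 := by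
      rw [← Module.finrank_eq_card_chooseBasisIndex, hrank]
    have h2 : (LinearMap.toMatrix bas bas f).charpoly = X ^ 2 - C a * X + C b := by
      rw [← LinearMap.charpoly_def, h]
    have : Nonempty (Module.Free.ChooseBasisIndex R V) :=
      Fintype.card_pos_iff.mp (by rw [hcard]; norm_num)
    rw [LinearMap.trace_eq_matrix_trace R bas f, Matrix.trace_eq_neg_charpoly_coeff, h2, hcard]
    simp [coeff_X_pow, coeff_C]
  have h1 : LinearMap.trace R V (1 : Module.End R V) = 2 := by
    rw [LinearMap.trace_one, hrank]; norm_num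
  exact trace_pow_of_sq_eq f hsq htr h1 j

end LinearMap

end Fermat.Agent.S31.PowerSum
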