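import Mathlib
import Fermat.Agent.S31.RelTransfer
import Fermat.Agent.S31.FreeDecomp

/-!
# S31, step (3), `ℤ_p`-half: "`Π` is well defined"

`M` a `ℤ_[p]`-module with operators `tJ i`, receiving the admissible `ℤ_[p]`-valued characters
through an injective equivariant map `eM` (e.g. `M = T_p J₀(N)`, `eM = KappaSystem.eTate`).  Every
noncommutative polynomial relation `P` (coefficients in `ℤ_[p]`) among the `tJ i` on `M` holds among
the `π (T_ℓ)` in any commutative `ℤ_[p]`-algebra `T` receiving the Hecke algebra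
(`lift_pi_eq_zero_of_module`).

Chain: `M` ← `XMod N ℤ_[p] ℤ_[p]` (injective, equivariant), decomposition `P = ∑ c_i Q_i` with
integral `Q_i` and `ℤ`-linearly independent `c_i` (`FreeDecomp.exists_decomp`), evaluation at the
integral characters and at `γ` (each `Q_i` kills `XMod N ℤ ℤ`), the `ℂ`-half
(`RelTransfer.lift_pi_T_eq_zero`), reassembly.
-/

set_option autoImplicit false
set_option linter.unusedSectionVars false

namespace Fermat.Agent.S31.RelTransferQ

open Fermat.Agent.S29.Betti CongruenceSubgroup Fermat.Agent.S30.LimitMap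
open Fermat.Agent.S31.RelTransfer Fermat.Agent.S31.FreeDecomp
open scoped MatrixGroups

noncomputable section

variable {p : ℕ} [Fact p.Prime] {N : ℕ} [NeZero N] {ι : Type*} (g : ι → GoodPrime N)

/-- a `ℤ_[p]`-relation on `XMod N ℤ_[p] ℤ_[p]`, decomposed into integral relations with
`ℤ`-independent coefficients: every integral component kills `XMod N ℤ ℤ`. -/
theorem lift_opX_int_eq_zero {n : ℕ} (c : Fin n → ℤ_[p]) (hc : LinearIndependent ℤ c)
    (Q : Fin n → FreeAlgebra ℤ ι) (P : FreeAlgebra ℤ_[p] ι)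
    (hPQ : P = ∑ i, c i • intCast ℤ_[p] ι (Q i))
    (hP : FreeAlgebra.lift ℤ_[p] (fun i => heckeX (g i).2 ℤ_[p] ℤ_[p]) P = 0) (i : Fin n) :
    FreeAlgebra.lift ℤ (opX g ℤ) (Q i) = 0 := by
  classical
  ext1 ψ
  rw [LinearMap.zero_apply]
  apply Subtype.ext
  refine DFunLike.ext _ _ fun γ => ?_
  -- the values `x_k γ`
  set x : Fin n → XMod N ℤ ℤ := fun k => FreeAlgebra.lift ℤ (opX g ℤ) (Q k) ψ with hx
  have h1 := lift_eq_sum (fun i => heckeX (g i).2 ℤ_[p] ℤ_[p]) c Q P hPQ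
    (pushL (Int.castRingHom ℤ_[p]) ψ)
  rw [hP, LinearMap.zero_apply] at h1
  have h2 : ∀ k, FreeAlgebra.lift ℤ
      (fun j => (heckeX (g j).2 ℤ_[p] ℤ_[p]).restrictScalars ℤ) (Q k)
        (pushL (Int.castRingHom ℤ_[p]) ψ) = pushL (Int.castRingHom ℤ_[p]) (x k) := fun k =>
    (lift_intertwine (opX g ℤ) (opX g ℤ_[p]) (pushL (Int.castRingHom ℤ_[p]))
      (pushL_opX g (Int.castRingHom ℤ_[p])) (Q k) ψ).symm
  simp only [h2] at h1
  have h3 := congrArg (fun u : XMod N ℤ_[p] ℤ_[p] =>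
    (u : Additive (Gamma0 N) →+ ℤ_[p]) γ) h1
  have h4 : (((∑ k, c k • pushL (Int.castRingHom ℤ_[p]) (x k) : XMod N ℤ_[p] ℤ_[p])) :
      Additive (Gamma0 N) →+ ℤ_[p]) γ
      = ∑ k, ((x k : Additive (Gamma0 N) →+ ℤ) γ) • c k := by
    rw [Submodule.coe_sum, AddMonoidHom.finsetSum_apply]
    refine Finset.sum_congr rfl fun k _ => ?_
    rw [zsmul_eq_mul, mul_comm]
    rfl
  have h5 : ∑ k, ((x k : Additive (Gamma0 N) →+ ℤ) γ) • c k = 0 := by
    rw [← h4]
    exact h3.symm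
  exact Fintype.linearIndependent_iff.mp hc _ h5 i

variable (S : Set ℕ) (hS : ∀ i, ((g i).1 : ℕ) ∉ S)

/-- **"`Π` is well defined"**: a relation among the operators `tJ i` on a module receiving
`XMod N ℤ_[p] ℤ_[p]` injectively and equivariantly holds among the `π (T_ℓ)`. -/
theorem lift_pi_eq_zero_of_module {M : Type*} [AddCommGroup M] [Module ℤ_[p] M]
    (tJ : ι → Module.End ℤ_[p] M) (eM : XMod N ℤ_[p] ℤ_[p] →ₗ[ℤ_[p]] M)
    (heM : Function.Injective eM)
    (hcomm : ∀ i ψ, eM (heckeX (g i).2 ℤ_[p] ℤ_[p] ψ) = tJ i (eM ψ))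
    {T : Type*} [CommRing T] [Algebra ℤ_[p] T] (π : CuspForm.heckeAlgebra N 2 S →+* T)
    (P : FreeAlgebra ℤ_[p] ι) (hP : FreeAlgebra.lift ℤ_[p] tJ P = 0) :
    FreeAlgebra.lift ℤ_[p] (fun i => π (TS g S hS i)) P = 0 := by
  have h1 : FreeAlgebra.lift ℤ_[p] (fun i => heckeX (g i).2 ℤ_[p] ℤ_[p]) P = 0 :=
    lift_eq_zero_of_injective _ tJ eM heM hcomm P hP
  obtain ⟨n, c, Q, hc, hPQ⟩ := exists_decomp P
  have h2 : ∀ i, FreeAlgebra.lift ℤ (fun j => π (TS g S hS j)) (Q i) = 0 := fun i =>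
    lift_pi_T_eq_zero g S hS π (Q i) (lift_opX_int_eq_zero g c hc Q P hPQ h1 i)
  rw [hPQ, map_sum]
  refine Finset.sum_eq_zero fun i _ => ?_
  rw [map_smul, lift_intCast_alg, h2, smul_zero]

end

end Fermat.Agent.S31.RelTransferQ
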