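import Mathlib
import Fermat.Agent.S30.AdicTransfer
import Fermat.Agent.S31.PowerSum

/-!
# S31 (R2): traces of powers in terms of `S30.AdicTransfer.powSum`

Adapter: the power-sum sequence of `S31/PowerSum.lean` coincides with
`Fermat.Agent.S30.AdicTransfer.powSum` on commutative rings, so the trace formulas hold with the
latter.
-/

set_option autoImplicit false

open Polynomial

namespace Fermat.Agent.S31.TracePow

open Fermat.Agent.S30

variable {R : Type*} [CommRing R]

/-- The two power-sum sequences agree. -/
theorem powSum_eq (a d : R) (j : ℕ) : PowerSum.powSum a d j = AdicTransfer.powSum a d j := by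
  induction j using Nat.twoStepInduction with
  | zero => rfl
  | one => rfl
  | more j h0 h1 => rw [PowerSum.powSum_add_two, AdicTransfer.powSum, h0, h1]

/-- Naturality of `AdicTransfer.powSum` in ring homomorphisms. -/
theorem map_powSum {S : Type*} [CommRing S] (φ : R →+* S) (a d : R) (j : ℕ) :
    φ (AdicTransfer.powSum a d j) = AdicTransfer.powSum (φ a) (φ d) j := by
  rw [← powSum_eq, ← powSum_eq, PowerSum.map_powSum]

/-- `AdicTransfer.powSum` respects congruences modulo an ideal. -/
theorem powSum_sub_mem (I : Ideal R) {a a' d d' : R} (ha : a - a' ∈ I) (hd : d - d' ∈ I)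
    (j : ℕ) : AdicTransfer.powSum a d j - AdicTransfer.powSum a' d' j ∈ I := by
  rw [← powSum_eq, ← powSum_eq]
  exact PowerSum.powSum_sub_mem I ha hd j

/-- Traces of powers of a `2 × 2` matrix. -/
theorem trace_pow_matrix (A : Matrix (Fin 2) (Fin 2) R) (j : ℕ) :
    (A ^ j).trace = AdicTransfer.powSum A.trace A.det j := by
  rw [← powSum_eq, PowerSum.trace_pow_matrix]

variable {V : Type*} [AddCommGroup V] [Module R V] [Module.Free R V] [Module.Finite R V]

/-- **(R2)** If `f` has characteristic polynomial `X² − a X + b` then
`tr (f ^ j) = powSum a b j`. -/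
theorem trace_pow_of_charpoly (f : Module.End R V) {a b : R}
    (h : LinearMap.charpoly f = X ^ 2 - C a * X + C b) (j : ℕ) :
    LinearMap.trace R V (f ^ j) = AdicTransfer.powSum a b j := by
  rcases subsingleton_or_nontrivial R with hR | hR
  · exact Subsingleton.elim _ _
  rw [← powSum_eq, PowerSum.trace_pow_of_charpoly f h]

/-- The trace read off from the characteristic polynomial. -/
theorem trace_of_charpoly (f : Module.End R V) {a b : R}
    (h : LinearMap.charpoly f = X ^ 2 - C a * X + C b) : LinearMap.trace R V f = a := by
  have := trace_pow_of_charpoly f h 1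
  rwa [pow_one] at this

end Fermat.Agent.S31.TracePow
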